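import Fermat.Agent.RTM.AtP

/-!
The facts at `p` for the Hecke algebras of the Taylor–Wiles levels `N`, for all divisors `N` of `m`.
-/

set_option autoImplicit false
set_option linter.unusedSectionVars false

noncomputable section

namespace Fermat.Agent.RTX

open IsLocalRing Fermat.Agent.DefRing Fermat.Agent.RTan Fermat.Agent.LocRing Fermat.Agent.RTM
open Fermat.Agent.TWP (Pl Pl_lies Qb)
open Fermat.Agent.TW Fermat.Agent.TWDeg

variable {O : Type} [CommRing O] [IsDomain O] [IsDiscreteValuationRing O]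
  [IsAdicComplete (maximalIdeal O) O] [Finite (ResidueField O)] [CharZero O]
  {rbar : GQ →* M2 (ResidueField O)} {sd : SliceData rbar} {p : ℕ} [hp : Fact p.Prime]
  {W : WeierstrassCurve ℤ} {χ : GQ → O} {m : ℕ} {G : Gal sd p W χ m} (A : Amb G)

section hrep

variable {N : ℕ} (hN : N ∣ m) (n : ℕ) {M : Type} [AddCommGroup M]
  [Module (TPoly (m * G.Q n) O) M] [Module O M]
  (R : HRep (m := m * G.Q n) p ((A.tw₀ hN n).N * (A.tw₀ hN n).dd * (A.tw₀ hN n).dd) sd M)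

include A in
theorem p2_ndvd_lev (hsq : ¬ p ^ 2 ∣ N) : ¬ p ^ 2 ∣ N * G.Q n ^ 2 := by
  intro h1
  have hco : Nat.Coprime (p ^ 2) (G.Q n ^ 2) :=
    Nat.Coprime.pow _ _ ((Nat.Prime.coprime_iff_not_dvd hp.out).mpr (A.p_ndvd_Q n))
  exact hsq (hco.dvd_of_dvd_mul_right h1)

/-- the Hecke algebras are levels -/
theorem isLev_lev [NeZero ((A.tw₀ hN n).N * (A.tw₀ hN n).dd * (A.tw₀ hN n).dd)] :
    IsLev p ((A.tw₀ hN n).N * (A.tw₀ hN n).dd * (A.tw₀ hN n).dd) (m * G.Q n) R.C :=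
  IsLev.of_hrep R (A.m'_ne n) (A.lev_dvd hN n)

include R in
/-- **Ordinarity** -/
theorem ordX (P : GalP G) (hsq : ¬ p ^ 2 ∣ N) : OrdAt p χ R.C.r := by
  have h1 := A.lev_ne hN n
  refine (isLev_lev A hN n R).ordAt A.hp2 A.hpO (A.m'_ne n) (A.hpm.trans (dvd_mul_right _ _))
    (A.lev_dvd hN n) A.hχ A.hspan P.b (ordAt_rbar_of P) OrdNew.u1 OrdOld.u2 ?_
  rw [A.lev_eq hN n]
  exact p2_ndvd_lev A n hsq

include R in
/-- **Triviality of the monodromy** at the levels prime to `p` -/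
theorem tau_oneX (P : GalP G) (hpN : ¬ p ∣ N) : R.C.r P.τ = 1 := by
  have h1 := A.lev_ne hN n
  exact (isLev_lev A hN n R).tau_eq_one A.hp2 A.hpO (A.m'_ne n)
    (A.hpm.trans (dvd_mul_right _ _)) (A.lev_dvd hN n) A.hχ A.hspan P.b (ordAt_rbar_of P)
    OrdNew.u1 OrdOld.u2 (A.lev_p hN hpN n) P.pair

/-- [U1]: the level `N` of the Hecke algebra and the level `N₁` of the eigenspaces are independent -/
theorem hu1X (P : GalP G) {N₁ : ℕ} (hN₁ : N₁ ∣ m) (hpN₁ : ¬ p ∣ N₁) :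
    PInX.HU1 p (m * G.Q n) ((A.tw₀ hN₁ n).N * (A.tw₀ hN₁ n).dd * (A.tw₀ hN₁ n).dd)
      (EE O) R.φ (P.b.z R.C.r P.φ) P.z₀ := by
  have h1 := A.lev_ne hN n
  have h2 := A.lev_ne hN₁ n
  exact PInX.hu1_hrep R A.hp2 A.hpO (A.m'_ne n) (A.hpm.trans (dvd_mul_right _ _))
    (A.lev_dvd hN n) A.hspan P.b P.pair.frob P.sq (PInX.z_res P.b G.pt.red P.zpt)
    (A.lev_p hN₁ hpN₁ n) (A.lev_dvd hN₁ n)

/-- [U2] -/
theorem hu2X (P : GalP G) {N₁ : ℕ} (hN₁ : N₁ ∣ m) (hpN₁ : ¬ p ∣ N₁) :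
    PInX.HU2 p (m * G.Q n) ((A.tw₀ hN₁ n).N * (A.tw₀ hN₁ n).dd * (A.tw₀ hN₁ n).dd)
      (EE O) R.φ (P.b.z R.C.r P.φ) := by
  have h1 := A.lev_ne hN n
  have h2 := A.lev_ne hN₁ n
  exact PInX.hu2_hrep R A.hp2 A.hpO (A.m'_ne n) (A.hpm.trans (dvd_mul_right _ _))
    (A.lev_dvd hN n) A.hspan P.b A.hχ (ordAt_rbar_of P) P.pair.frob
    (A.lev_p hN₁ hpN₁ n) (A.lev_dvd hN₁ n)

end hrep

end Fermat.Agent.RTX
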