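import Fermat.Agent.TW.ExLev

/-!
Construction of the Taylor–Wiles levels, for levels without elements of order three.
-/

set_option autoImplicit false
set_option linter.unusedSectionVars false

noncomputable section

namespace Fermat.Agent.RTX

open IsLocalRing Module Matrix Fermat.Agent.DefRing Fermat.Agent.RT8 Fermat.Agent.TWDeg
open Fermat.Agent.TW
open CongruenceSubgroup

/-- `3` is invertible, or there are no elements of order three in `Γ₀(N)` -/
def Aux (p N : ℕ) : Prop := 5 ≤ p ∨ ∃ r : ℕ, r.Prime ∧ r ∣ N ∧ r % 3 = 2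

theorem Aux.mono {p N N' : ℕ} (h : Aux p N) (hN : N ∣ N') : Aux p N' :=
  h.imp_right fun ⟨r, hr, hrN, hr3⟩ => ⟨r, hr, hrN.trans hN, hr3⟩

theorem Aux.of_two {p N : ℕ} (h : 2 ∣ N ∨ 5 ≤ p) : Aux p N :=
  h.symm.imp_right fun h => ⟨2, Nat.prime_two, h, rfl⟩

section Good

variable {O : Type} [CommRing O] [IsLocalRing O] {p : ℕ} [hp : Fact p.Prime]
  (hpO : (p : O) ∈ maximalIdeal O) {D : Type} [CommGroup D] (W : TWD D)

include hpO in
theorem goodForX (hp2 : p ≠ 2) (h3 : Aux p W.N) (t : ℕ → LT) :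
    GoodFor W.M O (W.Yt t) where
  two := isUnit_two hpO hp2
  neg := W.neg_smul t
  three := by
    rcases h3 with h3 | ⟨r, hr, hrN, hr3⟩
    · exact Or.inl (isUnit_three hpO h3)
    · exact Or.inr (W.U_free hr hrN hr3 t)

end Good

section

variable {p n g : ℕ} [hp : Fact p.Prime] (hp2 : p ≠ 2) {D : Type} [CommGroup D] [Fintype D]
  (W : TWD D) {m m' : ℕ} (hm' : m' ≠ 0) (hM : W.M ∣ m') (hmm : m ∣ m') (hN : W.N ∣ m)
  {O : Type} [CommRing O] [IsDomain O] [IsDiscreteValuationRing O]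
  [IsAdicComplete (maximalIdeal O) O] [Finite (ResidueField O)] [CharZero O]
  (hpO : (p : O) ∈ maximalIdeal O)
  {rbar : GQ →* M2 (ResidueField O)} (sd : SliceData rbar)
  {𝔪 : Ideal (TPoly m O)} [𝔪.IsMaximal]
  {𝔪' : Ideal (TPoly m' O)} [𝔪'.IsMaximal] (hE' : NonEis W.M 𝔪')

include hpO in
theorem nontrivial_MQX (hp2 : p ≠ 2) (h3 : Aux p W.N)
    (e : EType W hM hN g 𝔪 𝔪') [Nontrivial (Loc 𝔪 (HG m W.N hN O))] :
    Nontrivial (MQ W hM 𝔪' O) := by
  have h1 : Nonempty (Fin (2 ^ g)) := ⟨⟨0, Nat.two_pow_pos g⟩⟩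
  have h2 : Nontrivial (Fin (2 ^ g) → Loc 𝔪 (HG m W.N hN O)) := Pi.nontrivial
  have h4 : Nontrivial (Loc 𝔪' ((XF hM).H (funRep (M := W.M) O O W.Y0))) :=
    e.toEquiv.nontrivial
  exact (push_loc_surjective hM W.isTorsor (goodForX hpO W hp2 h3 _) (goodForX hpO W hp2 h3 _)
    𝔪' O).nontrivial

variable (R : HRep (m := m) p W.N sd (Loc 𝔪 (HG m W.N hN O))) (P : Fin g → TWP rbar)
  (R' : HRep (m := m') p (W.N * W.dd * W.dd) sd (MQ W hM 𝔪' O))

include hp2 hm' hmm hpO hE' in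
/-- **Construction of the Taylor–Wiles levels.** -/
theorem exists_TWLevX (h3 : Aux p W.N) (idx : Fin g ≃ W.Q) (hqp : ∀ q ∈ W.Q, q ≠ p)
    (c : ∀ i, (ZMod (idx i))ˣ)
    (gen : Subgroup.closure (Set.range fun i =>
      (Pi.mulSingle (idx i) (W.χ (idx i) (c i)) : W.Q → D)) = ⊤)
    (card : Fintype.card (W.Q → D) = (p ^ (n + 1)) ^ g) (pow : ∀ d : D, d ^ (p ^ (n + 1)) = 1)
    (B : Fin g → ValuationSubring (AlgebraicClosure ℚ)) (lies : ∀ i, (B i).LiesOverPrime (idx i))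
    (mem : ∀ i, (P i).s ∈ (B i).inertiaSubgroupIn ℚ)
    (zeta : ∀ i (ζ : AlgebraicClosure ℚ), ζ ^ ((idx i : W.Q) : ℕ) = 1 →
      (P i).s ζ = ζ ^ (c i : ZMod (idx i)).val)
    (comm : ∀ i, R'.C.r (P i).φ * R'.C.r (P i).s = R'.C.r (P i).s * R'.C.r (P i).φ)
    (LG : LGHyp W hM rbar (AlgebraicClosure (FractionRing O)))
    (hb : ∃ e : EType W hM hN g 𝔪 𝔪', ∀ (P : TPoly m' O) x, e (P • x) = inc hmm O P • e x) :
    Nonempty (TWLev n g R P W hM 𝔪' R') := by
  obtain ⟨e, he⟩ := hb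
  have hq : ∀ i : Fin g, ((idx i : W.Q) : ℕ).Prime := fun i => W.tws.prime _ (idx i).2
  choose ζ hζ using fun i : Fin g =>
    have : NeZero ((idx i : W.Q) : ℕ) := ⟨(hq i).ne_zero⟩
    HasEnoughRootsOfUnity.exists_primitiveRoot (AlgebraicClosure ℚ) ((idx i : W.Q) : ℕ)
  exact ⟨{
    idx := idx
    c := c
    gen := gen
    card := card
    pow := pow
    nonEis := hE'
    goodQ := goodForX hpO W hp2 h3 _
    good0 := goodForX hpO W hp2 h3 _
    comm := comm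
    det := fun i => det_hrep hm' R' (hq i) (hqp _ (idx i).2) (B i) (lies i) _ (mem i) hpO
    B := B
    lies := lies
    mem := mem
    ζ := ζ
    prim := hζ
    zeta := fun i => zeta i _ (hζ i).pow_eq_one
    triv := fun i => R.unr _ (hq i) (W.tws.ndvd _ (idx i).2) (hqp _ (idx i).2) (B i) (lies i) _
      (mem i)
    lg := LG
    hmm := hmm
    ne := hm'
    e := e
    e_smul := he }⟩

end

end Fermat.Agent.RTX

end
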