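import Fermat.Agent.PInX.AmbZ
import Fermat.Agent.RTX.ExLevX
import Fermat.Agent.RTX.AmbOrdX

/-!
# The fields `degp` and `newp` of the supply, general levels
-/

set_option autoImplicit false
set_option linter.unusedSectionVars false

noncomputable section

namespace Fermat.Agent.RTX

open IsLocalRing Fermat.Agent.DefRing Fermat.Agent.RTan Fermat.Agent.LocRing Fermat.Agent.RTM
  Fermat.Agent.PInX
open Fermat.Agent.TWP (Pl Pl_lies Qb)
open Fermat.Agent.TW Fermat.Agent.TWDeg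

section Van

variable (W₀ : WeierstrassCurve ℤ) (hΔ : W₀.Δ ≠ 0) {p : ℕ} [hp : Fact p.Prime] (hp2 : p ≠ 2)
  (hirr : W₀.ModRepIsIrreducible p)
  {O : Type} [CommRing O] [IsDomain O] [IsDiscreteValuationRing O]
  [IsAdicComplete (maximalIdeal O) O] [Finite (ResidueField O)] [CharZero O]
  (hpO : (p : O) ∈ maximalIdeal O)
  {rbar : GQ →* M2 (ResidueField O)} (sd : SliceData rbar)
  (hspan : Submodule.span (ResidueField O) (Set.range rbar) = ⊤)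
  (hrbar : ∃ L : IntermediateField ℚ (AlgebraicClosure ℚ), FiniteDimensional ℚ L ∧
      ∀ σ : GQ, (∀ x ∈ L, σ x = x) → rbar σ = 1)
  {m m' : ℕ} (hm : m' ≠ 0) (hmm : m ∣ m') (hpm : p ∣ m)
  (htr : ∀ (l : Pr m) (B : ValuationSubring (AlgebraicClosure ℚ)), B.LiesOverPrime l →
      ∀ τ : GQ, B.IsFrobeniusAt τ l →
        (rbar τ).trace = ((W₀.apOfModel l : ℤ) : ResidueField O))
  {D : Type} [CommGroup D] [Fintype D] (W : TWD D) (hM : W.M ∣ m') (hN : W.N ∣ m)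
  (hN23 : Aux p W.N) (hQm : ∀ q ∈ W.Q, ¬ q ∣ m)
  (hfr : ∀ q ∈ W.Q, ∃ B : ValuationSubring (AlgebraicClosure ℚ), B.LiesOverPrime q ∧
    ∃ τ : GQ, B.IsFrobeniusAt τ q ∧ (rbar τ).trace ^ 2 ≠ ((q : ResidueField O) + 1) ^ 2)
  (hPG : IsPGroup p (W.Q → D))

include hΔ hp2 hirr hpO sd hspan hrbar hm hmm hpm htr hN hN23 hQm hfr hPG in
/-- **Vanishing** of the Taylor–Wiles modules over a level which is not residually modular -/
theorem vanish_MQ_X (hres : ¬ W₀.IsResiduallyModularOfLevel p W.N) :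
    Subsingleton (MQ W hM (PP W₀ m' O) O) := by
  have hm0 : m ≠ 0 := fun h => hm (Nat.eq_zero_of_zero_dvd (h ▸ hmm))
  exact subsingleton_MQ S30.result hm hmm hpm hpO sd hspan hrbar (fun n _ => S21.result n) locNew
    (RT8X.resId_PP' W₀ hmm htr) (resId_PP W₀ rbar htr) W hM hN
    (nonEis_PP W₀ hΔ hp.out hp2 hirr O hm W.tws.modu_ne_zero hpO) hQm hfr
    (goodForX hpO W hp2 hN23 _) (goodForX hpO W hp2 hN23 _) hPG
    (RT8X.subsingleton_HG W₀ hΔ hp2 hirr hpO hm0 hN hres)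

end Van

variable {O : Type} [CommRing O] [IsDomain O] [IsDiscreteValuationRing O]
  [IsAdicComplete (maximalIdeal O) O] [Finite (ResidueField O)] [CharZero O]
  {rbar : GQ →* M2 (ResidueField O)} {sd : SliceData rbar} {p : ℕ} [hp : Fact p.Prime]
  {W : WeierstrassCurve ℤ} {χ : GQ → O} {m : ℕ} {G : Gal sd p W χ m} (A : Amb G)

/-- **Degeneracy data at `p`** -/
theorem degZX {n N : ℕ} [NeZero N] [NeZero (N * p)] {hN : N ∣ m} {hN' : N * p ∣ m}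
    {hM : (A.tw₀ hN n).M ∣ m * G.Q n} {hM' : (A.tw₀ hN' n).M ∣ m * G.Q n}
    {R₁ : HRep (m := m) p N sd (Loc (PP W m O) (HG m N hN O))}
    {R₂ : HRep (m := m) p (N * p) sd (Loc (PP W m O) (HG m (N * p) hN' O))}
    {R₁' : HRep (m := m * G.Q n) p ((A.tw₀ hN n).N * (A.tw₀ hN n).dd * (A.tw₀ hN n).dd) sd
      (MQ (A.tw₀ hN n) hM (PP W (m * G.Q n) O) O)}
    {R₂' : HRep (m := m * G.Q n) p ((A.tw₀ hN' n).N * (A.tw₀ hN' n).dd * (A.tw₀ hN' n).dd) sd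
      (MQ (A.tw₀ hN' n) hM' (PP W (m * G.Q n) O) O)}
    (X₁ : TWLev n G.g R₁ (G.P n) (A.tw₀ hN n) hM (PP W (m * G.Q n) O) R₁')
    (X₂ : TWLev n G.g R₂ (G.P n) (A.tw₀ hN' n) hM' (PP W (m * G.Q n) O) R₂')
    (P : GalP G) (hpN : ¬ p ∣ N) :
    Nonempty (DegZ (X₂.tmod A.hp2 A.hpO A.hspan) (X₁.tmod A.hp2 A.hpO A.hspan)
      (RT8.FrobsOut (m * G.Q n)) P.b P.φ P.z₀) := by
  have hC : CharZero (AlgebraicClosure (FractionRing O)) :=
    charZero_of_injective_algebraMap (algebraMap (FractionRing O) _).injective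
  obtain ⟨ϖ, hϖ⟩ := IsDiscreteValuationRing.exists_irreducible O
  exact ⟨mkDegZ (A.tw₀ hN n) (notMem_Q₀ A hN n) hM hM' hpN
    (A.m'_ne n) A.hpO (AlgebraicClosure (FractionRing O)) TWLev.inj_E (PP W (m * G.Q n) O)
    X₁.nonEis X₂.nonEis P.b A.hspan
    (realT A.hp2 A.hpO A.hspan X₁) (realT A.hp2 A.hpO A.hspan X₂) hϖ
    (upInj_curve W A.hΔ hp.out A.hp2 A.hirr (A.tw₀ hN n) hp.out (notMem_Q₀ A hN n) (A.m'_ne n)
      hM hM' hpN A.hpO (PP W (m * G.Q n) O)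
      (fun s => X_sub_C_mem_PP W _ O s) hϖ)
    (down_surj_curve W A.hΔ hp.out A.hp2 A.hirr (A.tw₀ hN n) hp.out (notMem_Q₀ A hN n) (A.m'_ne n)
      hM hM' hpN A.hpO (PP W (m * G.Q n) O)
      (fun a ha => C_mem_PP W _ O ha) (fun s => X_sub_C_mem_PP W _ O s))
    A.hp2 P.sq (z_res P.b G.pt.red P.zpt) (hu2X A hN n R₁' P hN hpN)
    (hu1X A hN' n R₂' P hN hpN)⟩

/-- **`p`-new levels** -/
theorem newpX {n N : ℕ} [NeZero (N * p)] (hN : N ∣ m) {hN' : N * p ∣ m} (haux : Aux p N)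
    (hpN : ¬ p ∣ N)
    {hM' : (A.tw₀ hN' n).M ∣ m * G.Q n}
    {R₂ : HRep (m := m) p (N * p) sd (Loc (PP W m O) (HG m (N * p) hN' O))}
    {R₂' : HRep (m := m * G.Q n) p ((A.tw₀ hN' n).N * (A.tw₀ hN' n).dd * (A.tw₀ hN' n).dd) sd
      (MQ (A.tw₀ hN' n) hM' (PP W (m * G.Q n) O) O)}
    (X₂ : TWLev n G.g R₂ (G.P n) (A.tw₀ hN' n) hM' (PP W (m * G.Q n) O) R₂')
    (P : GalP G) (hres : ¬ W.IsResiduallyModularOfLevel p N)
    (x : (X₂.tmod A.hp2 A.hpO A.hspan).M) :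
    (P.b.z (X₂.tmod A.hp2 A.hpO A.hspan).C.r P.φ - algebraMap O _ P.z₀) • x = 0 := by
  have hC : CharZero (AlgebraicClosure (FractionRing O)) :=
    charZero_of_injective_algebraMap (algebraMap (FractionRing O) _).injective
  have hM : (A.tw₀ hN n).M ∣ m * G.Q n := by
    rw [A.tw₀_M]
    exact mul_dvd_mul_right hN _
  have hsub : Subsingleton (MQ (A.tw₀ hN n) hM (PP W (m * G.Q n) O) O) :=
    vanish_MQ_X W A.hΔ A.hp2 A.hirr A.hpO sd A.hspan G.rd.cont (A.m'_ne n)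
      (dvd_mul_right m (G.Q n)) A.hpm (A.tr dvd_rfl) (A.tw₀ hN n) hM hN haux
      (fun q hq => by
        obtain ⟨i, rfl⟩ := A.mem_Q₀ hN n hq
        exact G.avoid n i)
      (fun q hq => by
        obtain ⟨i, rfl⟩ := A.mem_Q₀ hN n hq
        exact Amb.hfr_of n i)
      (isPGroup_delta p n G.g N A.hp2 _ (G.q n) (Amb.dvdQ n) (Amb.ndvd_of hN n)) hres
  exact new_p (A.tw₀ hN n) (notMem_Q₀ A hN n) hM hM' hpN
    (AlgebraicClosure (FractionRing O)) TWLev.inj_E (PP W (m * G.Q n) O) X₂.nonEis P.b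
    (realT A.hp2 A.hpO A.hspan X₂) (hu1X A hN' n R₂' P hN hpN) hsub x

end Fermat.Agent.RTX

end
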