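import Fermat.Agent.RTX.AmbX
import Fermat.Agent.RTX.AmbZX

/-!
# The fields `ord`, `newp`, `degp` of the supply, general levels
-/

set_option autoImplicit false
set_option linter.unusedSectionVars false

noncomputable section

namespace Fermat.Agent.RTX

open IsLocalRing Fermat.Agent.DefRing Fermat.Agent.RTan Fermat.Agent.LocRing Fermat.Agent.RTM
open Fermat.Agent.TWP (Pl Pl_lies Qb)
open Fermat.Agent.TW Fermat.Agent.TWDeg

variable {O : Type} [CommRing O] [IsDomain O] [IsDiscreteValuationRing O]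
  [IsAdicComplete (maximalIdeal O) O] [Finite (ResidueField O)] [CharZero O]
  {rbar : GQ →* M2 (ResidueField O)} {sd : SliceData rbar} {p : ℕ} [hp : Fact p.Prime]
  {W : WeierstrassCurve ℤ} {χ : GQ → O} {m s : ℕ} {G : Gal sd p W χ m} (A : AmbX G s) (E : A.Ex)

namespace AmbX

/-- **[ord]** -/
theorem ord (P : GalP G) (n N : ℕ) (h : OkX W p s m N) : OrdAt p χ (A.L E n N h).C.r :=
  ordX A.toAmb h.dvd n (A.R' h n) P (h.not_sq hp.out)

/-- **[newp]** -/
theorem newp (P : GalP G) (N : ℕ) (h' : OkX W p s m (N * p)) (hsN : s ∣ N)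
    (hres : ¬ W.IsResiduallyModularOfLevel p N) (n : ℕ) (x : (A.L E n (N * p) h').M) :
    (P.b.z (A.L E n (N * p) h').C.r P.φ - algebraMap O _ P.z₀) • x = 0 :=
  have := h'.neZero
  newpX A.toAmb ((dvd_mul_right N p).trans h'.dvd) (A.hs.aux hsN) (h'.not_dvd hp.out)
    (A.X E h' n) P hres x

/-- **[degp]** -/
theorem degp (P : GalP G) (N : ℕ) (h : OkX W p s m N) (h' : OkX W p s m (N * p)) (n : ℕ) :
    (A.L E n N h).C.r P.τ = 1 ∧ Nonempty (DegZ (A.L E n (N * p) h') (A.L E n N h)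
      (RT8.FrobsOut (m * G.Q n)) P.b P.φ P.z₀) :=
  have := h.neZero
  have := h'.neZero
  ⟨tau_oneX A.toAmb h.dvd n (A.R' h n) P (h'.not_dvd hp.out),
    degZX A.toAmb (A.X E h n) (A.X E h' n) P (h'.not_dvd hp.out)⟩

end AmbX

end Fermat.Agent.RTX

end
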