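import Fermat.Agent.RT8X.Newst
import Fermat.Agent.RTX.ExLevX

/-!
# New levels of the patching system, general levels
-/

set_option autoImplicit false
set_option linter.unusedSectionVars false

noncomputable section

namespace Fermat.Agent.RTX

open IsLocalRing Module Matrix Fermat.Agent.DefRing Fermat.Agent.TW Fermat.Agent.LocRing
  Fermat.Agent.TWDeg Fermat.Agent.HeckeHom Fermat.Agent.RTM CuspForm Fermat.Agent.RT8X

variable (W₀ : WeierstrassCurve ℤ) (hΔ : W₀.Δ ≠ 0) {p : ℕ} [hp : Fact p.Prime] (hp2 : p ≠ 2)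
  (hirr : W₀.ModRepIsIrreducible p)
  {O : Type} [CommRing O] [IsDomain O] [IsDiscreteValuationRing O]
  [IsAdicComplete (maximalIdeal O) O] [Finite (ResidueField O)] [CharZero O]
  (hpO : (p : O) ∈ maximalIdeal O)
  {rbar : GQ →* M2 (ResidueField O)} (sd : SliceData rbar)
  (hspan : Submodule.span (ResidueField O) (Set.range rbar) = ⊤)
  (hrbar : ∃ L : IntermediateField ℚ (AlgebraicClosure ℚ), FiniteDimensional ℚ L ∧
      ∀ σ : GQ, (∀ x ∈ L, σ x = x) → rbar σ = 1)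
  {m m' : ℕ} (hm : m' ≠ 0) (hmm : m ∣ m') (hpm : p ∣ m)
  (htr : ∀ (l : Pr m) (B : ValuationSubring (AlgebraicClosure ℚ)), B.LiesOverPrime l →
      ∀ τ : GQ, B.IsFrobeniusAt τ l →
        (rbar τ).trace = ((W₀.apOfModel l : ℤ) : ResidueField O))
  {D : Type} [CommGroup D] [Fintype D] (W : TWD D) (hM : W.M ∣ m') (hN : W.N ∣ m)
  (hN23 : Aux p W.N) (hQm : ∀ q ∈ W.Q, ¬ q ∣ m)
  (hfr : ∀ q ∈ W.Q, ∃ B : ValuationSubring (AlgebraicClosure ℚ), B.LiesOverPrime q ∧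
    ∃ τ : GQ, B.IsFrobeniusAt τ q ∧ (rbar τ).trace ^ 2 ≠ ((q : ResidueField O) + 1) ^ 2)
  (hPG : IsPGroup p (W.Q → D))

include hΔ hp2 hirr hpO sd hspan hrbar hm hmm hpm htr hN hN23 hQm hfr hPG in
/-- **Vanishing** of the Taylor–Wiles modules over a level which is not residually modular -/
theorem subsingleton_MQ_of_not_resX (hres : ¬ W₀.IsResiduallyModularOfLevel p W.N) :
    Subsingleton (MQ W hM (PP W₀ m' O) O) := by
  have hm0 : m ≠ 0 := fun h => hm (Nat.eq_zero_of_zero_dvd (h ▸ hmm))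
  exact subsingleton_MQ S30.result hm hmm hpm hpO sd hspan hrbar (fun n _ => S21.result n) locNew
    (resId_PP' W₀ hmm htr) (resId_PP W₀ rbar htr) W hM hN
    (nonEis_PP W₀ hΔ hp.out hp2 hirr O hm W.tws.modu_ne_zero hpO) hQm hfr
    (goodForX hpO W hp2 hN23 _) (goodForX hpO W hp2 hN23 _) hPG
    (subsingleton_HG W₀ hΔ hp2 hirr hpO hm0 hN hres)

variable {l : ℕ} (hl : l.Prime) (hlQ : l ∉ W.Q) (hM' : (raise W hl hlQ).M ∣ m')
  (hlN : ¬ l ∣ W.N) (hlp : l ≠ p) {n' : ℕ}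
  (R : HRep (m := m') p n' sd (MQ (raise W hl hlQ) hM' (PP W₀ m' O) O))

include hΔ hp2 hirr hpO hspan hrbar hm hmm hpm htr hM hN hN23 hQm hfr hPG hlN hlp in
/-- **new levels**: `(tr r(φ_l))² = (l + 1)²` at level `N l` if the level `N` is not residually
modular -/
theorem trace_sq_of_not_resX (hres : ¬ W₀.IsResiduallyModularOfLevel p W.N)
    {B : ValuationSubring (AlgebraicClosure ℚ)} (hB : B.LiesOverPrime l) {τ : GQ}
    (hτ : B.IsFrobeniusAt τ l) : (R.C.r τ).trace ^ 2 = ((l : R.C.T) + 1) ^ 2 :=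
  trace_sq W hl hlQ hM hM' hlN hm (hpm.trans hmm) hlp hpO (PP W₀ m' O)
    (nonEis_PP W₀ hΔ hp.out hp2 hirr O hm (raise W hl hlQ).tws.modu_ne_zero hpO) R
    (subsingleton_MQ_of_not_resX W₀ hΔ hp2 hirr hpO sd hspan hrbar hm hmm hpm htr W hM hN hN23 hQm
      hfr hPG hres) hB hτ

end Fermat.Agent.RTX
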