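import Fermat.Agent.RTX.AmbX
import Fermat.Agent.RTX.NewstX

/-!
The fields `newst`, `deg` of the supply, general levels.
-/

set_option autoImplicit false
set_option linter.unusedSectionVars false

noncomputable section

namespace Fermat.Agent.RTX

open IsLocalRing Fermat.Agent.DefRing Fermat.Agent.RTan Fermat.Agent.LocRing
open Fermat.Agent.TWP (Pl Pl_lies Qb)
open Fermat.Agent.TW Fermat.Agent.TWDeg
open Fermat.Agent.RTM

variable {O : Type} [CommRing O] [IsDomain O] [IsDiscreteValuationRing O]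
  [IsAdicComplete (maximalIdeal O) O] [Finite (ResidueField O)] [CharZero O]
  {rbar : GQ →* M2 (ResidueField O)} {sd : SliceData rbar} {p : ℕ} [hp : Fact p.Prime]
  {W : WeierstrassCurve ℤ} {χ : GQ → O} {m s : ℕ} {G : Gal sd p W χ m} (A : AmbX G s)

namespace AmbX

variable (E : A.Ex)

/-- **[newst]** -/
theorem newst (l : Nat.Primes) (hlp : (l : ℕ) ≠ p) (N : ℕ) (h' : OkX W p s m (N * l))
    (h2 : s ∣ N) (hres : ¬ W.IsResiduallyModularOfLevel p N) (n : ℕ) :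
    ((A.L E n (N * l) h').C.r (G.φ l)).trace ^ 2 =
      (((l : ℕ) : (A.L E n (N * l) h').C.T) + 1) ^ 2 := by
  have hN : N ∣ m := (dvd_mul_right N l).trans h'.dvd
  have hlm : (l : ℕ) ∣ m := (dvd_mul_left (l : ℕ) N).trans h'.dvd
  have hlQ : (l : ℕ) ∉ (A.tw₀ hN n).Q := fun h => by
    obtain ⟨i, hi⟩ := A.mem_Q₀ hN n h
    exact G.avoid n i (by rw [hi]; exact hlm)
  have hT := G.tame l hlp
  exact trace_sq_of_not_resX W A.hΔ A.hp2 A.hirr A.hpO sd A.hspan G.rd.cont (A.m'_ne n)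
    (dvd_mul_right m (G.Q n)) A.hpm (A.tr dvd_rfl) (A.tw₀ hN n) (A.hM₀ hN n) hN (A.hs.aux h2)
    (fun q hq => by
      obtain ⟨i, rfl⟩ := A.mem_Q₀ hN n hq
      exact G.avoid n i)
    (fun q hq => by
      obtain ⟨i, rfl⟩ := A.mem_Q₀ hN n hq
      exact RTM.Amb.hfr_of n i)
    (isPGroup_delta p n G.g N A.hp2 _ (G.q n) (RTM.Amb.dvdQ n) (RTM.Amb.ndvd_of hN n)) l.2 hlQ
    (A.hM h' n) (h'.not_dvd l.2) hlp (A.R' h' n) hres (Pl_lies l) hT.frob

/-- **[deg]** -/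
theorem deg (l : Nat.Primes) (hlp : (l : ℕ) ≠ p) (N : ℕ) (h : OkX W p s m N)
    (h' : OkX W p s m (N * l)) (n : ℕ) :
    Nonempty (RT8.DegPT (A.L E n (N * l) h') (A.L E n N h) (RT8.FrobsOut (m * G.Q n)) l
      (G.φ l)) := by
  have hlm : (l : ℕ) ∣ m := (dvd_mul_left (l : ℕ) N).trans h'.dvd
  have hlQ : (l : ℕ) ∉ (A.tw h n).Q := fun h1 => by
    obtain ⟨i, hi⟩ := A.mem_Q h n h1
    exact G.avoid n i (by rw [hi]; exact hlm)
  have hT := G.tame l hlp
  have := h.neZero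
  have := h'.neZero
  exact degPT_curve W A.hΔ A.hp2 A.hirr A.hpO A.hspan l.2 hlQ (h'.not_dvd l.2)
    (fun a ha => C_mem_PP W _ O ha) (fun s => X_sub_C_mem_PP W _ O s) (A.X E h n) (A.X E h' n)
    A.hES A.hloc A.h30 (A.hpm.trans (dvd_mul_right m (G.Q n))) hlp (Pl_lies l) hT.frob

end AmbX

end Fermat.Agent.RTX
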