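import Fermat.Agent.RTM.Lift

/-!
The levels of the patching systems with an auxiliary prime.
-/

set_option autoImplicit false
set_option linter.unusedSectionVars false

noncomputable section

namespace Fermat.Agent.RTX

/-- the primes of the patching systems -/
abbrev LamX (p s m : ℕ) : Type := ↥((m.primeFactors.erase p).erase s)

variable {p s m : ℕ}

theorem LamX.mem (l : LamX p s m) : l.1 ≠ s ∧ l.1 ≠ p ∧ l.1 ∈ m.primeFactors := by
  have h := l.2
  rw [Finset.mem_erase, Finset.mem_erase] at h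
  exact h

theorem LamX.prime (l : LamX p s m) : (l.1).Prime := Nat.prime_of_mem_primeFactors l.mem.2.2

theorem LamX.ne (l : LamX p s m) : l.1 ≠ p := l.mem.2.1

theorem LamX.nes (l : LamX p s m) : l.1 ≠ s := l.mem.1

theorem LamX.dvd (l : LamX p s m) : l.1 ∣ m := Nat.dvd_of_mem_primeFactors l.mem.2.2

/-- the prime as an element of `Nat.Primes` -/
def LamX.pr (l : LamX p s m) : Nat.Primes := ⟨l.1, l.prime⟩

/-- constructor -/
def LamX.mk' (hm : m ≠ 0) {l : ℕ} (hl : l.Prime) (hlp : l ≠ p) (hls : l ≠ s) (hlm : l ∣ m) :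
    LamX p s m :=
  ⟨l, Finset.mem_erase.mpr ⟨hls, Finset.mem_erase.mpr ⟨hlp,
    Nat.mem_primeFactors.mpr ⟨hl, hlm, hm⟩⟩⟩⟩

/-- the level -/
def levX (S : Finset (LamX p s m)) (b : Bool) : ℕ := s * (∏ l ∈ S, l.1) * (if b then p else 1)

/-- the level without the auxiliary prime -/
def lev1 (S : Finset (LamX p s m)) (b : Bool) : ℕ := (∏ l ∈ S, l.1) * (if b then p else 1)

theorem levX_eq (S : Finset (LamX p s m)) (b : Bool) : levX S b = s * lev1 S b := by
  rw [levX, lev1]; ring

theorem levX_insert {S : Finset (LamX p s m)} {b : Bool} {l : LamX p s m} (hl : l ∉ S) :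
    levX (insert l S) b = levX S b * l.1 := by
  rw [levX, levX, Finset.prod_insert hl]; ring

theorem levX_true (S : Finset (LamX p s m)) : levX S true = levX S false * p := by
  rw [levX, levX]; simp

theorem levX_erase {S : Finset (LamX p s m)} {b : Bool} {l : LamX p s m} (hl : l ∈ S) :
    levX S b = levX (S.erase l) b * l.1 := by
  rw [← levX_insert (Finset.notMem_erase l S), Finset.insert_erase hl]

theorem s_dvd_levX (S : Finset (LamX p s m)) (b : Bool) : s ∣ levX S b := by
  rw [levX_eq]; exact dvd_mul_right _ _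

theorem dvd_lev1_iff (hp : p.Prime) {S : Finset (LamX p s m)} {b : Bool} {q : ℕ} (hq : q.Prime) :
    q ∣ lev1 S b ↔ (∃ l ∈ S, l.1 = q) ∨ (b = true ∧ q = p) := by
  rw [lev1, hq.dvd_mul, Prime.dvd_finsetProd_iff hq.prime]
  refine or_congr ⟨?_, ?_⟩ ?_
  · rintro ⟨l, hl, h⟩
    exact ⟨l, hl, ((Nat.prime_dvd_prime_iff_eq hq l.prime).mp h).symm⟩
  · rintro ⟨l, hl, rfl⟩
    exact ⟨l, hl, dvd_rfl⟩
  · cases b
    · simp [hq.one_lt.ne']
    · simp [Nat.prime_dvd_prime_iff_eq hq hp]

section

variable (hs : s = 1 ∨ s.Prime) (hp : p.Prime) (hsp : s ≠ p)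

include hs in
theorem dvd_s_iff {q : ℕ} (hq : q.Prime) : q ∣ s ↔ q = s := by
  constructor
  · intro h
    rcases hs with rfl | hs
    · exact absurd (Nat.dvd_one.mp h) hq.one_lt.ne'
    · exact (Nat.prime_dvd_prime_iff_eq hq hs).mp h
  · rintro rfl; exact dvd_rfl

include hs hp in
theorem dvd_levX_iff {S : Finset (LamX p s m)} {b : Bool} {q : ℕ} (hq : q.Prime) :
    q ∣ levX S b ↔ q = s ∨ (∃ l ∈ S, l.1 = q) ∨ (b = true ∧ q = p) := by
  rw [levX_eq, hq.dvd_mul, dvd_s_iff hs hq, dvd_lev1_iff hp hq]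

include hs hp in
theorem not_dvd_levX {S : Finset (LamX p s m)} {b : Bool} {l : LamX p s m}
    (hl : l ∉ S) : ¬ l.1 ∣ levX S b := by
  rw [dvd_levX_iff hs hp l.prime]
  rintro (h | ⟨l', hl', h⟩ | ⟨-, h⟩)
  · exact l.nes h
  · exact hl (Subtype.ext h ▸ hl')
  · exact l.ne h

include hs hp in
theorem p_dvd_levX_iff (hsp : s ≠ p) {S : Finset (LamX p s m)} {b : Bool} :
    p ∣ levX S b ↔ b = true := by
  rw [dvd_levX_iff hs hp hp]
  constructor
  · rintro (h | ⟨l, -, h⟩ | ⟨h, -⟩)
    · exact absurd h.symm hsp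
    · exact absurd h l.ne
    · exact h
  · intro h
    exact Or.inr (Or.inr ⟨h, rfl⟩)

include hs hp hsp in
theorem levX_sqf (S : Finset (LamX p s m)) (b : Bool) : Squarefree (levX S b) := by
  have hs0 : Squarefree s := by
    rcases hs with rfl | hs
    · exact squarefree_one
    · exact hs.squarefree
  induction S using Finset.induction_on with
  | empty =>
    rw [levX, Finset.prod_empty, mul_one]
    cases b
    · simpa using hs0
    · rw [if_pos rfl, Nat.squarefree_mul]
      · exact ⟨hs0, hp.squarefree⟩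
      · rcases hs with rfl | hs
        · exact Nat.coprime_one_left p
        · exact (Nat.coprime_primes hs hp).mpr hsp
  | insert l S hl ih =>
    rw [levX_insert hl, Nat.squarefree_mul]
    · exact ⟨ih, l.prime.squarefree⟩
    · exact ((Nat.Prime.coprime_iff_not_dvd l.prime).mpr (not_dvd_levX hs hp hl)).symm

include hs hp hsp in
theorem levX_dvd (hpm : p ∣ m) (hsm : s ∣ m) (S : Finset (LamX p s m)) (b : Bool) :
    levX S b ∣ m := by
  induction S using Finset.induction_on with
  | empty =>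
    rw [levX, Finset.prod_empty, mul_one]
    cases b
    · simpa using hsm
    · rw [if_pos rfl]
      refine Nat.Coprime.mul_dvd_of_dvd_of_dvd ?_ hsm hpm
      rcases hs with rfl | hs
      · exact Nat.coprime_one_left p
      · exact (Nat.coprime_primes hs hp).mpr hsp
  | insert l S hl ih =>
    rw [levX_insert hl]
    exact ((Nat.Prime.coprime_iff_not_dvd l.prime).mpr
      (not_dvd_levX hs hp hl)).symm.mul_dvd_of_dvd_of_dvd ih l.dvd

include hs hp hsp in
/-- every squarefree divisor of `m` divisible by `s` is a level -/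
theorem exists_levX (hm : m ≠ 0) {N : ℕ} (hN : Squarefree N) (hNm : N ∣ m) (hsN : s ∣ N)
    {b : Bool} (hb : p ∣ N ↔ b = true) : ∃ S : Finset (LamX p s m), levX S b = N := by
  classical
  refine ⟨Finset.univ.filter fun l => l.1 ∣ N, ?_⟩
  rw [Nat.Squarefree.ext_iff (levX_sqf hs hp hsp _ _) hN]
  intro q hq
  rw [dvd_levX_iff hs hp hq]
  constructor
  · rintro (rfl | ⟨l, hl, rfl⟩ | ⟨h, rfl⟩)
    · exact hsN
    · exact (Finset.mem_filter.mp hl).2
    · exact hb.mpr h
  · intro h
    by_cases hqs : q = s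
    · exact Or.inl hqs
    · by_cases hqp : q = p
      · subst hqp
        exact Or.inr (Or.inr ⟨hb.mp h, rfl⟩)
      · exact Or.inr (Or.inl ⟨LamX.mk' hm hq hqp hqs (h.trans hNm), Finset.mem_filter.mpr
          ⟨Finset.mem_univ _, h⟩, rfl⟩)

end

theorem lev1_dvd_levX (S : Finset (LamX p s m)) (b : Bool) : lev1 S b ∣ levX S b := by
  rw [levX_eq]; exact dvd_mul_left _ _

end Fermat.Agent.RTX

end
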