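import Fermat.Agent.RTan.Mod

/-!
Modularity theorems for systems of modules: all primes are treated alike.
-/

set_option autoImplicit false
set_option linter.unusedSectionVars false

namespace Fermat.Agent.RTX

open IsLocalRing Module Fermat.Agent.RT1 Fermat.Agent.LocRing Fermat.Agent.DefRing
  Fermat.Agent.RT8J Fermat.Agent.RT8 Fermat.Agent.RTan
open Fermat.Agent.TWP (Pl Qb)
open Fermat.Agent.ORD (Pair)

section mod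

variable {𝒪 : Type} [CommRing 𝒪] [IsDomain 𝒪] [IsDiscreteValuationRing 𝒪]
  [IsAdicComplete (maximalIdeal 𝒪) 𝒪] [Finite (ResidueField 𝒪)]
  {rbar : GQ →* M2 (ResidueField 𝒪)}
  {sd : SliceData rbar} {p g : ℕ} {Λ K : Type} [Fintype Λ] [DecidableEq Λ] [Finite K]
  {X : MSys sd p g Λ K} (hp : p.Prime) (hp𝒪 : (p : 𝒪) ∈ maximalIdeal 𝒪)

/-- **Modularity, case (A), module form.** -/
theorem modularA0 (hN : NumC (fun l => (X.ℓ l : 𝒪))) {g' : ℕ}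
    (Z : Frm (X.toSys hp hp𝒪) Empty g') (hg : g' ≤ g)
    (κ : Finset Λ → K) (S₀ : Finset Λ)
    (hram : ∀ S, S₀ ⊆ S → X.ram (κ S) = S) (hd : 0 < (X.B (κ S₀)).d)
    (hnew : ∀ l ∈ S₀, NewM X (κ S₀) l)
    (W : ∀ S, S₀ ⊆ S → ∀ l ∉ S, DegPM X (κ (insert l S)) (κ S) l)
    (S : Finset Λ) (hdom : IsDomain X.pt.T) (hjS : ∀ l ∉ S, X.pt.r (X.τ l) = 1)
    (hinj : ∀ t : (X.B (κ S)).C.T, (∀ x : (X.B (κ S)).M, t • x = 0) → t = 0) :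
    S₀ ⊆ S ∧ ∃ f : (X.B (κ S)).C.T →ₐ[𝒪] X.pt.T,
      mapRep (f : (X.B (κ S)).C.T →+* X.pt.T) (X.B (κ S)).C.r = X.pt.r := by
  have hdom' : IsDomain ((X.toSys hp hp𝒪).C₀ none).T := hdom
  exact Frm.modularA (Y := X.toSys hp hp𝒪) hp hp𝒪 hN Z hg κ S₀ hram hd
    (fun l hl => (hnew l hl).toNewAt hp hp𝒪)
    (fun S hS l hl => (W S hS l hl).toDegPrime hp hp𝒪) S none hjS
    (act₀_injective hp hp𝒪 hinj)

/-- **Modularity, case (B), module form.** -/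
theorem modularB0 (hN : NumC (fun l => (X.ℓ l : 𝒪))) {g' : ℕ}
    (Z : Frm (X.toSys hp hp𝒪) Bool g') (hg : g' + 1 ≤ g)
    (huv : ∀ n, Z.s n false * Z.s n true = 0)
    (κ : Finset Λ → K) (S₀ : Finset Λ)
    (hram : ∀ S, S₀ ⊆ S → X.ram (κ S) = S) (hd : 0 < (X.B (κ S₀)).d)
    (hnew : ∀ l ∈ S₀, NewM X (κ S₀) l)
    (W : ∀ S, S₀ ⊆ S → ∀ l ∉ S, DegPM X (κ (insert l S)) (κ S) l)
    (hin : PInM hp hp𝒪 Z (κ S₀) S₀)
    (S : Finset Λ) (hdom : IsDomain X.pt.T) (hjS : ∀ l ∉ S, X.pt.r (X.τ l) = 1)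
    (hju : ∀ n, (X.A hp hp𝒪 n).pr none (Z.s n false) = 0)
    (hinj : ∀ t : (X.B (κ S)).C.T, (∀ x : (X.B (κ S)).M, t • x = 0) → t = 0) :
    S₀ ⊆ S ∧ ∃ f : (X.B (κ S)).C.T →ₐ[𝒪] X.pt.T,
      mapRep (f : (X.B (κ S)).C.T →+* X.pt.T) (X.B (κ S)).C.r = X.pt.r := by
  have hdom' : IsDomain ((X.toSys hp hp𝒪).C₀ none).T := hdom
  exact Frm.modularB (Y := X.toSys hp hp𝒪) hp hp𝒪 hN Z hg huv κ S₀ hram hd
    (fun l hl => (hnew l hl).toNewAt hp hp𝒪)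
    (fun S hS l hl => (W S hS l hl).toDegPrime hp hp𝒪) (hin.toPInput hp hp𝒪) S none hjS
    (fun n => by
      rw [Sys.pr_π]
      exact hju n)
    (act₀_injective hp hp𝒪 hinj)

end mod

section B

variable {𝒪 : Type} [CommRing 𝒪] [IsDomain 𝒪] [IsDiscreteValuationRing 𝒪]
  [IsAdicComplete (maximalIdeal 𝒪) 𝒪] [Finite (ResidueField 𝒪)]
  {rbar : GQ →* M2 (ResidueField 𝒪)}
  {sd : SliceData rbar} {p m : ℕ} [hp : Fact p.Prime] {Λ K : Type} [Fintype Λ] [DecidableEq Λ]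
  [Finite K] {X : MSys sd p m Λ K} {χ : GQ → 𝒪} (D : MTan X χ)
  (hp𝒪 : (p : 𝒪) ∈ maximalIdeal 𝒪) (hp2 : p ≠ 2) (hχ : CycChar p χ) (b : Bas p χ rbar)
  {φ τ : GQ}

include D hp2 hχ hp𝒪 in
/-- **Modularity, case (B).** -/
theorem tan_modularB0 (hpt : OrdAt p χ X.pt.r) (hL : ∀ n k, OrdAt p χ (X.L n k).C.r)
    (hpair : Pair p (Pl (ExtCitation.pPrime p)) φ τ)
    (hτ : rbar τ = 1) (z₀ : 𝒪) (hz₀ : z₀ ^ 2 = 1) (hzpt : b.z X.pt.r φ = algebraMap 𝒪 _ z₀)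
    (hN : RT8.NumC (fun l => (X.ℓ l : 𝒪)))
    (κ : Finset Λ → K) (S₀ : Finset Λ)
    (hram : ∀ S, S₀ ⊆ S → X.ram (κ S) = S) (hd : 0 < (X.B (κ S₀)).d)
    (hnew : ∀ l ∈ S₀, RT8.NewM X (κ S₀) l)
    (W : ∀ S, S₀ ⊆ S → ∀ l ∉ S, RT8.DegPM X (κ (insert l S)) (κ S) l)
    (hin : PModB X b φ τ z₀ (κ S₀) S₀)
    (S : Finset Λ) (hdom : IsDomain X.pt.T) (hjS : ∀ l ∉ S, X.pt.r (X.τ l) = 1)
    (hinj : ∀ t : (X.B (κ S)).C.T, (∀ x : (X.B (κ S)).M, t • x = 0) → t = 0) :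
    S₀ ⊆ S ∧ ∃ f : (X.B (κ S)).C.T →ₐ[𝒪] X.pt.T,
      mapRep (f : (X.B (κ S)).C.T →+* X.pt.T) (X.B (κ S)).C.r = X.pt.r := by
  have hres : b.z rbar φ = residue 𝒪 z₀ := by
    obtain ⟨π, hπ⟩ := RT8J.exists_pi (𝒪 := 𝒪) (R := (X.A hp.out hp𝒪 0).R)
      (X.A hp.out hp𝒪 0).surj
    have h1 := pi_z b (Y := X.toSys hp.out hp𝒪) (n := 0) hπ φ
    rw [← h1, ← hπ, ← sub_eq_zero, ← map_sub, RT8J.pi_eq_zero_iff π hπ]
    by_contra hcon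
    have h2 : IsUnit (b.z (X.A hp.out hp𝒪 0).r0 φ - algebraMap 𝒪 _ z₀) := by
      rwa [mem_maximalIdeal, mem_nonunits_iff, not_not] at hcon
    have h3 := h2.map ((X.A hp.out hp𝒪 0).pr none)
    rw [map_sub, pr_pt_z, hzpt, AlgHom.commutes] at h3
    have h4 : algebraMap 𝒪 X.pt.T z₀ - algebraMap 𝒪 X.pt.T z₀ = 0 := sub_self _
    have h5 : IsUnit (0 : X.pt.T) := h4 ▸ h3
    exact not_isUnit_zero h5
  obtain ⟨g', hg', Z, hZf, hZt, huv⟩ := (D.toTan hp𝒪).exists_frm_B hp2 hχ hp𝒪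
    (fun n => forall_opt hp𝒪 (fun _ _ _ r => OrdAt p χ r) hpt (hL n)) b hpair hτ z₀ hz₀ hres
  exact modularB0 hp.out hp𝒪 hN Z hg'.le huv κ S₀ hram hd hnew W
    (PModB.toPInM hp𝒪 b hz₀ hZf hZt hin) S hdom hjS (fun n => by
      rw [hZf, map_sub, pr_pt_z, hzpt, AlgHom.commutes]
      exact sub_self _) hinj

end B

end Fermat.Agent.RTX
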