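import Fermat.Agent.RTX.SupplyX
import Fermat.Agent.RTX.LevS
import Fermat.Agent.RTX.Mod0

/-!
The patching systems of the modular levels (with an auxiliary number `s` dividing all levels),
and the proof of modularity from the modular side and the Galois side.
-/

set_option autoImplicit false
set_option linter.unusedSectionVars false

noncomputable section

namespace Fermat.Agent.RTX

open IsLocalRing Fermat.Agent.DefRing Fermat.Agent.RTan Fermat.Agent.LocRing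
open Fermat.Agent.TWP (Pl Pl_lies Qb)
open Fermat.Agent.ORD (Pair)
open Fermat.Agent.TW (NonEis Loc HG)
open Fermat.Agent.RTM (Gal GalP DegZ IsLev PP res_of_nz nz_mul nz_of_res coprime_Q Q_ne_zero q_ne
  isUnit_nat span_of_rd isModularModelOfLevel_of_char)

theorem AuxS.or {W : WeierstrassCurve ℤ} {p s : ℕ} (h : AuxS W p s) : s = 1 ∨ s.Prime := by
  rcases h with h | h
  · exact Or.inl h.1
  · exact Or.inr h.1

theorem AuxS.ne {W : WeierstrassCurve ℤ} {p s : ℕ} (h : AuxS W p s) : s ≠ p := by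
  rcases h with ⟨rfl, h⟩ | h
  · omega
  · exact h.2.2.1

theorem AuxS.not_dvd {W : WeierstrassCurve ℤ} {p s : ℕ} (h : AuxS W p s) (hs : s.Prime) :
    ¬ (s : ℤ) ∣ W.Δ := by
  rcases h with ⟨rfl, -⟩ | h
  · exact absurd hs Nat.not_prime_one
  · exact h.2.2.2.1

section mono

variable {O : Type} [CommRing O] [IsDomain O] [IsDiscreteValuationRing O] [CharZero O]
  {p s : ℕ} [hp : Fact p.Prime] {W : WeierstrassCurve ℤ} {m : ℕ}
  (hm : m ≠ 0) (hpm : p ∣ m) (hpO : (p : O) ∈ maximalIdeal O) (hΔ : W.Δ ≠ 0)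
  (hΔm : ∀ q : ℕ, q.Prime → (q : ℤ) ∣ W.Δ → q ∣ m)
  (hE : ∀ M : ℕ, M ≠ 0 → NonEis M (PP W m O))

include hm hpm hpO hΔ hΔm hE in
/-- monotonicity of the levels -/
theorem OkX.mul {N : ℕ} (h : OkX W p s m N) {l : ℕ} (hl : l.Prime) (hlN : ¬ l ∣ N)
    (hlm : l ∣ m) : OkX W p s m (N * l) := by
  have hco : Nat.Coprime l N := (Nat.Prime.coprime_iff_not_dvd hl).mpr hlN
  have hdvd : N * l ∣ m := hco.symm.mul_dvd_of_dvd_of_dvd h.dvd hlm
  refine ⟨hdvd, (Nat.squarefree_mul hco.symm).mpr ⟨h.sqf, hl.squarefree⟩,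
    h.aux.mul_right l, ?_⟩
  refine res_of_nz W O hm hp.out hpO hΔ hdvd hE ?_
  exact nz_mul hl hco h.dvd hdvd (PP W m O) (nz_of_res W O hm hp.out hpm hpO hΔm h.dvd h.res)

end mono

section ok

variable {O : Type} [CommRing O] [IsDomain O] [IsDiscreteValuationRing O]
  [IsAdicComplete (maximalIdeal O) O] [Finite (ResidueField O)] [CharZero O]
  {rbar : GQ →* M2 (ResidueField O)} {sd : SliceData rbar} {p s : ℕ} [hp : Fact p.Prime]
  {W : WeierstrassCurve ℤ} {χ : GQ → O} {m : ℕ} (G : Gal sd p W χ m)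

omit hp in
theorem OkX.nsqL {N : ℕ} (h : OkX W p s m N) {l : ℕ} (hl : l.Prime) : ¬ l ^ 2 ∣ N := by
  intro h2
  rw [pow_two] at h2
  exact hl.one_lt.ne' (Nat.isUnit_iff.mp (h.sqf l h2))

theorem OkX.nsqL' {N : ℕ} (h : OkX W p s m N) (n : ℕ) {l : ℕ} (hl : l.Prime) (hlm : l ∣ m) :
    ¬ l ^ 2 ∣ N * G.Q n ^ 2 := by
  intro h2
  exact h.nsqL hl (((coprime_Q G hl hlm n).pow 2 2).dvd_of_dvd_mul_right h2)

omit hp in
theorem OkX.memL {N : ℕ} (h : OkX W p s m N) (q : ℕ) (_ : q.Prime) (hqN : q ∣ N) : q ∣ m :=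
  hqN.trans h.dvd

theorem OkX.memL' {N : ℕ} (h : OkX W p s m N) (n : ℕ) (q : ℕ) (hq : q.Prime)
    (hqN : q ∣ N * G.Q n ^ 2) : q ∣ m * G.Q n := by
  rcases hq.dvd_mul.mp hqN with h1 | h1
  · exact (h.memL q hq h1).mul_right _
  · exact (hq.dvd_of_dvd_pow h1).mul_left _

theorem OkX.neZeroL' {N : ℕ} (h : OkX W p s m N) (n : ℕ) : NeZero (N * G.Q n ^ 2) :=
  ⟨mul_ne_zero h.sqf.ne_zero (pow_ne_zero 2 (Q_ne_zero G n))⟩

end ok

section sys

variable {O : Type} [CommRing O] [IsDomain O] [IsDiscreteValuationRing O]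
  [IsAdicComplete (maximalIdeal O) O] [Finite (ResidueField O)] [CharZero O]
  {rbar : GQ →* M2 (ResidueField O)} {sd : SliceData rbar} {p s : ℕ} [hp : Fact p.Prime]
  {W : WeierstrassCurve ℤ} {χ : GQ → O} {m : ℕ} {G : Gal sd p W χ m} (M : SupplyX G s)
  (hm : m ≠ 0) (hpm : p ∣ m) (hpO : (p : O) ∈ maximalIdeal O)
  (hΔm : ∀ q : ℕ, q.Prime → (q : ℤ) ∣ W.Δ → q ∣ m) (hχ : CycChar p χ)
  (hs : AuxS W p s) (hsm : s ∣ m)

/-- the levels are unramified at the auxiliary prime -/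
def UnrS (M : SupplyX G s) : Prop :=
  s.Prime → ∀ (n N : ℕ) (h : OkX W p s m N) (A : ValuationSubring Qb), A.LiesOverPrime s →
    ∀ σ ∈ A.inertiaSubgroupIn ℚ, (M.L n N h).C.r σ = 1

/-- the index set of the levels -/
abbrev KX (W : WeierstrassCurve ℤ) (p s m : ℕ) (c : Bool) : Type :=
  {k : Finset (LamX p s m) × Bool // OkX W p s m (levX k.1 k.2) ∧ (k.2 = true → c = true)}

/-- **The system of the modular levels.** -/
def SupplyX.sys (c : Bool) : RT8.MSys sd p G.g (LamX p s m) (KX W p s m c) where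
  ℓ l := l.1
  φ l := G.φ l.pr
  τ l := G.τ l.pr
  pt := G.pt
  B k := M.B _ k.2.1
  P := G.P
  L n k := M.L n _ k.2.1
  ram k := k.1.1
  hpt l := G.pt_uni l.pr l.ne
  hB k l := by
    have := k.2.1.neZero
    exact (M.levB _ k.2.1).isUni hpO hm k.2.1.memL hχ (k.2.1.nsqL l.prime) (G.tame l.pr l.ne)
  hL n k l := by
    have := k.2.1.neZeroL' G n
    exact (M.levL n _ k.2.1 _ rfl).isUni hpO (mul_ne_zero hm (Q_ne_zero G n)) (k.2.1.memL' G n) hχ
      (k.2.1.nsqL' G n l.prime l.dvd) (G.tame l.pr l.ne)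
  hIpt n i := G.pt_good (G.q n i) (q_ne G hpm n i)
    (fun h => G.avoid n i (hΔm _ (G.q n i).2 h)) (Pl (G.q n i)) (Pl_lies _) _ (G.inert n i)
  hram n k l hl := by
    have := k.2.1.neZeroL' G n
    refine (M.levL n _ k.2.1 _ rfl).unr l.1 l.prime ?_ l.ne (Pl l.pr) (Pl_lies l.pr) _
      (G.tame l.pr l.ne).mem
    intro h1
    rcases l.prime.dvd_mul.mp h1 with h2 | h2
    · exact not_dvd_levX hs.or hp.out hl h2
    · exact (Nat.Prime.coprime_iff_not_dvd l.prime).mp (coprime_Q G l.prime l.dvd n)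
        (l.prime.dvd_of_dvd_pow h2)

/-- **The global data of the system.** -/
def SupplyX.tan (hU : UnrS M) (c : Bool) : MTan (M.sys hm hpm hpO hΔm hχ hs c) χ where
  S := G.S
  hpS := G.hpS
  unrOut := G.unrOut
  rd := G.rd
  q := G.q
  τQ n i := (G.P n i).φ
  lev := id
  tw := G.tw
  ec := G.ec
  prime l := l.prime
  inj _ _ h := Subtype.ext h
  mem l := G.mem l.pr l.dvd
  tame l := G.tame l.pr l.ne
  det_pt := G.pt_det
  det n k σ := by
    have := k.2.1.neZeroL' G n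
    exact (M.levL n _ k.2.1 _ rfl).det hpO (mul_ne_zero hm (Q_ne_zero G n)) (k.2.1.memL' G n) hχ σ
  unr_pt v hvp hv A hA σ hσ := by
    have hvp' : (v : ℕ) ≠ p := fun h => hvp (Subtype.ext h)
    refine G.pt_good v hvp' (fun h => ?_) A hA σ hσ
    have hvs : (v : ℕ) ≠ s := by
      intro h'
      exact hs.not_dvd (h' ▸ v.2) (h' ▸ h)
    exact hv (LamX.mk' hm v.2 hvp' hvs (hΔm _ v.2 h)) rfl
  unr n k v hvp hv hvQ A hA σ hσ := by
    have := k.2.1.neZeroL' G n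
    have hvp' : (v : ℕ) ≠ p := fun h => hvp (Subtype.ext h)
    by_cases hvs : (v : ℕ) = s
    · exact hU (hvs ▸ v.2) n _ k.2.1 A (hvs ▸ hA) σ hσ
    · refine (M.levL n _ k.2.1 _ rfl).unr v v.2 (fun h1 => ?_) hvp' A hA σ hσ
      rcases v.2.dvd_mul.mp h1 with h2 | h2
      · exact hv (LamX.mk' hm v.2 hvp' hvs (k.2.1.memL v v.2 h2)) rfl
      · obtain ⟨i, -, h3⟩ := (Prime.dvd_finsetProd_iff v.2.prime _).mp (v.2.dvd_of_dvd_pow h2)
        exact hvQ i (Subtype.ext ((Nat.prime_dvd_prime_iff_eq v.2 (G.q n i).2).mp h3))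

/-- the common input of the modularity theorems -/
structure InpX {g : ℕ} {Λ K : Type} [Fintype Λ] [DecidableEq Λ] [Finite K]
    (X : RT8.MSys sd p g Λ K) where
  κ : Finset Λ → K
  S₀ : Finset Λ
  hram : ∀ S, S₀ ⊆ S → X.ram (κ S) = S
  hd : 0 < (X.B (κ S₀)).d
  hnew : ∀ l ∈ S₀, RT8.NewM X (κ S₀) l
  W : ∀ S, S₀ ⊆ S → ∀ l ∉ S, RT8.DegPM X (κ (insert l S)) (κ S) l

theorem SupplyX.deg' (M : SupplyX G s) {l : Nat.Primes} (hlp : (l : ℕ) ≠ p) {N N' : ℕ}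
    (h : OkX W p s m N) (h' : OkX W p s m N') (e : N' = N * l) (n : ℕ) :
    Nonempty (RT8.DegPT (M.L n N' h') (M.L n N h) (RT8.FrobsOut (m * G.Q n)) l (G.φ l)) := by
  subst e
  exact M.deg l hlp N h h' n

theorem SupplyX.newst' (M : SupplyX G s) {l : Nat.Primes} (hlp : (l : ℕ) ≠ p) {N N' : ℕ}
    (h' : OkX W p s m N') (e : N' = N * l) (h2 : s ∣ N)
    (hN : ¬ W.IsResiduallyModularOfLevel p N) (n : ℕ) :
    ((M.L n N' h').C.r (G.φ l)).trace ^ 2 = (((l : ℕ) : (M.L n N' h').C.T) + 1) ^ 2 := by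
  subst e
  exact M.newst l hlp N h' h2 hN n

theorem SupplyX.exact' (M : SupplyX G s) {l : Nat.Primes} (hlp : (l : ℕ) ≠ p)
    {N N' : ℕ} (h' : OkX W p s m N') (e : N' = N * l) (h2 : s ∣ N)
    (hN : ¬ W.IsResiduallyModularOfLevel p N) :
    RT8.ExactM (M.B N' h') ((M.B N' h').C.r (G.τ l) - 1) := by
  subst e
  exact M.exact l hlp N h' h2 hN

theorem SupplyX.newp' (M : SupplyX G s) (P : GalP G) (hτ : rbar P.τ = 1) {N N' : ℕ}
    (h' : OkX W p s m N') (e : N' = N * p) (h2 : s ∣ N)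
    (hN : ¬ W.IsResiduallyModularOfLevel p N) (n : ℕ) (x : (M.L n N' h').M) :
    (P.b.z (M.L n N' h').C.r P.φ - algebraMap O _ P.z₀) • x = 0 := by
  subst e
  exact M.newp P hτ N h' h2 hN n x

theorem SupplyX.degp' (M : SupplyX G s) (P : GalP G) (hτ : rbar P.τ = 1) {N N' : ℕ}
    (h : OkX W p s m N) (h' : OkX W p s m N') (e : N' = N * p) (n : ℕ) :
    (M.L n N h).C.r P.τ = 1 ∧ Nonempty (DegZ (M.L n N' h') (M.L n N h)
      (RT8.FrobsOut (m * G.Q n)) P.b P.φ P.z₀) := by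
  subst e
  exact M.degp P hτ N h h' n

/-- degeneracy data in the system -/
theorem SupplyX.degPM (hp2 : p ≠ 2) {c : Bool} {k k' : KX W p s m c} {l : LamX p s m}
    (e : levX k.1.1 k.1.2 = levX k'.1.1 k'.1.2 * l.1) :
    Nonempty (RT8.DegPM (M.sys hm hpm hpO hΔm hχ hs c) k k' l) :=
  ⟨RT8.DegPT.toDegPM (M.sys hm hpm hpO hΔm hχ hs c)
    (fun n => (M.deg' (l := l.pr) l.ne k'.2.1 k.2.1 e n).some) (span_of_rd G.rd hp2)
    fun n => mul_ne_zero hm (Q_ne_zero G n)⟩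

include hm hpm hpO hΔm hs in
/-- the set of the levels is monotone -/
theorem okX_union (hΔ : W.Δ ≠ 0) (hE : ∀ M : ℕ, M ≠ 0 → NonEis M (PP W m O))
    {S : Finset (LamX p s m)} {b : Bool} (h : OkX W p s m (levX S b))
    (T : Finset (LamX p s m)) : OkX W p s m (levX (T ∪ S) b) := by
  induction T using Finset.induction_on with
  | empty => rwa [Finset.empty_union]
  | insert l T _ ih =>
    rw [Finset.insert_union]
    by_cases hl : l ∈ T ∪ S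
    · rwa [Finset.insert_eq_of_mem hl]
    · rw [levX_insert hl]
      exact ih.mul hm hpm hpO hΔ hΔm hE l.prime (not_dvd_levX hs.or hp.out hl) l.dvd

include hm hpm hpO hΔm hs in
theorem okX_mono (hΔ : W.Δ ≠ 0) (hE : ∀ M : ℕ, M ≠ 0 → NonEis M (PP W m O))
    {S T : Finset (LamX p s m)} {b : Bool} (h : OkX W p s m (levX S b)) (hST : S ⊆ T) :
    OkX W p s m (levX T b) := by
  have h1 := okX_union hm hpm hpO hΔm hs hΔ hE h T
  rwa [Finset.union_eq_left.mpr hST] at h1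

include hpO in
theorem numX (hp2 : p ≠ 2) : RT8.NumC (fun l : LamX p s m => (l.1 : O)) where
  hq l := isUnit_nat hpO ((Nat.coprime_primes l.prime hp.out).mpr l.ne)
  h2 := by
    have h := isUnit_nat hpO ((Nat.coprime_primes Nat.prime_two hp.out).mpr (Ne.symm hp2))
    exact_mod_cast h
  h20 := two_ne_zero
  hq1 l := by
    have h : ((l.1 + 1 : ℕ) : O) ≠ 0 := Nat.cast_ne_zero.mpr (Nat.succ_ne_zero _)
    exact_mod_cast h
  hqm1 l := by
    rw [sub_ne_zero]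
    exact_mod_cast l.prime.one_lt.ne'

include hs in
theorem okX_of_res (hpm : p ∣ m) (hsm : s ∣ m) {S : Finset (LamX p s m)} {b : Bool}
    (h : W.IsResiduallyModularOfLevel p (levX S b)) :
    OkX W p s m (levX S b) :=
  ⟨levX_dvd hs.or hp.out hs.ne hpm hsm S b, levX_sqf hs.or hp.out hs.ne S b, s_dvd_levX S b, h⟩

include hsm in
/-- **The common input.** -/
theorem exists_inpX (hp2 : p ≠ 2) (hΔ : W.Δ ≠ 0) (hE : ∀ M : ℕ, M ≠ 0 → NonEis M (PP W m O))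
    {b : Bool} {S₁ : Finset (LamX p s m)} (h1 : OkX W p s m (levX S₁ b)) :
    ∃ I : InpX (M.sys hm hpm hpO hΔm hχ hs b), ∀ S, I.S₀ ⊆ S → (I.κ S).1 = (S, b) := by
  classical
  obtain ⟨S₀, hok, hmin⟩ := (wellFounded_lt :
    WellFounded ((· < ·) : Finset (LamX p s m) → Finset (LamX p s m) → Prop)).has_min
      {S | OkX W p s m (levX S b)} ⟨S₁, h1⟩
  have hok : OkX W p s m (levX S₀ b) := hok
  have hmono : ∀ S, S₀ ⊆ S → OkX W p s m (levX S b) := fun S hS =>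
    okX_mono hm hpm hpO hΔm hs hΔ hE hok hS
  let κ : Finset (LamX p s m) → KX W p s m b := fun S =>
    if h : OkX W p s m (levX S b) then ⟨(S, b), h, id⟩ else ⟨(S₀, b), hok, id⟩
  have hκ : ∀ S (hS : S₀ ⊆ S), κ S = ⟨(S, b), hmono S hS, id⟩ := fun S hS => dif_pos (hmono S hS)
  have hk0 : κ S₀ = ⟨(S₀, b), hok, id⟩ := hκ S₀ subset_rfl
  -- levels below `S₀`
  have hnot : ∀ l ∈ S₀, ¬ W.IsResiduallyModularOfLevel p (levX (S₀.erase l) b) := by
    intro l hlS h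
    exact hmin (S₀.erase l) (okX_of_res hs hpm hsm h) (Finset.erase_ssubset hlS)
  have hW : ∀ S, S₀ ⊆ S → ∀ l ∉ S, Nonempty (RT8.DegPM (M.sys hm hpm hpO hΔm hχ hs b)
      (κ (insert l S)) (κ S) l) := by
    intro S hS l hlS
    refine M.degPM hm hpm hpO hΔm hχ hs hp2 ?_
    rw [hκ S hS, hκ (insert l S) (hS.trans (Finset.subset_insert _ _))]
    exact levX_insert hlS
  refine ⟨⟨κ, S₀, fun S hS => ?_, ?_, fun l hlS => ?_, fun S hS l hlS =>
    (hW S hS l hlS).some⟩, fun S hS => ?_⟩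
  · rw [hκ S hS]; rfl
  · exact M.dpos _ (κ S₀).2.1
  · rw [hk0]
    have hN := hnot l hlS
    have e : levX S₀ b = levX (S₀.erase l) b * l.pr := levX_erase hlS
    refine ⟨fun n => ?_, M.exact' (l := l.pr) l.ne hok e (s_dvd_levX _ _) hN⟩
    have := hok.neZeroL' G n
    exact (M.levL n _ hok _ rfl).isStPm hpO (mul_ne_zero hm (Q_ne_zero G n)) (hok.memL' G n) hχ
      (hok.nsqL' G n l.prime l.dvd) (G.tame l.pr l.ne)
      (M.newst' (l := l.pr) l.ne hok e (s_dvd_levX _ _) hN n)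
  · exact congrArg Subtype.val (hκ S hS)

/-- the conclusion of the modularity theorems -/
def ConclX (M : SupplyX G s) (b : Bool) (S : Finset (LamX p s m)) : Prop :=
  ∃ (h : OkX W p s m (levX S b)) (f : (M.B _ h).C.T →ₐ[O] G.pt.T),
    mapRep (f : (M.B _ h).C.T →+* G.pt.T) (M.B _ h).C.r = G.pt.r

theorem conclX_of {b : Bool} {S : Finset (LamX p s m)} {k : KX W p s m b} (hk : k.1 = (S, b))
    (h : ∃ f : ((M.sys hm hpm hpO hΔm hχ hs b).B k).C.T →ₐ[O] G.pt.T,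
      mapRep (f : ((M.sys hm hpm hpO hΔm hχ hs b).B k).C.T →+* G.pt.T)
        ((M.sys hm hpm hpO hΔm hχ hs b).B k).C.r = G.pt.r) : ConclX M b S := by
  obtain ⟨⟨S', b'⟩, hk'⟩ := k
  obtain ⟨rfl, rfl⟩ := Prod.mk.inj hk
  exact ⟨hk'.1, h⟩

section final

variable (hU : UnrS M) (hp2 : p ≠ 2) (hΔ : W.Δ ≠ 0) (hE : ∀ M : ℕ, M ≠ 0 → NonEis M (PP W m O))
  {S₁ : Finset (LamX p s m)}

theorem ptX_one {l : LamX p s m} (hl : ¬ ((l.1 : ℕ) : ℤ) ∣ W.Δ) : G.pt.r (G.τ l.pr) = 1 :=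
  G.pt_good l.pr l.ne hl (Pl l.pr) (Pl_lies _) _ (G.tame l.pr l.ne).mem

variable {S : Finset (LamX p s m)} (hS : ∀ l ∉ S, ¬ ((l.1 : ℕ) : ℤ) ∣ W.Δ)

include hm hpm hpO hΔm hχ hs hsm hU hp2 hΔ hE hS in
/-- **flat case** -/
theorem modularX_fl (hflat : FlatM p O G.pt.r) (h1 : OkX W p s m (levX S₁ false)) :
    ConclX M false S := by
  obtain ⟨I, hI⟩ := exists_inpX M hm hpm hpO hΔm hχ hs hsm hp2 hΔ hE h1
  obtain ⟨Z⟩ := (M.tan hm hpm hpO hΔm hχ hs hU false).exists_frm_fl hpO hp2 hχ hflat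
    fun n k => by
      have := k.2.1.neZeroL' G n
      refine (M.levL n _ k.2.1 _ rfl).flatM hpO (mul_ne_zero hm (Q_ne_zero G n)) (k.2.1.memL' G n)
        hp2 (fun h => ?_) (hpm.mul_right _) (span_of_rd G.rd hp2)
      rcases hp.out.dvd_mul.mp h with h4 | h4
      · exact absurd (k.2.2 ((p_dvd_levX_iff hs.or hp.out hs.ne).mp h4)) (by decide)
      · exact (Nat.Prime.coprime_iff_not_dvd hp.out).mp (coprime_Q G hp.out hpm n)
          (hp.out.dvd_of_dvd_pow h4)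
  have h2 := modularA0 hp.out hpO (numX hpO hp2) Z le_rfl I.κ I.S₀ I.hram I.hd
    I.hnew I.W S G.dom (fun l hl => ptX_one (hS l hl)) (fun t ht => M.faith _ _ t ht)
  exact conclX_of M hm hpm hpO hΔm hχ hs (hI S h2.1) h2.2

include hm hpm hpO hΔm hχ hs hsm hU hp2 hΔ hE hS in
/-- **strict case** -/
theorem modularX_st (P : GalP G) (hτ : rbar P.τ ≠ 1) (h1 : OkX W p s m (levX S₁ true)) :
    ConclX M true S := by
  obtain ⟨I, hI⟩ := exists_inpX M hm hpm hpO hΔm hχ hs hsm hp2 hΔ hE h1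
  obtain ⟨Z⟩ := (M.tan hm hpm hpO hΔm hχ hs hU true).exists_frm_st hpO hp2 hχ P.ord
    (fun n k => M.ord P n _ k.2.1) P.b P.pair hτ
  have h2 := modularA0 hp.out hpO (numX hpO hp2) Z le_rfl I.κ I.S₀ I.hram I.hd
    I.hnew I.W S G.dom (fun l hl => ptX_one (hS l hl)) (fun t ht => M.faith _ _ t ht)
  exact conclX_of M hm hpm hpO hΔm hχ hs (hI S h2.1) h2.2

include hm hpm hpO hΔm hχ hs hsm hU hp2 hΔ hE hS in
/-- **case (B)** -/
theorem modularX_B (P : GalP G) (hτ : rbar P.τ = 1) (h1 : OkX W p s m (levX S₁ true)) :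
    ConclX M true S := by
  obtain ⟨I, hI⟩ := exists_inpX M hm hpm hpO hΔm hχ hs hsm hp2 hΔ hE h1
  have hk0 := hI I.S₀ subset_rfl
  have hin : PModB (M.sys hm hpm hpO hΔm hχ hs true) P.b P.φ P.τ P.z₀ (I.κ I.S₀) I.S₀ := by
    obtain ⟨k, hk⟩ : ∃ k, I.κ I.S₀ = k := ⟨_, rfl⟩
    rw [hk] at hk0 ⊢
    obtain ⟨⟨T, b⟩, hk'⟩ := k
    obtain ⟨rfl, rfl⟩ := Prod.mk.inj hk0
    by_cases h4 : W.IsResiduallyModularOfLevel p (levX I.S₀ false)
    · right
      have h5 : OkX W p s m (levX I.S₀ false) := okX_of_res hs hpm hsm h4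
      have h6 := fun n => M.degp' P hτ h5 hk'.1 (levX_true _) n
      let k : KX W p s m true := ⟨(I.S₀, true), hk'⟩
      let k' : KX W p s m true := ⟨(I.S₀, false), h5, fun _ => rfl⟩
      let V : ∀ n, DegZ ((M.sys hm hpm hpO hΔm hχ hs true).L n k)
        ((M.sys hm hpm hpO hΔm hχ hs true).L n k') (RT8.FrobsOut (m * G.Q n)) P.b P.φ P.z₀ :=
        fun n => (h6 n).2.some
      refine ⟨k', fun n => (V n).toDegT.toDegM (M.sys hm hpm hpO hΔm hχ hs true)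
          (span_of_rd G.rd hp2) (mul_ne_zero hm (Q_ne_zero G n)), rfl, M.dpos _ _,
        fun n => (h6 n).1, fun n zi hzi x y => (V n).comp zi hzi x y,
        fun n x => (V n).new x⟩
    · left
      exact fun n x => M.newp' P hτ hk'.1 (levX_true _) (s_dvd_levX _ _) h4 n x
  have h2 := tan_modularB0 (M.tan hm hpm hpO hΔm hχ hs hU true) hpO hp2 hχ P.b P.ord
    (fun n k => M.ord P n _ k.2.1) P.pair hτ P.z₀ P.sq P.zpt (numX hpO hp2) I.κ I.S₀
    I.hram I.hd I.hnew I.W hin S G.dom (fun l hl => ptX_one (hS l hl))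
    (fun t ht => M.faith _ _ t ht)
  exact conclX_of M hm hpm hpO hΔm hχ hs (hI S h2.1) h2.2

include hm hpm hpO hΔm hχ hs hsm hU hp2 hΔ hE hS in
/-- all cases -/
theorem modularX_all (hflat : ¬ (p : ℤ) ∣ W.Δ → FlatM p O G.pt.r)
    (hP : (p : ℤ) ∣ W.Δ → Nonempty (GalP G)) {b : Bool} (hb : b = true ↔ (p : ℤ) ∣ W.Δ)
    (h1 : OkX W p s m (levX S₁ b)) : ConclX M b S := by
  by_cases h : (p : ℤ) ∣ W.Δ
  · obtain rfl := hb.mpr h
    obtain ⟨P⟩ := hP h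
    by_cases hτ : rbar P.τ = 1
    · exact modularX_B M hm hpm hpO hΔm hχ hs hsm hU hp2 hΔ hE hS P hτ h1
    · exact modularX_st M hm hpm hpO hΔm hχ hs hsm hU hp2 hΔ hE hS P hτ h1
  · have hb' : b = false := Bool.eq_false_iff.mpr fun h' => h (hb.mp h')
    subst hb'
    exact modularX_fl M hm hpm hpO hΔm hχ hs hsm hU hp2 hΔ hE hS (hflat h) h1

end final

include hm in
/-- **Modularity from a point of the Hecke algebra.** -/
theorem modular_of_conclX (hpm : p ∣ m) (hΔ : W.Δ ≠ 0)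
    (hΔm : ∀ q : ℕ, q.Prime → (q : ℤ) ∣ W.Δ → q ∣ m) {b : Bool} {S : Finset (LamX p s m)}
    (h : ConclX M b S) : W.IsModularModelOfLevel (levX S b) := by
  obtain ⟨hok, f, hf⟩ := h
  have := hok.neZero
  have h0 := G.char0
  obtain ⟨π, hπ⟩ := (M.levB _ hok).att
  refine isModularModelOfLevel_of_char W hΔ (fun q hq hqN => Finset.mem_coe.mpr
    (Nat.mem_divisors.mpr ⟨hok.memL q hq hqN, hm⟩)) (Finset.finite_toSet _)
    ((f : (M.B _ hok).C.T →+* G.pt.T).comp π) fun ℓ hℓ hℓN hℓS => ?_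
  have hℓm : ¬ ℓ ∣ m := fun h => hℓS (Finset.mem_coe.mpr (Nat.mem_divisors.mpr ⟨h, hm⟩))
  have hB : (Pl ⟨ℓ, hℓ⟩).LiesOverPrime ℓ := Pl_lies ⟨ℓ, hℓ⟩
  obtain ⟨τ, hτ⟩ := Frob.exists_isFrobeniusAt (L := AlgebraicClosure ℚ) hℓ hB
  rw [RingHom.comp_apply, ← (hπ ℓ hℓ hℓN hℓS _ hB τ hτ).1]
  have h1 : f ((M.B _ hok).C.r τ).trace = (G.pt.r τ).trace := by
    rw [← hf]
    exact (trace_map' (f : (M.B _ hok).C.T →+* G.pt.T)).symm
  refine h1.trans ?_
  exact G.pt_tr ⟨ℓ, hℓ⟩ (fun h => hℓm (by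
    have h2 : ℓ = p := h
    rw [h2]; exact hpm)) (fun h => hℓm (hΔm ℓ hℓ h)) _ hB τ hτ

include M hm hpm hpO hΔm hχ hs hsm in
/-- **Modularity lifting, all levels divisible by the auxiliary prime** -/
theorem liftingX (hU : UnrS M) (hp2 : p ≠ 2) (hΔ : W.Δ ≠ 0)
    (hE : ∀ M : ℕ, M ≠ 0 → NonEis M (PP W m O))
    (hflat : ¬ (p : ℤ) ∣ W.Δ → FlatM p O G.pt.r) (hP : (p : ℤ) ∣ W.Δ → Nonempty (GalP G))
    {N₀ : ℕ} (h0 : OkX W p s m N₀) (hpN₀ : p ∣ N₀ → (p : ℤ) ∣ W.Δ) :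
    ∃ N : ℕ, Squarefree N ∧ ¬ (s.Prime ∧ s ∣ N) ∧
      (∀ q : ℕ, q.Prime → (q ∣ N ↔ (q : ℤ) ∣ W.Δ)) ∧ W.IsModularModelOfLevel (s * N) := by
  classical
  obtain ⟨b, hb⟩ : ∃ b : Bool, b = true ↔ (p : ℤ) ∣ W.Δ :=
    ⟨decide ((p : ℤ) ∣ W.Δ), decide_eq_true_iff⟩
  -- the starting level
  obtain ⟨N₁, h1, hpN₁⟩ : ∃ N₁, OkX W p s m N₁ ∧ (p ∣ N₁ ↔ b = true) := by
    by_cases hp1 : (p : ℤ) ∣ W.Δ
    · by_cases hp2 : p ∣ N₀
      · exact ⟨N₀, h0, iff_of_true hp2 (hb.mpr hp1)⟩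
      · exact ⟨N₀ * p, h0.mul hm hpm hpO hΔ hΔm hE hp.out hp2 hpm,
          iff_of_true (dvd_mul_left _ _) (hb.mpr hp1)⟩
    · exact ⟨N₀, h0, iff_of_false (fun h => hp1 (hpN₀ h)) fun h => hp1 (hb.mp h)⟩
  obtain ⟨S₁, hS₁⟩ := exists_levX hs.or hp.out hs.ne hm h1.sqf h1.dvd h1.aux hpN₁
  subst hS₁
  have hS : ∀ l ∉ (Finset.univ.filter fun l : LamX p s m => ((l.1 : ℕ) : ℤ) ∣ W.Δ),
      ¬ ((l.1 : ℕ) : ℤ) ∣ W.Δ := fun l hl h => hl (Finset.mem_filter.mpr ⟨Finset.mem_univ _, h⟩)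
  have h := modularX_all M hm hpm hpO hΔm hχ hs hsm hU hp2 hΔ hE hS hflat hP hb h1
  have hiff : ∀ q : ℕ, q.Prime →
      (q ∣ lev1 (Finset.univ.filter fun l : LamX p s m => ((l.1 : ℕ) : ℤ) ∣ W.Δ) b ↔
        (q : ℤ) ∣ W.Δ) := by
    intro q hq
    rw [dvd_lev1_iff hp.out hq]
    constructor
    · rintro (⟨l, hl, rfl⟩ | ⟨hb', rfl⟩)
      · exact (Finset.mem_filter.mp hl).2
      · exact hb.mp hb'
    · intro hqΔ
      by_cases hqp : q = p
      · subst hqp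
        exact Or.inr ⟨hb.mpr hqΔ, rfl⟩
      · have hqs : q ≠ s := by
          rintro rfl
          exact hs.not_dvd hq hqΔ
        exact Or.inl ⟨LamX.mk' hm hq hqp hqs (hΔm q hq hqΔ),
          Finset.mem_filter.mpr ⟨Finset.mem_univ _, hqΔ⟩, rfl⟩
  refine ⟨_, (levX_sqf hs.or hp.out hs.ne _ b).squarefree_of_dvd (lev1_dvd_levX _ b), ?_, hiff, ?_⟩
  · rintro ⟨h2, h3⟩
    exact hs.not_dvd h2 ((hiff s h2).mp h3)
  · have h4 := modular_of_conclX M hm hpm hΔ hΔm h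
    rwa [levX_eq] at h4

end sys

end Fermat.Agent.RTX
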