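import Fermat.Agent.RTM.LevP
import Fermat.Agent.FlatT.HeckeRep

/-!
Levels without new forms at a prime `s`: the Galois representations are unramified at `s`.
-/

set_option autoImplicit false
set_option linter.unusedSectionVars false

noncomputable section

open scoped MatrixGroups
open CongruenceSubgroup CuspForm ModularCurve.Period IsLocalRing Matrix

namespace Fermat.Agent.RTX

open Fermat.Agent.HeckeHom Fermat.Agent.LocEll Fermat.Agent.TW Fermat.Agent.DefRing
  Fermat.Agent.LocRing Fermat.Agent.RTan Fermat.Agent.RTM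
open Fermat.Agent.TWP (Pl Pl_lies Qb)
open Fermat.Agent.TWDeg (eigSp)
open Fermat.Agent.HGModule Fermat.Agent.NewPoint Fermat.Agent.QuadRep

section eig

variable {p : ℕ} [Fact p.Prime] {N : ℕ} [NeZero N] {S : Finset ℕ}
  {D : HeckeGaloisModule p N (↑S : Set ℕ)}
  {O : Type} [CommRing O] [IsDomain O] [IsDiscreteValuationRing O]
  [IsAdicComplete (maximalIdeal O) O] [CharZero O] (hp : (p : O) ∈ maximalIdeal O)

/-- elements acting trivially on the Tate module do not change the traces -/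
theorem trace_mul_of_eig {r : GQ →* M2 O} (hr : MatCont O r) {S' : Finset ℕ}
    {x : Fin (rk D) → O} (hx0 : x ≠ 0) (hx : IsEig D r S' x) {σ : GQ} (hσ : P D σ = 1)
    (hc : cyc p O hp σ = 1) (g : GQ) : (r (g * σ)).trace = (r g).trace := by
  have h1 := eig_rel hp hr hx g
  have h2 := eig_rel hp hr hx (g * σ)
  have h3 : PO D hp σ = 1 := by
    have h4 : PO D hp σ = (padicHom p O hp).mapMatrix (P D σ) := rfl
    rw [h4, hσ, map_one]
  rw [map_mul (PO D hp), h3, mul_one, map_mul (cyc p O hp), hc, mul_one] at h2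
  have h5 : ((r (g * σ)).trace - (r g).trace) • (PO D hp g *ᵥ x) = 0 := by
    rw [sub_smul]
    have := h1.trans h2.symm
    have h6 : (r (g * σ)).trace • (PO D hp g *ᵥ x) - (r g).trace • (PO D hp g *ᵥ x) =
        (PO D hp g *ᵥ (PO D hp g *ᵥ x) - (r g).trace • (PO D hp g *ᵥ x) +
          cyc p O hp g • x) -
        (PO D hp g *ᵥ (PO D hp g *ᵥ x) - (r (g * σ)).trace • (PO D hp g *ᵥ x) +
          cyc p O hp g • x) := by abel
    rw [h6, this, sub_self]
  rcases smul_eq_zero.mp h5 with h6 | h6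
  · exact sub_eq_zero.mp h6
  · exact absurd h6 (PO_ne_zero hp g hx0)

end eig

section unr

variable {p N m : ℕ} [hp : Fact p.Prime] [NeZero N]
  {O : Type} [CommRing O] [IsDomain O] [IsDiscreteValuationRing O]
  [IsAdicComplete (maximalIdeal O) O] [CharZero O] (hpO : (p : O) ∈ maximalIdeal O)
  {E : Type*} [Field E] [CharZero E] (ι : O →+* E) (hι : Function.Injective ι)

include hpO hι in
/-- **[LOC-unr]**: traces and inertia at a prime not dividing the level. -/
theorem loc_unr {q : ℕ} (hq : q.Prime) (hqp : q ≠ p) (hqN : ¬ q ∣ N) (hm : m ≠ 0)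
    (hNm : N * p ∣ m) (a : ℕ → E) {φ : parabolicHoms E (Gamma0 N) E} (hφ0 : φ ≠ 0)
    (hφ : φ ∈ VE E N m a) (r : GQ →* M2 O) (hr : MatCont O r)
    (ha : ∀ s : ℕ, s.Prime → ¬ s ∣ m → ∀ A : ValuationSubring (AlgebraicClosure ℚ),
      A.LiesOverPrime s → ∀ τ : GQ, A.IsFrobeniusAt τ s → ι (r τ).trace = a s)
    {A : ValuationSubring (AlgebraicClosure ℚ)} (hA : A.LiesOverPrime q) {σ : GQ}
    (hσ : σ ∈ A.inertiaSubgroupIn ℚ) (g : GQ) : (r (g * σ)).trace = (r g).trace := by
  classical
  have hS : ∀ s : ℕ, s.Prime → (s ∣ m ↔ s ∈ m.primeFactors) := fun s hs =>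
    ⟨fun h => Nat.mem_primeFactors.mpr ⟨hs, h, hm⟩, fun h => (Nat.mem_primeFactors.mp h).2.1⟩
  have hNS : ∀ s : ℕ, s.Prime → s ∣ N → s ∈ (↑m.primeFactors : Set ℕ) := fun s hs h =>
    Finset.mem_coe.mpr ((hS s hs).mp ((h.mul_right p).trans hNm))
  let I := jI N p (↑m.primeFactors : Set ℕ) hNS
  obtain ⟨y, hy0, hy, -⟩ := exists_isEig I.toModule ι hι r a
    (fun l hl hlS => ha l hl fun h => hlS ((hS l hl).mp h)) (coord I E φ)
    (fun h => hφ0 ((coord I E).map_eq_zero_iff.mp h))
    (fun l hl hlN hlS => coord_mem_VE I (fun s hs h => (hS s hs).mp h) hφ l hl hlN hlS)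
    (0 : Matrix (Fin 0) _ O) (by ext i; exact i.elim0)
  exact trace_mul_of_eig hpO hr hy0 hy (P_unramified I.toModule q hq hqN hqp A hA σ hσ)
    (cyc_inertia hpO hq hqp hA hσ) g

omit hp [IsDomain O] [IsDiscreteValuationRing O] [IsAdicComplete (maximalIdeal O) O] [CharZero O]
  [NeZero N] in
/-- An element which does not change the traces is trivial. -/
theorem eq_one_of_traces {r : GQ →* M2 O} (hspan : Submodule.span O (Set.range r) = ⊤) {σ : GQ}
    (h : ∀ g, (r (g * σ)).trace = (r g).trace) : r σ = 1 := by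
  have h1 : ∀ Y : M2 O, ((r σ - 1) * Y).trace = 0 := by
    intro Y
    have hY : Y ∈ Submodule.span O (Set.range r) := by rw [hspan]; trivial
    induction hY using Submodule.span_induction with
    | mem y hy =>
      obtain ⟨g, rfl⟩ := hy
      rw [sub_mul, one_mul, Matrix.trace_sub, Matrix.trace_mul_comm, ← map_mul, h, sub_self]
    | zero => simp
    | add x y _ _ hx hy => rw [mul_add, Matrix.trace_add, hx, hy, add_zero]
    | smul a x _ hx => rw [mul_smul_comm, Matrix.trace_smul, hx, smul_zero]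
  rw [← sub_eq_zero]
  ext i j
  have h2 := h1 (Matrix.single j i 1)
  rw [Matrix.trace_mul_single] at h2
  simpa using h2

end unr

section lev

variable {O : Type} [CommRing O] [IsDomain O] [IsDiscreteValuationRing O]
  [IsAdicComplete (maximalIdeal O) O] [Finite (ResidueField O)] [CharZero O]
  {rbar : GQ →* M2 (ResidueField O)} {sd : SliceData rbar} {p n m : ℕ} [hp : Fact p.Prime]
  [NeZero n] {C : RT8.Cpt sd}

/-- **Unramifiedness at a prime without new forms.** -/
theorem unrS_of_isLev (h : IsLev p n m C) (hpO : (p : O) ∈ maximalIdeal O) (hm : m ≠ 0)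
    (hpm : p ∣ m) (hnm : ∀ q : ℕ, q.Prime → q ∣ n → q ∣ m)
    (hspan : Submodule.span (ResidueField O) (Set.range rbar) = ⊤) {s : ℕ} (hs : s.Prime)
    (hsp : s ≠ p) (hs2 : ¬ s ^ 2 ∣ n)
    (hfr : ∃ B : ValuationSubring Qb, B.LiesOverPrime s ∧ ∃ τ : GQ, B.IsFrobeniusAt τ s ∧
      (rbar τ).trace ^ 2 ≠ ((s : ResidueField O) + 1) ^ 2)
    {A : ValuationSubring Qb} (hA : A.LiesOverPrime s) {σ : GQ}
    (hσ : σ ∈ A.inertiaSubgroupIn ℚ) : C.r σ = 1 := by
  by_cases hsn : s ∣ n
  swap
  · exact h.unr s hs hsn hsp A hA σ hσ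
  obtain ⟨n', hn'⟩ := hsn
  rw [mul_comm] at hn'
  subst hn'
  have hsn' : ¬ s ∣ n' := fun h' => hs2 (by
    rw [pow_two]
    exact mul_dvd_mul_right h' s)
  have hn'0 : NeZero n' := ⟨fun h0 => NeZero.ne (n' * s) (by rw [h0, zero_mul])⟩
  have hfree := h.free
  have hred := h.red
  rw [← sub_eq_zero]
  refine mat_eq_zero_of_pts (algebraMap_EE_injective (O := O)) _ fun f => ?_
  obtain ⟨P⟩ := h.exists_lpt hm hnm f
  refine P.map_eq _ ?_
  have hspanA : Submodule.span P.pt.A (Set.range P.rep) = ⊤ := FlatT.span_top_of_red hspan P.red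
  have hne := eigSp_ne_bot_of_VE P.ne
  have key : P.rep σ = 1 := by
    by_cases hb : eigSp (EE O) m n' P.a = ⊥
    · -- new at `s`
      exfalso
      obtain ⟨B, hB, τ, hτ, hne'⟩ := hfr
      have h1 := TWDeg.locNew p m n' s hm hpm hnm hs hsn' hsp (EE O) P.a P.pt.A
        (p_mem_A hpO P.pt) (P.ι : P.pt.A →+* EE O) P.inj P.rep P.cont
        (fun s' hs' hs'm B hB τ hτ => P.ha' h hm hnm s' hs' hs'm B hB τ hτ) (by
          rw [hb, finrank_bot, mul_zero]
          have h1 : Nontrivial (eigSp (EE O) m (n' * s) P.a) :=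
            (Submodule.nontrivial_iff_ne_bot).mpr hne
          exact Module.finrank_pos (R := EE O) (M := eigSp (EE O) m (n' * s) P.a)) B hB τ hτ
      apply hne'
      apply resHom_injective (A := P.pt.A)
      have h2 : resHom O P.pt.A (rbar τ).trace = residue P.pt.A (P.rep τ).trace := by
        have h3 : (mapRep (resHom O P.pt.A : ResidueField O →+* ResidueField P.pt.A) rbar
            τ).trace = resHom O P.pt.A (rbar τ).trace := by
          rw [Matrix.trace_fin_two, Matrix.trace_fin_two, map_add]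
          rfl
        rw [← h3, ← mapRep_residue P.red, Matrix.trace_fin_two, Matrix.trace_fin_two, map_add]
        rfl
      rw [map_pow, h2, ← map_pow, h1, map_pow, map_pow, map_add, map_add, map_one, map_one,
        map_natCast, map_natCast]
    · -- old at `s`
      obtain ⟨ψ, hψ, hψ0⟩ := (Submodule.ne_bot_iff _).mp hb
      have hm' : m * (n' * p) ≠ 0 :=
        mul_ne_zero hm (mul_ne_zero (NeZero.ne n') hp.out.ne_zero)
      have hφ : (⟨ψ, hψ.1⟩ : parabolicHoms (EE O) (Gamma0 n') (EE O)) ∈ VE (EE O) n' m P.a :=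
        LocEll.mem_VE.mpr fun s' hs' hs'n hs'm => hψ.2 s' hs' hs'n hs'm
      exact eq_one_of_traces hspanA (loc_unr (p_mem_A hpO P.pt) (P.ι : P.pt.A →+* EE O) P.inj hs
        hsp hsn' hm' (Dvd.intro_left m rfl) P.a (fun h0 => hψ0 (congrArg Subtype.val h0))
        (VE_mono (Dvd.intro _ rfl) hφ) _ P.cont
        (fun s' hs' hs'm => P.ha s' hs' fun h => hs'm (h.trans (Dvd.intro _ rfl))) hA hσ)
  have h2 : (C.r σ - 1).map P.pt.χ = P.rep σ - 1 := by
    rw [map_sub2, map_one2]
    rfl
  rw [h2, key, sub_self]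

end lev

end Fermat.Agent.RTX
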