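import Fermat.Agent.RTX.AuxEx
import Fermat.Agent.RTX.LiftX
import Fermat.Agent.RTX.UnrS
import Fermat.Agent.RTM.LiftSS
import Fermat.Agent.Hedge.Low

/-!
Modularity lifting for all semistable curves, `p = 3` or `p = 5`.
-/

set_option autoImplicit false
set_option linter.unusedSectionVars false

noncomputable section

namespace Fermat.Agent.RTX

open WeierstrassCurve IsLocalRing Fermat.Agent.DefRing Fermat.Agent.RTan
open Fermat.Agent.RTM (Gal GalP Wp p_mem resEquiv algebraMap_injective Amb IsLev)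
open Fermat.Agent.RTE (EW rbE chiO)
open Fermat.Agent.TWP (Pl Pl_lies Qb)

section unrS

variable {O : Type} [CommRing O] [IsDomain O] [IsDiscreteValuationRing O]
  [IsAdicComplete (maximalIdeal O) O] [Finite (ResidueField O)] [CharZero O]
  {rbar : GQ →* M2 (ResidueField O)} {sd : SliceData rbar} {p : ℕ} [hp : Fact p.Prime]
  {W : WeierstrassCurve ℤ} {χ : GQ → O} {m s : ℕ} {G : Gal sd p W χ m}

theorem intCast_ne_zero (A : Amb G) {a : ℤ} (h : ¬ (p : ℤ) ∣ a) : (a : ResidueField O) ≠ 0 := by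
  have hch : CharP (ResidueField O) p := by
    refine (CharP.charP_iff_prime_eq_zero hp.out).mpr ?_
    rw [← map_natCast (residue O), residue_eq_zero_iff]
    exact A.hpO
  rw [Ne, CharP.intCast_eq_zero_iff (ResidueField O) p]
  exact h

/-- the levels are unramified at `s` -/
theorem unrS_supply (A : Amb G) (hs : AuxS W p s) (hsm : s ∣ m) (M : SupplyX G s) : UnrS M := by
  intro hsP n N h B hB σ hσ
  rcases hs with ⟨h1, -⟩ | ⟨-, -, hsp, hsΔ, hap⟩
  · exact absurd (h1 ▸ hsP) Nat.not_prime_one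
  have hk : NeZero (N * G.Q n ^ 2) :=
    ⟨mul_ne_zero h.sqf.ne_zero (pow_ne_zero 2 (Amb.Q_ne n))⟩
  have hsQ : ¬ s ∣ G.Q n := by
    intro h'
    obtain ⟨i, -, h'⟩ := (hsP.prime.dvd_finsetProd_iff _).mp h'
    rw [Nat.prime_dvd_prime_iff_eq hsP (G.q n i).2] at h'
    exact G.avoid n i (h' ▸ hsm)
  have hs2 : ¬ s ^ 2 ∣ N * G.Q n ^ 2 := by
    intro h1
    have hco : Nat.Coprime (s ^ 2) (G.Q n ^ 2) :=
      Nat.Coprime.pow _ _ ((Nat.Prime.coprime_iff_not_dvd hsP).mpr hsQ)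
    have h2 : s ^ 2 ∣ N := hco.dvd_of_dvd_mul_right h1
    have h3 : IsUnit s := h.sqf s (by rwa [pow_two] at h2)
    exact hsP.not_isUnit h3
  refine unrS_of_isLev (M.levL n N h _ rfl) A.hpO (A.m'_ne n) (A.hpm.trans (dvd_mul_right _ _))
    (fun q hq hqk => ?_) A.hspan hsP hsp hs2 ?_ hB hσ
  · rcases (Nat.Prime.dvd_mul hq).mp hqk with h2 | h2
    · exact (h2.trans h.dvd).mul_right _
    · exact (hq.dvd_of_dvd_pow h2).mul_left _
  · obtain ⟨τ, hτ⟩ := Frob.exists_isFrobeniusAt (L := AlgebraicClosure ℚ) hsP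
      (Pl_lies ⟨s, hsP⟩)
    refine ⟨Pl ⟨s, hsP⟩, Pl_lies _, τ, hτ, ?_⟩
    rw [G.rbar_tr ⟨s, hsP⟩ hsp hsΔ _ (Pl_lies _) τ hτ]
    intro h1
    refine intCast_ne_zero A hap ?_
    rw [Int.cast_sub, Int.cast_pow, Int.cast_pow, Int.cast_add, Int.cast_one, Int.cast_natCast,
      sub_eq_zero]
    exact h1

end unrS

/-- The facts on the modular side which are proved separately. -/
def AmbOKX (p : ℕ) [Fact p.Prime] : Prop :=
  ∀ (W : WeierstrassCurve ℤ) (rbar : GQ →* M2 (ResidueField (Wp p))) (χ : GQ → Wp p) (m s : ℕ)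
    (sd : SliceData rbar) (G : Gal sd p W χ m) (_ : Amb G), AuxS W p s → 2 ∣ m → s ∣ m →
    Nonempty (SupplyX G s)

/-- **Modularity lifting** for all semistable curves, `p = 3` or `p = 5`. -/
theorem lifting35_of {p : ℕ} [hp : Fact p.Prime] (H : AmbOKX p)
    (hcase : p = 3 ∨ p = 5) {W : WeierstrassCurve ℤ} (hΔ : W.Δ ≠ 0)
    (hss : W.IsSemistableModel) (hirr : W.ModRepIsIrreducible p) {N₀ : ℕ} (hN₀ : Squarefree N₀)
    (hpN₀ : p ∣ N₀ → (p : ℤ) ∣ W.Δ) (hres : W.IsResiduallyModularOfLevel p N₀) :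
    ∃ N : ℕ, Squarefree N ∧ (∀ q : ℕ, q.Prime → (q ∣ N ↔ (q : ℤ) ∣ W.Δ)) ∧
      W.IsModularModelOfLevel N := by
  have hE : (EW W).IsElliptic := RTE.isElliptic_EW hΔ
  have hp2 : p ≠ 2 := by rcases hcase with h | h <;> omega
  have hΔ' : W.Δ.natAbs ≠ 0 := Int.natAbs_ne_zero.mpr hΔ
  obtain ⟨s, hs, hs'⟩ := exists_auxS hcase hΔ hss hirr (m := W.Δ.natAbs * N₀)
    (mul_ne_zero hΔ' hN₀.ne_zero)
  have hs0 : s ≠ 0 := hs.ne_zero
  have hsp : s ≠ p := by
    rcases hs with ⟨h1, h5⟩ | h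
    · rw [h1]; exact hp.out.one_lt.ne
    · exact h.2.2.1
  -- the starting level
  have hcop : Nat.Coprime N₀ s := by
    rcases hs' with h | ⟨h1, h2⟩
    · rw [h]; exact Nat.coprime_one_right N₀
    · exact ((Nat.Prime.coprime_iff_not_dvd h1).mpr fun h => h2 (h.mul_left _)).symm
  have hres' : W.IsResiduallyModularOfLevel p (N₀ * s) := by
    rcases hs' with h | ⟨h1, h2⟩
    · rw [h, mul_one]; exact hres
    · exact Hedge.res_mul hΔ hp.out hp2 hirr hN₀.ne_zero h1 (fun h => h2 (h.mul_left _)) hres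
  have hsqf : Squarefree (N₀ * s) := (Nat.squarefree_mul hcop).mpr ⟨hN₀, hs.squarefree⟩
  set m : ℕ := 2 * p * W.Δ.natAbs * (N₀ * s) with hmdef
  have hm : m ≠ 0 := mul_ne_zero (mul_ne_zero (mul_ne_zero two_ne_zero hp.out.ne_zero) hΔ')
    hsqf.ne_zero
  have hpm : p ∣ m := ((dvd_mul_left p 2).mul_right _).mul_right _
  have h2m : 2 ∣ m := ((dvd_mul_right 2 p).mul_right _).mul_right _
  have hsm : s ∣ m := (dvd_mul_left s N₀).mul_left _
  have hΔm : ∀ q : ℕ, q.Prime → (q : ℤ) ∣ W.Δ → q ∣ m := fun q _ h =>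
    ((Int.natCast_dvd.mp h).mul_left (2 * p)).mul_right _
  obtain ⟨sd, G, hfl, hP⟩ := exists_gal' hcase (p_mem p) hss hirr (algebraMap ℤ_[p] (Wp p))
    (algebraMap_injective p) ((resEquiv p).symm : _ →+* _) m hm hpm hΔm
  have A : Amb G := ⟨hp2, hm, hpm, p_mem p, hΔ, hΔm, hirr, RTE.cycChar_chiO p _⟩
  obtain ⟨Y⟩ := H W _ _ m s sd G A hs h2m hsm
  have hpN : p ∣ N₀ * s → (p : ℤ) ∣ W.Δ := fun h => hpN₀ (by
    rcases (Nat.Prime.dvd_mul hp.out).mp h with h | h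
    · exact h
    · exfalso
      rcases hs' with h1 | h1
      · rw [h1] at h
        exact hp.out.one_lt.ne' (Nat.dvd_one.mp h)
      · exact hsp ((Nat.prime_dvd_prime_iff_eq hp.out h1.1).mp h).symm)
  obtain ⟨N, hN, -, hNΔ, hmod⟩ := liftingX Y hm hpm (p_mem p) hΔm (RTE.cycChar_chiO p _) hs hsm
    (unrS_supply A hs hsm Y) hp2 hΔ (fun M hM => A.hE _ hm M hM) hfl hP
    (N₀ := N₀ * s) ⟨dvd_mul_left _ _, hsqf, dvd_mul_left _ _, hres'⟩ hpN
  exact ⟨N, hN, hNΔ, hs.removal' hΔ hirr hN.ne_zero (fun q hq h => (hNΔ q hq).mp h) hmod⟩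

end Fermat.Agent.RTX
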