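import Fermat.Agent.RTX.ExX
import Fermat.Agent.RTX.FldsX
import Fermat.Agent.RTX.AtPX
import Fermat.Agent.RTX.Lift35

/-!
The supply, general levels.
-/

set_option autoImplicit false
set_option linter.unusedSectionVars false

noncomputable section

namespace Fermat.Agent.RTX

open IsLocalRing Fermat.Agent.DefRing Fermat.Agent.RTan Fermat.Agent.LocRing
open Fermat.Agent.TWP (Pl Pl_lies Qb)
open Fermat.Agent.TW Fermat.Agent.TWDeg
open Fermat.Agent.RTM

variable {O : Type} [CommRing O] [IsDomain O] [IsDiscreteValuationRing O]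
  [IsAdicComplete (maximalIdeal O) O] [Finite (ResidueField O)] [CharZero O]
  {rbar : GQ →* M2 (ResidueField O)} {sd : SliceData rbar} {p : ℕ} [hp : Fact p.Prime]
  {W : WeierstrassCurve ℤ} {χ : GQ → O} {m s : ℕ} {G : Gal sd p W χ m}

/-- the remaining fact: exactness at the new levels -/
def AmbX.ExactX (A : AmbX G s) : Prop :=
  ∀ (l : Nat.Primes), (l : ℕ) ≠ p → ∀ (N : ℕ) (h' : OkX W p s m (N * l)),
    s ∣ N → ¬ W.IsResiduallyModularOfLevel p N →
      RT8.ExactM (A.B (N * l) h') ((A.B (N * l) h').C.r (G.τ l) - 1)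

/-- **The supply** -/
def AmbX.supply (A : AmbX G s) (E : A.Ex) (F : A.ExactX) : SupplyX G s where
  B := A.B
  L := A.L E
  levB N h _ := A.levB N h
  levL n N h k _ e := A.levL E n N h k e
  dpos := A.dpos
  faith := A.faith
  deg := A.deg E
  newst := A.newst E
  exact := F
  ord := A.ord E
  newp P _ := A.newp E P
  degp P _ := A.degp E P

/-- **The supply exists**, given exactness. -/
theorem ambOKX_of (p : ℕ) [hp : Fact p.Prime]
    (hF : ∀ (W : WeierstrassCurve ℤ) (rbar : GQ →* M2 (ResidueField (Wp p))) (χ : GQ → Wp p)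
      (m s : ℕ) (sd : SliceData rbar) (G : Gal sd p W χ m) (A : AmbX G s), A.ExactX) :
    AmbOKX p := fun W rbar χ m s sd G A hs h2m hsm =>
  have A' : AmbX G s := ⟨A, hs, hsm⟩
  ⟨A'.supply (A'.ex h2m) (hF W rbar χ m s sd G A')⟩

end Fermat.Agent.RTX
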