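import Fermat.Agent.RTX.ExactX
import Fermat.Agent.RTX.SupMk

/-!
Modularity lifting for all semistable curves, `p = 3` or `p = 5`.
-/

set_option autoImplicit false

noncomputable section

namespace Fermat.Agent.RTX

open WeierstrassCurve

/-- **The modular side** -/
theorem ambOKX (p : ℕ) [Fact p.Prime] : AmbOKX p :=
  ambOKX_of p fun _ _ _ _ _ _ _ A => A.exactX

/-- **Modularity lifting** for all semistable curves, `p = 3` or `p = 5`. -/
theorem lifting35 {p : ℕ} [hp : Fact p.Prime]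
    (hcase : p = 3 ∨ p = 5) {W : WeierstrassCurve ℤ} (hΔ : W.Δ ≠ 0)
    (hss : W.IsSemistableModel) (hirr : W.ModRepIsIrreducible p) {N₀ : ℕ} (hN₀ : Squarefree N₀)
    (hpN₀ : p ∣ N₀ → (p : ℤ) ∣ W.Δ) (hres : W.IsResiduallyModularOfLevel p N₀) :
    ∃ N : ℕ, Squarefree N ∧ (∀ q : ℕ, q.Prime → (q ∣ N ↔ (q : ℤ) ∣ W.Δ)) ∧
      W.IsModularModelOfLevel N :=
  lifting35_of (ambOKX p) hcase hΔ hss hirr hN₀ hpN₀ hres

end Fermat.Agent.RTX
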