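import Fermat.Agent.RTM.Supply
import Fermat.Agent.RTX.ExLevX

/-!
The modular side of the patching argument, general levels: the list of the facts which are needed.
All levels are divisible by the auxiliary number `s` (`s = 1` if `5 ≤ p`, a prime `2 mod 3` where
nothing is new if `p = 3`).
-/

set_option autoImplicit false
set_option linter.unusedSectionVars false

noncomputable section

namespace Fermat.Agent.RTX

open IsLocalRing Fermat.Agent.DefRing Fermat.Agent.RTan Fermat.Agent.LocRing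
open Fermat.Agent.TWP (Pl Qb)
open Fermat.Agent.ORD (Pair)
open Fermat.Agent.RTM (Gal GalP DegZ IsLev)

/-- the auxiliary number -/
def AuxS (W : WeierstrassCurve ℤ) (p s : ℕ) : Prop :=
  (s = 1 ∧ 5 ≤ p) ∨ (s.Prime ∧ s % 3 = 2 ∧ s ≠ p ∧ ¬ (s : ℤ) ∣ W.Δ ∧
    ¬ (p : ℤ) ∣ W.apOfModel s ^ 2 - ((s : ℤ) + 1) ^ 2)

theorem auxS_one (W : WeierstrassCurve ℤ) {p : ℕ} (hp : 5 ≤ p) : AuxS W p 1 := Or.inl ⟨rfl, hp⟩

theorem AuxS.aux {W : WeierstrassCurve ℤ} {p s : ℕ} (h : AuxS W p s) {N : ℕ} (hN : s ∣ N) :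
    Aux p N := by
  rcases h with h | h
  · exact Or.inl h.2
  · exact Or.inr ⟨s, h.1, hN, h.2.1⟩

theorem AuxS.squarefree {W : WeierstrassCurve ℤ} {p s : ℕ} (h : AuxS W p s) : Squarefree s := by
  rcases h with h | h
  · rw [h.1]; exact squarefree_one
  · exact h.1.squarefree

theorem AuxS.ne_zero {W : WeierstrassCurve ℤ} {p s : ℕ} (h : AuxS W p s) : s ≠ 0 :=
  h.squarefree.ne_zero

/-- The levels of the patching systems. -/
structure OkX (W : WeierstrassCurve ℤ) (p s m N : ℕ) : Prop where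
  dvd : N ∣ m
  sqf : Squarefree N
  aux : s ∣ N
  res : W.IsResiduallyModularOfLevel p N

theorem OkX.neZero {W : WeierstrassCurve ℤ} {p s m N : ℕ} (h : OkX W p s m N) : NeZero N :=
  ⟨h.sqf.ne_zero⟩

variable {O : Type} [CommRing O] [IsDomain O] [IsDiscreteValuationRing O]
  [IsAdicComplete (maximalIdeal O) O] [Finite (ResidueField O)] [CharZero O]
  {rbar : GQ →* M2 (ResidueField O)} {sd : SliceData rbar} {p : ℕ} [Fact p.Prime]
  {W : WeierstrassCurve ℤ} {χ : GQ → O} {m : ℕ}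

/-- **The modular side.** For all the levels `N` with `OkX W p s m N`: a base module, the
Taylor–Wiles modules, and their properties. -/
structure SupplyX (G : Gal sd p W χ m) (s : ℕ) where
  /-- the base modules: `(B N h).M = (Fin _ → Loc 𝔪 (HG m N _ O))` -/
  B : ∀ N, OkX W p s m N → RT8.BMod sd
  /-- the modules of Taylor–Wiles level `n` -/
  L : ∀ n N (h : OkX W p s m N), RT8.TMod p (G.P n) n (B N h)
  levB : ∀ N (h : OkX W p s m N) [NeZero N], IsLev p N m (B N h).C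
  levL : ∀ n N (h : OkX W p s m N) (k : ℕ) [NeZero k], k = N * G.Q n ^ 2 →
    IsLev p k (m * G.Q n) (L n N h).C
  dpos : ∀ N h, 0 < (B N h).d
  faith : ∀ N h (t : (B N h).C.T), (∀ x : (B N h).M, t • x = 0) → t = 0
  /-- degeneracy maps at a prime `l ≠ p` -/
  deg : ∀ (l : Nat.Primes), (l : ℕ) ≠ p → ∀ (N : ℕ) (h : OkX W p s m N)
    (h' : OkX W p s m (N * l)) (n : ℕ),
    Nonempty (RT8.DegPT (L n (N * l) h') (L n N h) (RT8.FrobsOut (m * G.Q n)) l (G.φ l))
  /-- new levels: traces of Frobenius -/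
  newst : ∀ (l : Nat.Primes), (l : ℕ) ≠ p → ∀ (N : ℕ) (h' : OkX W p s m (N * l)),
    s ∣ N → ¬ W.IsResiduallyModularOfLevel p N → ∀ n,
      ((L n (N * l) h').C.r (G.φ l)).trace ^ 2 = (((l : ℕ) : (L n (N * l) h').C.T) + 1) ^ 2
  /-- new levels: exactness mod `𝔪_O` -/
  exact : ∀ (l : Nat.Primes), (l : ℕ) ≠ p → ∀ (N : ℕ) (h' : OkX W p s m (N * l)),
    s ∣ N → ¬ W.IsResiduallyModularOfLevel p N →
      RT8.ExactM (B (N * l) h') ((B (N * l) h').C.r (G.τ l) - 1)
  /-- ordinarity at `p` in the multiplicative case, for all levels (divisible by `p` or not) -/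
  ord : ∀ (_ : GalP G) (n N : ℕ) (h : OkX W p s m N), OrdAt p χ (L n N h).C.r
  /-- `p`-new levels -/
  newp : ∀ (P : GalP G), rbar P.τ = 1 → ∀ (N : ℕ) (h' : OkX W p s m (N * p)),
    s ∣ N → ¬ W.IsResiduallyModularOfLevel p N → ∀ n (x : (L n (N * p) h').M),
      (P.b.z (L n (N * p) h').C.r P.φ - algebraMap O _ P.z₀) • x = 0
  /-- degeneracy maps at `p` -/
  degp : ∀ (P : GalP G), rbar P.τ = 1 → ∀ (N : ℕ) (h : OkX W p s m N)
    (h' : OkX W p s m (N * p)) (n : ℕ),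
    (L n N h).C.r P.τ = 1 ∧ Nonempty (DegZ (L n (N * p) h') (L n N h)
      (RT8.FrobsOut (m * G.Q n)) P.b P.φ P.z₀)

end Fermat.Agent.RTX
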