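import Fermat.Agent.RTM.Flds
import Fermat.Agent.RTX.SupplyX

/-!
Construction of the modules of the patching systems, general levels.
-/

set_option autoImplicit false
set_option linter.unusedSectionVars false

noncomputable section

namespace Fermat.Agent.RTX

open IsLocalRing Fermat.Agent.DefRing Fermat.Agent.RTan Fermat.Agent.LocRing
open Fermat.Agent.TWP (Pl Pl_lies Qb)
open Fermat.Agent.TW Fermat.Agent.TWDeg
open Fermat.Agent.RTM

section

variable {O : Type} [CommRing O] [IsDomain O] [IsDiscreteValuationRing O]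
  [IsAdicComplete (maximalIdeal O) O] [Finite (ResidueField O)] [CharZero O]
  {rbar : GQ →* M2 (ResidueField O)} {sd : SliceData rbar} {p : ℕ} [hp : Fact p.Prime]
  {W : WeierstrassCurve ℤ} {χ : GQ → O} {m s : ℕ}

/-- the ambient hypotheses -/
structure AmbX (G : Gal sd p W χ m) (s : ℕ) : Prop extends Amb G where
  hs : AuxS W p s
  hsm : s ∣ m

theorem OkX.mem {N : ℕ} (h : OkX W p s m N) (q : ℕ) (_ : q.Prime) (hqN : q ∣ N) : q ∣ m :=
  hqN.trans h.dvd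

theorem OkX.not_sq {N : ℕ} (h : OkX W p s m N) {l : ℕ} (hl : l.Prime) : ¬ l ^ 2 ∣ N := by
  intro h2
  rw [pow_two] at h2
  exact hl.one_lt.ne' (Nat.isUnit_iff.mp (h.sqf l h2))

theorem OkX.not_dvd {N l : ℕ} (h : OkX W p s m (N * l)) (hl : l.Prime) : ¬ l ∣ N := by
  intro h1
  exact h.not_sq hl (by
    rw [pow_two]
    exact mul_dvd_mul_right h1 l)

theorem OkX.ne {N : ℕ} (h : OkX W p s m N) : N ≠ 0 := h.sqf.ne_zero

theorem OkX.mem' (G : Gal sd p W χ m) {N : ℕ} (h : OkX W p s m N) (n : ℕ) (q : ℕ) (hq : q.Prime)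
    (hqN : q ∣ N * G.Q n ^ 2) : q ∣ m * G.Q n := by
  rcases hq.dvd_mul.mp hqN with h1 | h1
  · exact (h.mem q hq h1).mul_right _
  · exact (hq.dvd_of_dvd_pow h1).mul_left _

theorem OkX.not_sq' (G : Gal sd p W χ m) {N : ℕ} (h : OkX W p s m N) (n : ℕ) {l : ℕ}
    (hl : l.Prime) (hlm : l ∣ m) : ¬ l ^ 2 ∣ N * G.Q n ^ 2 := by
  intro h2
  exact h.not_sq hl (((coprime_Q G hl hlm n).pow 2 2).dvd_of_dvd_mul_right h2)

theorem OkX.neZero' (G : Gal sd p W χ m) {N : ℕ} (h : OkX W p s m N) (n : ℕ) :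
    NeZero (N * G.Q n ^ 2) :=
  ⟨mul_ne_zero h.sqf.ne_zero (pow_ne_zero 2 (Q_ne_zero G n))⟩

variable {G : Gal sd p W χ m} (A : AmbX G s)

namespace AmbX

include A

theorem nt {N : ℕ} (h : OkX W p s m N) : Nontrivial (Loc (PP W m O) (HG m N h.dvd O)) :=
  nz_of_res W O A.hm hp.out A.hpm A.hpO A.hΔm h.dvd h.res

theorem exists_R {N : ℕ} (h : OkX W p s m N) :
    Nonempty (HRep (m := m) p N sd (Loc (PP W m O) (HG m N h.dvd O))) := by
  have := h.neZero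
  have := A.nt h
  exact exists_hrep_base A.h30 h.dvd A.hpm A.hpO sd A.hspan G.rd.cont (A.hES N)
    (A.resId dvd_rfl) (A.hE m A.hm N h.sqf.ne_zero) A.hm

/-- the Hecke algebra of the base level -/
def R {N : ℕ} (h : OkX W p s m N) : HRep (m := m) p N sd (Loc (PP W m O) (HG m N h.dvd O)) :=
  (A.exists_R h).some

/-- **the base level** -/
def B (N : ℕ) (h : OkX W p s m N) : RT8.BMod sd :=
  have := h.neZero
  bmod h.dvd (A.R h) G.g

theorem hM₀ {N : ℕ} (hN : N ∣ m) (n : ℕ) : (A.tw₀ hN n).M ∣ m * G.Q n := by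
  rw [A.tw₀_M]
  exact mul_dvd_mul_right hN _

theorem tw₀_dd {N : ℕ} (hN : N ∣ m) (n : ℕ) : (A.tw₀ hN n).dd = G.Q n :=
  prod_Q p n G.g N A.hp2 (ne_zero_of_dvd_ne_zero A.hm hN) (G.q n) (RTM.Amb.dvdQ n)
    (RTM.Amb.ndvd_of hN n) (G.tw n).inj

theorem tw₀_card {N : ℕ} (hN : N ∣ m) (n : ℕ) : (A.tw₀ hN n).Q.card = G.g :=
  card_Q p n G.g N A.hp2 (ne_zero_of_dvd_ne_zero A.hm hN) (G.q n) (RTM.Amb.dvdQ n)
    (RTM.Amb.ndvd_of hN n) (G.tw n).inj

/-- the Taylor–Wiles datum -/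
abbrev tw {N : ℕ} (h : OkX W p s m N) (n : ℕ) : TWD (DP p n) := A.tw₀ h.dvd n

theorem tw_M {N : ℕ} (h : OkX W p s m N) (n : ℕ) : (A.tw h n).M = N * G.Q n := A.tw₀_M h.dvd n

theorem hM {N : ℕ} (h : OkX W p s m N) (n : ℕ) : (A.tw h n).M ∣ m * G.Q n := A.hM₀ h.dvd n

theorem tw_dd {N : ℕ} (h : OkX W p s m N) (n : ℕ) : (A.tw h n).dd = G.Q n := A.tw₀_dd h.dvd n

theorem tw_card {N : ℕ} (h : OkX W p s m N) (n : ℕ) : (A.tw h n).Q.card = G.g :=
  A.tw₀_card h.dvd n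

theorem mem_Q {N : ℕ} (h : OkX W p s m N) (n : ℕ) {q : ℕ} (hq : q ∈ (A.tw h n).Q) :
    ∃ i, (G.q n i : ℕ) = q := A.mem_Q₀ h.dvd n hq

/-- Frobenius elements at the Taylor–Wiles primes -/
theorem hfr {N : ℕ} (h : OkX W p s m N) (n : ℕ) : ∀ q ∈ (A.tw h n).Q,
    ∃ B : ValuationSubring Qb, B.LiesOverPrime q ∧ ∃ τ : GQ, B.IsFrobeniusAt τ q ∧
      (rbar τ).trace ^ 2 ≠ ((q : ResidueField O) + 1) ^ 2 := by
  intro q hq
  obtain ⟨i, rfl⟩ := A.mem_Q h n hq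
  exact RTM.Amb.hfr_of n i

theorem nonEis' {N : ℕ} (h : OkX W p s m N) (n : ℕ) :
    NonEis (A.tw h n).M (PP W (m * G.Q n) O) :=
  A.hE _ (A.m'_ne n) _ (NeZero.ne _)

theorem exists_b {N : ℕ} (h : OkX W p s m N) (n : ℕ) :
    Nonempty (Loc (PP W (m * G.Q n) O) ((XF (A.hM h n)).H (funRep (M := (A.tw h n).M) O O
      (A.tw h n).Y0)) ≃ₗ[TPoly (m * G.Q n) O]
      (Fin (2 ^ G.g) → Loc (PP W (m * G.Q n) O)
        (HG (m * G.Q n) N (h.dvd.trans (dvd_mul_right m (G.Q n))) O))) := by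
  have h1 := exists_base_full A.h30 (A.m'_ne n) (dvd_mul_right m (G.Q n)) A.hpm A.hpO sd A.hspan
    G.rd.cont A.hES A.hloc (A.resId (dvd_mul_right m (G.Q n))) (A.resId dvd_rfl) (A.tw h n)
    (A.hM h n) h.dvd (A.nonEis' h n)
    (fun q hq => by
      obtain ⟨i, rfl⟩ := A.mem_Q h n hq
      exact G.avoid n i) (A.hfr h n)
  rw [A.tw_card] at h1
  exact h1

theorem exists_e {N : ℕ} (h : OkX W p s m N) (n : ℕ) :
    ∃ e : EType (A.tw h n) (A.hM h n) h.dvd G.g (PP W m O) (PP W (m * G.Q n) O),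
      ∀ (P : TPoly (m * G.Q n) O) x, e (P • x) = inc (dvd_mul_right m (G.Q n)) O P • e x :=
  exists_compE A.h30 A.hES (A.tw h n) (A.m'_ne n) (A.hM h n) (dvd_mul_right m (G.Q n)) A.hpm
    h.dvd A.hpO sd A.hspan G.rd.cont (A.resId dvd_rfl) (A.resId (dvd_mul_right m (G.Q n)))
    (A.nonEis' h n) (A.exists_b h n)

theorem aux {N : ℕ} (h : OkX W p s m N) : Aux p N := A.hs.aux h.aux

theorem nt' {N : ℕ} (h : OkX W p s m N) (n : ℕ) :
    Nontrivial (MQ (A.tw h n) (A.hM h n) (PP W (m * G.Q n) O) O) := by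
  obtain ⟨e, -⟩ := A.exists_e h n
  have : Nontrivial (Loc (PP W m O) (HG m (A.tw h n).N h.dvd O)) := A.nt h
  exact nontrivial_MQX (A.tw h n) (A.hM h n) h.dvd A.hpO A.hp2 (A.aux h) e

theorem exists_R' {N : ℕ} (h : OkX W p s m N) (n : ℕ) :
    Nonempty (HRep (m := m * G.Q n) p ((A.tw h n).N * (A.tw h n).dd * (A.tw h n).dd) sd
      (MQ (A.tw h n) (A.hM h n) (PP W (m * G.Q n) O) O)) := by
  have := A.nt' h n
  exact exists_hrepQ A.h30 A.hES (A.tw h n) (A.m'_ne n) (A.hM h n)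
    (A.hpm.trans (dvd_mul_right m (G.Q n))) A.hpO sd A.hspan G.rd.cont _
    (A.resId (dvd_mul_right m (G.Q n))) (A.nonEis' h n)

/-- the Hecke algebra of the Taylor–Wiles level -/
def R' {N : ℕ} (h : OkX W p s m N) (n : ℕ) :
    HRep (m := m * G.Q n) p ((A.tw h n).N * (A.tw h n).dd * (A.tw h n).dd) sd
      (MQ (A.tw h n) (A.hM h n) (PP W (m * G.Q n) O) O) := (A.exists_R' h n).some

end AmbX

theorem AmbX.comm {N : ℕ} (h : OkX W p s m N) (n : ℕ) (i : Fin G.g) :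
    (A.R' h n).C.r (G.P n i).φ * (A.R' h n).C.r (G.P n i).s =
      (A.R' h n).C.r (G.P n i).s * (A.R' h n).C.r (G.P n i).φ := by
  obtain ⟨c, hc, hζ⟩ := G.gen n i
  have h1 := (G.tw n).tw i
  exact commute_TW A.hp2 A.hpO (G.P n i) (A.R' h n).C
    ((dvd_pow_self p (Nat.succ_ne_zero n)).trans h1.dvd) h1.frob (G.inert n i) h1.inertia c hc hζ

/-- further properties used in the construction -/
structure AmbX.Ex (A : AmbX G s) : Prop where
  lg : ∀ {N : ℕ} (h : OkX W p s m N) (n : ℕ),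
    LGHyp (A.tw h n) (A.hM h n) rbar (AlgebraicClosure (FractionRing O))

namespace AmbX

variable (E : A.Ex)

include E in
theorem exists_X {N : ℕ} (h : OkX W p s m N) (n : ℕ) :
    Nonempty (TWLev n G.g (A.R h) (G.P n) (A.tw h n) (A.hM h n) (PP W (m * G.Q n) O)
      (A.R' h n)) := by
  choose c hc hζ using G.gen n
  exact exists_TWLevX A.hp2 (A.tw h n) (A.m'_ne n) (A.hM h n) (dvd_mul_right m (G.Q n)) h.dvd
    A.hpO sd (A.nonEis' h n) (A.R h) (G.P n) (A.R' h n) (A.aux h)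
    (idx p n G.g N A.hp2 h.sqf.ne_zero (G.q n) (RTM.Amb.dvdQ n) (RTM.Amb.ndvd_of h.dvd n)
      (G.tw n).inj)
    (fun q hq => by
      obtain ⟨i, rfl⟩ := A.mem_Q h n hq
      exact A.q_ne n i) c
    (closure_gen p n G.g N A.hp2 h.sqf.ne_zero (G.q n) (RTM.Amb.dvdQ n)
      (RTM.Amb.ndvd_of h.dvd n) (G.tw n).inj c hc)
    (card_delta p n G.g N A.hp2 h.sqf.ne_zero (G.q n) (RTM.Amb.dvdQ n)
      (RTM.Amb.ndvd_of h.dvd n) (G.tw n).inj)
    (pow_eq_one p n) (fun i => Pl (G.q n i)) (fun i => Pl_lies _) (fun i => G.inert n i)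
    (fun i ζ h => hζ i ζ h) (A.comm h n) (E.lg h n) (A.exists_e h n)

/-- the data of the Taylor–Wiles level -/
def X {N : ℕ} (h : OkX W p s m N) (n : ℕ) :
    TWLev n G.g (A.R h) (G.P n) (A.tw h n) (A.hM h n) (PP W (m * G.Q n) O) (A.R' h n) :=
  (A.exists_X E h n).some

/-- **the Taylor–Wiles level** -/
def L (n N : ℕ) (h : OkX W p s m N) : RT8.TMod p (G.P n) n (A.B N h) :=
  have := h.neZero
  (A.X E h n).tmod A.hp2 A.hpO A.hspan

theorem B_C (N : ℕ) (h : OkX W p s m N) : (A.B N h).C = (A.R h).C := rfl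

theorem L_C (n N : ℕ) (h : OkX W p s m N) : (A.L E n N h).C = (A.R' h n).C := rfl

theorem levB (N : ℕ) (h : OkX W p s m N) [NeZero N] : IsLev p N m (A.B N h).C :=
  IsLev.of_hrep (A.R h) A.hm h.mem

theorem levL (n N : ℕ) (h : OkX W p s m N) (k : ℕ) [hk : NeZero k] (e : k = N * G.Q n ^ 2) :
    IsLev p k (m * G.Q n) (A.L E n N h).C := by
  have e' : k = (A.tw h n).N * (A.tw h n).dd * (A.tw h n).dd := by
    rw [e, A.tw_dd]
    show _ = N * _ * _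
    ring
  subst e'
  refine IsLev.of_hrep (A.R' h n) (A.m'_ne n) fun q hq hqn => h.mem' G n q hq ?_
  rw [← e]
  exact hqn

theorem dpos (N : ℕ) (h : OkX W p s m N) : 0 < (A.B N h).d := by
  have := h.neZero
  have := A.nt h
  have h1 := locHG_finite h.dvd (𝔪 := PP W m O)
  have h2 := locHG_free h.dvd (𝔪 := PP W m O)
  have h3 : Nonempty (Fin (2 ^ G.g)) := ⟨⟨0, Nat.two_pow_pos _⟩⟩
  have h4 : Nontrivial (Fin (2 ^ G.g) → Loc (PP W m O) (HG m N h.dvd O)) := Pi.nontrivial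
  exact Module.finrank_pos (R := O) (M := Fin (2 ^ G.g) → Loc (PP W m O) (HG m N h.dvd O))

theorem faith (N : ℕ) (h : OkX W p s m N) (t : (A.B N h).C.T)
    (ht : ∀ x : (A.B N h).M, t • x = 0) : t = 0 := by
  have := h.neZero
  refine (A.R h).faithful t fun x => ?_
  have h1 := ht (fun _ => x : Fin (2 ^ G.g) → Loc (PP W m O) (HG m N h.dvd O))
  exact congrFun h1 ⟨0, Nat.two_pow_pos _⟩

end AmbX

end

end Fermat.Agent.RTX
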