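import Fermat.Agent.TWP.Primes
import Fermat.Agent.DefRing.Burnside
import Fermat.Agent.RTE.Dihedral

/-!
# Auxiliary primes for `p = 3`

A prime `q ≡ 2 mod 3` whose Frobenius has non-zero residual trace.
-/

set_option autoImplicit false

noncomputable section

namespace Fermat.Agent.RTX

open Matrix
open Fermat.Agent.TWP (RD Qb mem_ker_iff exists_finite_root)
open Fermat.Agent.DefRing (M2 GQ mapRep mapRep_apply)

/-- Over an algebraically closed field: a group of commuting matrices has a common eigenvector. -/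
theorem exists_common_of_comm {K : Type} [Field K] [IsAlgClosed K] {G : Type} [Monoid G]
    (r : G →* M2 K) (hc : ∀ g h, r g * r h = r h * r g) :
    ∃ v : Fin 2 → K, v ≠ 0 ∧ ∀ g, ∃ c : K, r g *ᵥ v = c • v := by
  by_contra hcon
  push Not at hcon
  have hspan := DefRing.burnside_two r (by
    intro V hV
    by_contra hne
    push Not at hne
    obtain ⟨h0, h1⟩ := hne
    obtain ⟨v, hv, hv0⟩ := Submodule.exists_mem_ne_zero_of_ne_bot h0
    obtain ⟨g, hg⟩ := hcon v hv0
    have hgv : r g *ᵥ v ∈ V := hV g v hv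
    apply h1
    rw [eq_top_iff]
    have hlin : LinearIndependent K ![v, r g *ᵥ v] := by
      rw [LinearIndependent.pair_iff' hv0]
      exact fun a ha => hg a ha.symm
    have hspan := hlin.span_eq_top_of_card_eq_finrank (by simp)
    rw [← hspan, Submodule.span_le]
    rintro _ ⟨i, rfl⟩
    fin_cases i
    · exact hv
    · exact hgv)
  have h1 : ∀ (M : M2 K) (g : G), M * r g = r g * M := by
    intro M g
    have hM : M ∈ Submodule.span K (Set.range r) := by rw [hspan]; trivial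
    induction hM using Submodule.span_induction with
    | mem x hx => obtain ⟨h, rfl⟩ := hx; exact hc h g
    | zero => rw [zero_mul, mul_zero]
    | add x y _ _ hx hy => rw [add_mul, mul_add, hx, hy]
    | smul a x _ hx => rw [smul_mul_assoc, mul_smul_comm, hx]
  have h2 : ∀ M N : M2 K, M * N = N * M := by
    intro M N
    have hN : N ∈ Submodule.span K (Set.range r) := by rw [hspan]; trivial
    induction hN using Submodule.span_induction with
    | mem x hx => obtain ⟨h, rfl⟩ := hx; exact h1 M h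
    | zero => rw [zero_mul, mul_zero]
    | add x y _ _ hx hy => rw [add_mul, mul_add, hx, hy]
    | smul a x _ hx => rw [smul_mul_assoc, mul_smul_comm, hx]
  have h3 := h2 !![0, 1; 0, 0] !![0, 0; 1, 0]
  have h4 := congrFun (congrFun h3 0) 0
  simp [Matrix.mul_apply, Fin.sum_univ_two] at h4

section three

variable {k : Type} [Field k] {r : GQ →* M2 k} (hr : RD 3 r)

include hr

theorem three_zero : (3 : k) = 0 := by exact_mod_cast hr.char

/-- off the kernel of the cyclotomic character, trace zero implies order two -/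
theorem sq_one {σ : GQ} (hσ : ∀ μ : Qb, μ ^ 3 = 1 → σ μ = μ ^ 2) (ht : (r σ).trace = 0) :
    r σ * r σ = 1 := by
  rw [RTE.sq_eq, ht, zero_smul, zero_sub, hr.det σ 2 hσ, ← neg_smul]
  have h : -((2 : ℕ) : k) = 1 := by
    push_cast
    linear_combination -three_zero hr
  rw [h, one_smul]

/-- there is an element acting by inversion on the cube roots of unity, with non-zero trace -/
theorem exists_trace_ne : ∃ σ : GQ, (∀ μ : Qb, μ ^ 3 = 1 → σ μ = μ ^ 2) ∧ (r σ).trace ≠ 0 := by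
  by_contra hcon
  push Not at hcon
  obtain ⟨ζ, hζ⟩ := HasEnoughRootsOfUnity.exists_primitiveRoot Qb 3
  set H := (hζ.autToPow ℚ).ker with hH
  have hcases : ∀ σ : GQ, σ ∉ H → ∀ μ : Qb, μ ^ 3 = 1 → σ μ = μ ^ 2 := by
    intro σ hσ
    have h1 : (σ ζ) ^ 3 = 1 := by rw [← map_pow, hζ.pow_eq_one, map_one]
    obtain ⟨a, ha, h2⟩ := hζ.eq_pow_of_pow_eq_one h1
    have h3 : ∀ μ : Qb, μ ^ 3 = 1 → σ μ = μ ^ a := by
      intro μ hμ
      obtain ⟨b, -, rfl⟩ := hζ.eq_pow_of_pow_eq_one hμ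
      rw [map_pow, ← h2, ← pow_mul, ← pow_mul, mul_comm]
    interval_cases a
    · exfalso
      rw [pow_zero] at h2
      have h4 : ζ = 1 := by
        have h5 := congrArg σ.symm h2
        rw [map_one, AlgEquiv.symm_apply_apply] at h5
        exact h5.symm
      exact hζ.ne_one (by norm_num) h4
    · exfalso
      apply hσ
      rw [hH, mem_ker_iff]
      intro μ hμ
      rw [h3 μ hμ, pow_one]
    · exact h3
  have hmem : ∀ σ : GQ, σ ∈ H → σ ζ = ζ := fun σ hσ =>
    (mem_ker_iff hζ σ).mp hσ ζ hζ.pow_eq_one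
  have hζ2 : ζ ^ 2 ≠ ζ := by
    intro h
    have h1 : ζ = 1 := by
      have h0 : ζ ≠ 0 := hζ.ne_zero (by norm_num)
      have h2 : ζ * ζ = 1 * ζ := by rw [one_mul, ← pow_two, h]
      exact mul_right_cancel₀ h0 h2
    exact hζ.ne_one (by norm_num) h1
  obtain ⟨x, hx⟩ := TWP.exists_aut hζ (a := 2) (by decide)
  have hxH : x ∉ H := fun h => hζ2 (by rw [← hx ζ hζ.pow_eq_one]; exact hmem x h)
  have hidx : H.index = 2 := by
    rw [Subgroup.index_eq_two_iff]
    refine ⟨x, fun b => ?_⟩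
    by_cases hb : b ∈ H
    · right
      refine ⟨hb, fun h => hxH ?_⟩
      have := H.mul_mem (H.inv_mem hb) h
      rwa [inv_mul_cancel_left] at this
    · left
      refine ⟨?_, hb⟩
      rw [hH, mem_ker_iff]
      intro μ hμ
      rw [AlgEquiv.mul_apply, hx μ hμ, map_pow, hcases b hb μ hμ, ← pow_mul]
      calc μ ^ (2 * 2) = μ ^ 3 * μ := by ring
        _ = μ := by rw [hμ, one_mul]
  have hnm : ∀ h ∈ H, x * h ∉ H := by
    intro h hh h1
    apply hxH
    have := H.mul_mem h1 (H.inv_mem hh)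
    rwa [mul_inv_cancel_right] at this
  have hxx : r x * r x = 1 := sq_one hr hx (hcon x hx)
  have hinv : ∀ h ∈ H, r x * r h * r x = r h⁻¹ := by
    intro h hh
    have h1 := sq_one hr (hcases _ (hnm h hh)) (hcon _ (hcases _ (hnm h hh)))
    rw [map_mul] at h1
    have h2 : r h * r h⁻¹ = 1 := by rw [← map_mul, mul_inv_cancel, map_one]
    calc r x * r h * r x = r x * r h * r x * (r h * r h⁻¹) := by rw [h2, mul_one]
      _ = (r x * r h * (r x * r h)) * r h⁻¹ := by simp only [mul_assoc]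
      _ = r h⁻¹ := by rw [h1, one_mul]
  have hcomm : ∀ h ∈ H, ∀ h' ∈ H, r h⁻¹ * r h'⁻¹ = r h'⁻¹ * r h⁻¹ := by
    intro h hh h' hh'
    have h1 := hinv (h * h') (H.mul_mem hh hh')
    rw [map_mul, _root_.mul_inv_rev, map_mul] at h1
    rw [← h1, ← hinv h hh, ← hinv h' hh']
    calc r x * r h * r x * (r x * r h' * r x) = r x * r h * (r x * r x) * r h' * r x := by
          simp only [mul_assoc]
      _ = r x * (r h * r h') * r x := by rw [hxx]; simp only [mul_assoc, mul_one, one_mul]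
  have hcomm' : ∀ h ∈ H, ∀ h' ∈ H, r h * r h' = r h' * r h := by
    intro h hh h' hh'
    have := hcomm h⁻¹ (H.inv_mem hh) h'⁻¹ (H.inv_mem hh')
    rwa [inv_inv, inv_inv] at this
  obtain ⟨v, hv, hev⟩ := exists_common_of_comm (K := AlgebraicClosure k)
    ((mapRep (algebraMap k (AlgebraicClosure k)) r).comp H.subtype) (by
      intro g h
      have h1 := congrArg (algebraMap k (AlgebraicClosure k)).mapMatrix (hcomm' g g.2 h h.2)
      rw [map_mul, map_mul] at h1
      exact h1)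
  obtain ⟨h, hh, hne⟩ := hr.irr H (Or.inl hidx) v hv
  obtain ⟨c, hc⟩ := hev ⟨h, hh⟩
  exact hne c hc

/-- **Auxiliary primes.** -/
theorem exists_aux (S : Finset ℕ) : ∃ (q : ℕ) (A : ValuationSubring Qb) (τ : GQ), q.Prime ∧
    q ∉ S ∧ q % 3 = 2 ∧ A.LiesOverPrime q ∧ A.IsFrobeniusAt τ q ∧
    (∀ i ∈ A.inertiaSubgroupIn ℚ, r i = 1) ∧ (r τ).trace ≠ 0 := by
  obtain ⟨σ, hσ, hσt⟩ := exists_trace_ne hr
  obtain ⟨ζ, hζ⟩ := HasEnoughRootsOfUnity.exists_primitiveRoot Qb 3
  obtain ⟨L₁, hL₁, hrL⟩ := hr.cont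
  obtain ⟨L₃, hL₃, hμL⟩ := exists_finite_root (m := 3) (by norm_num)
  have hL : FiniteDimensional ℚ (L₁ ⊔ L₃ : IntermediateField ℚ Qb) := inferInstance
  obtain ⟨q, hq, hqS, A, hA, hI, τ, hτ, ⟨j, hj⟩, l, hl⟩ :=
    Fermat.Agent.FrobDensity.exists_frobenius_pow_eq (L₁ ⊔ L₃) hL σ (insert 3 S)
  have hq3 : q ≠ 3 := fun h => hqS (by rw [h]; exact Finset.mem_insert_self _ _)
  have hζ2 : ζ ^ 2 ≠ ζ := by
    intro h
    have h1 : ζ = 1 := by
      have h0 : ζ ≠ 0 := hζ.ne_zero (by norm_num)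
      have h2 : ζ * ζ = 1 * ζ := by rw [one_mul, ← pow_two, h]
      exact mul_right_cancel₀ h0 h2
    exact hζ.ne_one (by norm_num) h1
  have hτζ : τ ζ = ζ ^ q := Fermat.Agent.QuadRep.frobenius_smul_root hq hA hτ (by norm_num)
    ((Nat.coprime_primes Nat.prime_three hq).mpr hq3.symm) ζ hζ.pow_eq_one
  have hτμ : ∀ μ : Qb, μ ^ 3 = 1 → τ μ = μ ^ q := by
    intro μ hμ
    obtain ⟨b, -, rfl⟩ := hζ.eq_pow_of_pow_eq_one hμ
    rw [map_pow, hτζ, ← pow_mul, ← pow_mul, mul_comm]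
  have hpow : ∀ n : ℕ, (τ ^ n) ζ = ζ ^ (q ^ n) := by
    intro n
    induction n with
    | zero => rw [pow_zero, pow_zero, pow_one, AlgEquiv.one_apply]
    | succ n ih => rw [pow_succ', AlgEquiv.mul_apply, ih, map_pow, hτζ, ← pow_mul, ← pow_succ']
  have hζL : ζ ∈ (L₁ ⊔ L₃ : IntermediateField ℚ Qb) := le_sup_right (a := L₁) (hμL ζ hζ.pow_eq_one)
  have hj' : ζ ^ (q ^ j) = ζ ^ 2 := by rw [← hpow, hj ζ hζL, hσ ζ hζ.pow_eq_one]
  have hord : orderOf ζ = 3 := hζ.eq_orderOf.symm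
  have hmod : q ^ j % 3 = 2 := by
    have h1 := pow_mod_orderOf ζ (q ^ j)
    rw [hord, hj'] at h1
    exact hζ.pow_inj (Nat.mod_lt _ (by norm_num)) (by norm_num) h1
  have hqmod : q % 3 = 2 := by
    have h1 : q % 3 < 3 := Nat.mod_lt _ (by norm_num)
    interval_cases h : q % 3
    · exfalso
      have h2 : 3 ∣ q := Nat.dvd_of_mod_eq_zero h
      exact hq3 ((Nat.prime_dvd_prime_iff_eq Nat.prime_three hq).mp h2).symm
    · exfalso
      rw [Nat.pow_mod, h, one_pow] at hmod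
      norm_num at hmod
    · rfl
  have hjodd : j % 2 = 1 := by
    by_contra hcon
    have h2 : Even j := by rw [Nat.even_iff]; omega
    obtain ⟨t, ht⟩ := h2
    rw [ht, ← two_mul, pow_mul, Nat.pow_mod, Nat.pow_mod q 2, hqmod] at hmod
    norm_num at hmod
  have hτ2 : ∀ μ : Qb, μ ^ 3 = 1 → τ μ = μ ^ 2 := by
    intro μ hμ
    rw [hτμ μ hμ]
    conv_lhs => rw [← Nat.div_add_mod q 3, hqmod, pow_add, pow_mul, hμ, one_pow, one_mul]
  refine ⟨q, A, τ, hq, fun h => hqS (Finset.mem_insert_of_mem h), hqmod, hA, hτ, fun i hi => ?_,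
    fun ht => hσt ?_⟩
  · exact hrL i fun x hx => hI i hi x (le_sup_left (b := L₃) hx)
  · have h1 := sq_one hr hτ2 ht
    have h2 : r (τ ^ j) = r σ := by
      have e : r ((τ ^ j)⁻¹ * σ) = 1 := hrL _ fun x hx => by
        rw [AlgEquiv.mul_apply, ← hj x (le_sup_left (b := L₃) hx), ← AlgEquiv.mul_apply,
          inv_mul_cancel, AlgEquiv.one_apply]
      rw [← mul_one (r (τ ^ j)), ← e, ← map_mul, mul_inv_cancel_left]
    obtain ⟨t, ht'⟩ : ∃ t, j = 2 * t + 1 := ⟨j / 2, by omega⟩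
    have h3 : r (τ ^ j) = r τ := by
      rw [ht', pow_succ, pow_mul, map_mul, map_pow, pow_two, map_mul, h1, one_pow, one_mul]
    rw [← h2, h3, ht]

end three

end Fermat.Agent.RTX
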