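import Fermat.Agent.RTX.Aux3
import Fermat.Agent.RTE.Model

/-!
# Auxiliary primes for `p = 3`, for a curve
-/

set_option autoImplicit false

noncomputable section

namespace Fermat.Agent.RTX

open WeierstrassCurve IsLocalRing Matrix
open Fermat.Agent.TWP (RD Qb)
open Fermat.Agent.RTE (EW rbE rE)

/-- **Auxiliary primes**: primes `r ≡ 2 mod 3` of good reduction with `3 ∤ a_r`. -/
theorem exists_aux_ap {O : Type} [CommRing O] [IsLocalRing O] {W : WeierstrassCurve ℤ}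
    [hE : (EW W).IsElliptic] (hΔ : W.Δ ≠ 0) [Fact (Nat.Prime 3)]
    (hirr : W.ModRepIsIrreducible 3) (f : ℤ_[3] →+* O) (hrd : RD 3 (rbE (EW W) 3 f))
    (S : Finset ℕ) : ∃ r : ℕ, r.Prime ∧ r ∉ S ∧ r % 3 = 2 ∧ W.IsGoodPrimeFor r ∧
      ¬ (3 : ℤ) ∣ W.apOfModel r := by
  obtain ⟨q, A, τ, hq, hqS, hq3, hA, hτ, -, ht⟩ :=
    exists_aux hrd (S ∪ W.Δ.natAbs.primeFactors)
  have hgood : W.IsGoodPrimeFor q := by
    intro h
    apply hqS
    refine Finset.mem_union_right _ (Nat.mem_primeFactors.mpr ⟨hq, Int.natCast_dvd.mp h, ?_⟩)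
    exact Int.natAbs_ne_zero.mpr hΔ
  have hqp : q ≠ 3 := by omega
  refine ⟨q, hq, fun h => hqS (Finset.mem_union_left _ h), hq3, hgood, fun h => ht ?_⟩
  have h1 := RTE.trace_rE_frob (EW W) 3 (RTE.isIntegralModelOf_EW W) f
    (RTE.nonScalar_EW 3 hirr) hq hA hqp hgood hτ
  rw [RTE.rbE_eq, Matrix.trace_fin_two]
  rw [Matrix.trace_fin_two] at h1
  rw [RingHom.mapMatrix_apply, Matrix.map_apply, Matrix.map_apply, ← map_add, h1, map_intCast]
  obtain ⟨c, hc⟩ := h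
  rw [hc]
  push_cast
  rw [three_zero hrd, zero_mul]

end Fermat.Agent.RTX
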