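import Fermat.Agent.RTE.Model

/-!
Absolute irreducibility of `E[p]`, `p = 3, 5`, on subgroups of index at most two, for every
semistable elliptic curve (no condition at `2`).
-/

set_option autoImplicit false

namespace Fermat.Agent.RTX

open WeierstrassCurve WeierstrassCurve.Affine
open Fermat.Agent.ERep Fermat.Agent.Tate Fermat.Agent.RTE
open Fermat.Agent.DefRing (M2 mapRep mapRep_apply MatCont)
open Matrix

section Grp

/-- A finite `2`-group in which `x` lies in no subgroup of index two is generated by `x`. -/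
theorem zpowers_eq_top {Γ : Type*} [Group Γ] [Finite Γ] (hΓ : IsPGroup 2 Γ) {x : Γ}
    (hx : ∀ K : Subgroup Γ, K.index = 2 → x ∉ K) : Subgroup.zpowers x = ⊤ := by
  have : Fact (Nat.Prime 2) := ⟨Nat.prime_two⟩
  obtain ⟨k, hk⟩ := IsPGroup.iff_card.mp hΓ
  obtain ⟨n, hn⟩ := IsPGroup.iff_card.mp (hΓ.to_subgroup (Subgroup.zpowers x))
  have hnk : n ≤ k := by
    have h1 := Subgroup.card_subgroup_dvd_card (Subgroup.zpowers x)
    rw [hn, hk] at h1
    exact (Nat.pow_dvd_pow_iff_le_right (by norm_num)).mp h1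
  by_contra hne
  have hlt : n < k := by
    refine lt_of_le_of_ne hnk fun h => hne ?_
    apply Subgroup.eq_top_of_card_eq
    rw [hn, hk, h]
  obtain ⟨K, hK, hle⟩ := Sylow.exists_subgroup_card_pow_prime_le 2
    (n := n) (m := k - 1) (G := Γ) (by rw [hk]; exact pow_dvd_pow 2 (by omega))
    (Subgroup.zpowers x) hn (by omega)
  have hind : K.index = 2 := by
    have h5 := K.card_mul_index
    rw [hK, hk] at h5
    have h6 : 2 ^ k = 2 ^ (k - 1) * 2 := by
      rw [← pow_succ]; congr 1; omega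
    rw [h6] at h5
    exact Nat.eq_of_mul_eq_mul_left (by positivity) h5
  exact hx K hind (hle (Subgroup.mem_zpowers x))

/-- A representation with a diagonal subgroup of index two over `ZMod 5`, which is the unique
subgroup of index two containing the kernel, has commutative image. -/
theorem five_case {G : Type*} [Group G] (r : G →* Matrix (Fin 2) (Fin 2) (ZMod 5))
    {H : Subgroup G} (hH : H.index = 2) {v : Fin 2 → ZMod 5} (hv : v ≠ 0)
    (hev : ∀ h ∈ H, ∃ t : ZMod 5, r h *ᵥ v = t • v)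
    (hne : ¬ ∀ g, ∃ t : ZMod 5, r g *ᵥ v = t • v)
    (huniq : ∀ K : Subgroup G, K.index = 2 → (∀ g, r g = 1 → g ∈ K) → K = H) :
    ∀ g g', r g * r g' = r g' * r g := by
  classical
  have : Fact (Nat.Prime 5) := ⟨Nat.prime_five⟩
  have hN : H.Normal := Subgroup.normal_of_index_eq_two hH
  obtain ⟨x, hx⟩ : ∃ x, x ∉ H := by
    by_contra hc
    push Not at hc
    have : H = ⊤ := by rw [eq_top_iff]; intro g _; exact hc g
    rw [this, Subgroup.index_top] at hH
    exact absurd hH (by norm_num)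
  have hkey : d2 (r x *ᵥ v) v ≠ 0 := by
    intro h0
    obtain ⟨t, ht⟩ := exists_smul_of_d2 hv h0
    apply hne
    intro g
    by_cases hg : g ∈ H
    · exact hev g hg
    · have h1 : g * x⁻¹ ∈ H := by
        rw [Subgroup.mul_mem_iff_of_index_two hH, Subgroup.inv_mem_iff]
        tauto
      obtain ⟨s, hs⟩ := hev _ h1
      refine ⟨t * s, ?_⟩
      have h2 : g = (g * x⁻¹) * x := by group
      rw [h2, map_mul, ← Matrix.mulVec_mulVec, ht, Matrix.mulVec_smul, hs, smul_smul]
  have hunit : ∀ (g : G) (u : Fin 2 → ZMod 5) (t : ZMod 5), u ≠ 0 → r g *ᵥ u = t • u → t ^ 4 = 1 := by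
    intro g u t hu h
    have ht : t ≠ 0 := by
      rintro rfl
      apply hu
      have h1 : r g⁻¹ *ᵥ (r g *ᵥ u) = u := by
        rw [Matrix.mulVec_mulVec, ← map_mul, inv_mul_cancel, map_one, Matrix.one_mulVec]
      rw [h, zero_smul, Matrix.mulVec_zero] at h1
      exact h1.symm
    exact ZMod.pow_card_sub_one_eq_one ht
  have hpow : ∀ (g : G) (u : Fin 2 → ZMod 5) (t : ZMod 5), r g *ᵥ u = t • u → ∀ n : ℕ,
      (r g ^ n) *ᵥ u = t ^ n • u := by
    intro g u t h n
    induction n with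
    | zero => simp
    | succ n ih => rw [pow_succ, ← Matrix.mulVec_mulVec, h, Matrix.mulVec_smul, ih, smul_smul,
        pow_succ, mul_comm]
  set w := r x *ᵥ v with hw
  have hw0 : w ≠ 0 := by
    intro h
    apply hkey
    rw [h, d2]
    simp
  have hevw : ∀ h ∈ H, ∃ t : ZMod 5, r h *ᵥ w = t • w := by
    intro h hh
    have h5 : x⁻¹ * h * x ∈ H := by
      have := hN.conj_mem h hh x⁻¹
      simpa using this
    obtain ⟨t, ht⟩ := hev _ h5
    refine ⟨t, ?_⟩
    have h6 : h * x = x * (x⁻¹ * h * x) := by group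
    rw [hw, Matrix.mulVec_mulVec, ← map_mul, h6, map_mul, ← Matrix.mulVec_mulVec, ht,
      Matrix.mulVec_smul]
  have h4 : ∀ h ∈ H, r h ^ 4 = 1 := by
    intro h hh
    obtain ⟨t, ht⟩ := hev h hh
    obtain ⟨t', ht'⟩ := hevw h hh
    have h3 : (r h ^ 4 - 1) *ᵥ v = 0 := by
      rw [Matrix.sub_mulVec, hpow h v t ht 4, hunit h v t hv ht, one_smul, Matrix.one_mulVec,
        sub_self]
    have h4 : (r h ^ 4 - 1) *ᵥ w = 0 := by
      rw [Matrix.sub_mulVec, hpow h w t' ht' 4, hunit h w t' hw0 ht', one_smul,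
        Matrix.one_mulVec, sub_self]
    rw [← sub_eq_zero]
    set N := r h ^ 4 - 1 with hN'
    have hrow : ∀ i, N i 0 = 0 ∧ N i 1 = 0 := by
      intro i
      have e1 := congrFun h3 i
      have e2 := congrFun h4 i
      simp only [Matrix.mulVec, dotProduct, Fin.sum_univ_two, Pi.zero_apply] at e1 e2
      have h5 := hkey
      rw [d2] at h5
      constructor
      · have : N i 0 * (w 0 * v 1 - w 1 * v 0) = 0 := by linear_combination v 1 * e2 - w 1 * e1
        exact (mul_eq_zero.mp this).resolve_right h5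
      · have : N i 1 * (w 0 * v 1 - w 1 * v 0) = 0 := by linear_combination w 0 * e1 - v 0 * e2
        exact (mul_eq_zero.mp this).resolve_right h5
    ext i j
    fin_cases j
    · exact (hrow i).1
    · exact (hrow i).2
  have h8 : ∀ g, r g ^ 8 = 1 := by
    intro g
    by_cases hg : g ∈ H
    · have : r g ^ 8 = (r g ^ 4) ^ 2 := by rw [← pow_mul]
      rw [this, h4 g hg, one_pow]
    · have h1 : g * g ∈ H := by rw [Subgroup.mul_mem_iff_of_index_two hH]
      have h2 := h4 _ h1
      rw [map_mul, ← pow_two, ← pow_mul] at h2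
      exact h2
  -- the image is a `2`-group
  set u : G →* (Matrix (Fin 2) (Fin 2) (ZMod 5))ˣ := MonoidHom.toHomUnits r with hu
  have hur : ∀ g, ((u g : (Matrix (Fin 2) (Fin 2) (ZMod 5))ˣ) : Matrix (Fin 2) (Fin 2) (ZMod 5)) =
      r g := fun g => rfl
  have hu1 : ∀ g, u g = 1 ↔ r g = 1 := by
    intro g
    rw [← hur g, Units.val_eq_one]
  have hfin : Finite (Matrix (Fin 2) (Fin 2) (ZMod 5))ˣ := inferInstance
  set r' : G →* u.range := u.rangeRestrict with hr'
  have hsurj : Function.Surjective r' := u.rangeRestrict_surjective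
  have hr'1 : ∀ g, r' g = 1 ↔ r g = 1 := by
    intro g
    rw [← hu1 g]
    exact ⟨fun h => congrArg Subtype.val h, fun h => Subtype.ext h⟩
  have hp : IsPGroup 2 u.range := by
    rintro ⟨_, g, rfl⟩
    refine ⟨3, Subtype.ext (Units.ext ?_)⟩
    show (u g : Matrix (Fin 2) (Fin 2) (ZMod 5)) ^ (2 ^ 3) = 1
    rw [hur]
    exact h8 g
  have htop : Subgroup.zpowers (r' x) = ⊤ := by
    refine zpowers_eq_top hp fun K hK hxK => hx ?_
    have h7 : (K.comap r').index = 2 := by
      rw [Subgroup.index_comap_of_surjective K hsurj, hK]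
    have h8 := huniq (K.comap r') h7 (fun g hg => by
      rw [Subgroup.mem_comap, (hr'1 g).mpr hg]
      exact K.one_mem)
    rw [← h8, Subgroup.mem_comap]
    exact hxK
  intro g g'
  obtain ⟨n, hn⟩ := Subgroup.mem_zpowers_iff.mp (show r' g ∈ Subgroup.zpowers (r' x) by
    rw [htop]; trivial)
  obtain ⟨m, hm⟩ := Subgroup.mem_zpowers_iff.mp (show r' g' ∈ Subgroup.zpowers (r' x) by
    rw [htop]; trivial)
  have h9 : r' g * r' g' = r' g' * r' g := by
    rw [← hn, ← hm, ← _root_.zpow_add, ← _root_.zpow_add, add_comm]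
  exact congrArg (fun y : u.range => ((y : (Matrix (Fin 2) (Fin 2) (ZMod 5))ˣ) :
      Matrix (Fin 2) (Fin 2) (ZMod 5))) h9

/-- An involution of determinant `-1` commuting with everything gives a common eigenvector. -/
theorem exists_eig_of_comm {F : Type*} [Field F] (h2 : (2 : F) ≠ 0) {G : Type*} [Group G]
    (r : G →* Matrix (Fin 2) (Fin 2) F) {c : G} (hc : r c * r c = 1) (hdet : (r c).det = -1)
    (hcomm : ∀ g, r g * r c = r c * r g) :
    ∃ e : Fin 2 → F, e ≠ 0 ∧ ∀ g, ∃ t : F, r g *ᵥ e = t • e := by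
  have hone : ∀ s : F, s * s = 1 → r c ≠ s • 1 := by
    intro s hs h
    rw [h, Matrix.det_smul, Matrix.det_one, Fintype.card_fin, mul_one, sq, hs] at hdet
    apply h2
    have : (1 : F) + 1 = 0 := by linear_combination hdet
    rw [← this]; norm_num
  have hM : r c - 1 ≠ 0 := by
    have := hone 1 (by ring)
    rw [one_smul] at this
    exact sub_ne_zero.mpr this
  have hM' : r c + 1 ≠ 0 := by
    intro h
    apply hone (-1) (by ring)
    rw [neg_smul, one_smul]
    exact eq_neg_of_add_eq_zero_left h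
  obtain ⟨i, j, hij⟩ : ∃ i j, (r c + 1) i j ≠ 0 := by
    by_contra hcc
    push Not at hcc
    apply hM'
    ext i j
    exact hcc i j
  set e : Fin 2 → F := (r c + 1) *ᵥ (Pi.single j 1) with he
  have he0 : e ≠ 0 := by
    intro h
    apply hij
    have := congrFun h i
    rw [he, Matrix.mulVec_single_one] at this
    exact this
  have hce : (r c - 1) *ᵥ e = 0 := by
    rw [he, Matrix.mulVec_mulVec]
    have : (r c - 1) * (r c + 1) = 0 := by
      have h1 : (r c - 1) * (r c + 1) = r c * r c - 1 := by noncomm_ring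
      rw [h1, hc, sub_self]
    rw [this, Matrix.zero_mulVec]
  obtain ⟨e', -, hker⟩ := exists_vec_of_ker (K := F) hM
  have hmap : ∀ u : Fin 2 → F, (r c - 1) *ᵥ u = 0 → ∃ t : F, u = t • e' := by
    intro u hu
    obtain ⟨t, ht⟩ := hker u (by
      have h1 : (r c - 1).map (algebraMap F F) = r c - 1 := by ext i j; simp
      rw [h1]
      exact hu)
    refine ⟨t, ?_⟩
    rw [ht]
    congr 1
  obtain ⟨t, ht⟩ := hmap e hce
  have ht0 : t ≠ 0 := by
    rintro rfl
    apply he0
    rw [ht, zero_smul]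
  refine ⟨e, he0, fun g => ?_⟩
  obtain ⟨s, hs⟩ := hmap (r g *ᵥ e) (by
    rw [Matrix.mulVec_mulVec]
    have h1 : (r c - 1) * r g = r g * (r c - 1) := by
      rw [sub_mul, mul_sub, hcomm g, one_mul, mul_one]
    rw [h1, ← Matrix.mulVec_mulVec, hce, Matrix.mulVec_zero])
  refine ⟨s * t⁻¹, ?_⟩
  rw [hs, ht, smul_smul, mul_assoc, inv_mul_cancel₀ ht0, mul_one]

end Grp

/-- complex conjugation fixes `√5` -/
theorem conj_sqrt_five {c : GQ} (hζ : ∀ (n : ℕ), 0 < n → ∀ ζ : Qb, ζ ^ n = 1 → c ζ = ζ⁻¹)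
    {δ : Qb} (hδ : δ ^ 2 = 5) : c δ = δ := by
  obtain ⟨ζ, hprim⟩ := HasEnoughRootsOfUnity.exists_primitiveRoot Qb 5
  have h5 : ζ ^ 5 = 1 := hprim.pow_eq_one
  have hne : ζ ≠ 1 := by
    intro h
    have := hprim.eq_orderOf
    rw [h, orderOf_one] at this
    norm_num at this
  have hΦ : ζ ^ 4 + ζ ^ 3 + ζ ^ 2 + ζ + 1 = 0 := by
    have h1 : (ζ - 1) * (ζ ^ 4 + ζ ^ 3 + ζ ^ 2 + ζ + 1) = 0 := by linear_combination h5
    exact (mul_eq_zero.mp h1).resolve_left (sub_ne_zero.mpr hne)
  have hζ0 : ζ ≠ 0 := by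
    rintro rfl
    norm_num at h5
  have hinv : ζ⁻¹ = ζ ^ 4 := by
    apply inv_eq_of_mul_eq_one_right
    linear_combination h5
  have hc : c ζ = ζ ^ 4 := by rw [hζ 5 (by norm_num) ζ h5, hinv]
  set θ : Qb := ζ - ζ ^ 2 - ζ ^ 3 + ζ ^ 4 with hθ
  have hθ2 : θ ^ 2 = 5 := by
    rw [hθ]
    linear_combination (ζ ^ 4 - 3 * ζ ^ 3 + ζ ^ 2 + 5 * ζ - 5) * hΦ
  have hcθ : c θ = θ := by
    rw [hθ, map_add, map_sub, map_sub, map_pow, map_pow, map_pow, hc]
    linear_combination (-(ζ ^ 3) - ζ ^ 7 - ζ ^ 2 + ζ + ζ ^ 6 + ζ ^ 11) * h5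
  rcases sq_eq_sq_iff_eq_or_eq_neg.mp (hδ.trans hθ2.symm) with h | h
  · rw [h, hcθ]
  · rw [h, map_neg, hcθ]

section Main

variable (E : WeierstrassCurve ℚ) [E.IsElliptic] (p : ℕ) [hp : Fact p.Prime]
  {W : WeierstrassCurve ℤ} (hWE : W.IsIntegralModelOf E)

include hWE in
theorem modE_irr_two' (hss : W.IsSemistableModel) (hcase : p = 3 ∨ p = 5)
    (hirr : Affine.Point.GaloisRepIsIrreducible (K := Qb) ℚ E p)
    {K : Type*} [Field K] [Algebra (ZMod p) K] {H : Subgroup GQ} (hH : H.index = 2)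
    {v : Fin 2 → K} (hv : v ≠ 0) :
    ¬ ∀ s ∈ H, ∃ t : K, (modE E p s).map (algebraMap (ZMod p) K) *ᵥ v = t • v := by
  have hp2 : p ≠ 2 := by rcases hcase with rfl | rfl <;> norm_num
  intro hcon
  have hns := nonScalar_of_irreducible E p hirr
  have hΔ0 : W.Δ ≠ 0 := Δ_ne_zero E hWE
  have hinj : Function.Injective (algebraMap (ZMod p) K) := (algebraMap (ZMod p) K).injective
  set r : GQ →* Matrix (Fin 2) (Fin 2) K :=
    ((algebraMap (ZMod p) K).mapMatrix : Matrix (Fin 2) (Fin 2) (ZMod p) →+* _).toMonoidHom.comp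
      (modE E p) with hr
  have hr' : ∀ s, r s = (modE E p s).map (algebraMap (ZMod p) K) := fun s => rfl
  have habs : ¬ ∀ g, ∃ t : K, r g *ᵥ v = t • v := modE_absirr E p hWE hp2 hirr hv
  have hcharK : CharP K p := charP_of_injective_algebraMap hinj p
  have h2K : (2 : K) ≠ 0 := by
    have := (map_ne_zero_iff _ hinj).mpr (two_ne_zero_zmod p hp2)
    rwa [map_ofNat] at this
  obtain ⟨htr, huni⟩ := dihedral r hH hv hcon habs
  -- unipotents are trivial
  have huni' : ∀ h, (modE E p h - 1) * (modE E p h - 1) = 0 → modE E p h = 1 := by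
    intro h hh
    have h3 : (r h - 1) * (r h - 1) = 0 := by
      have h4 : r h - 1 = (algebraMap (ZMod p) K).mapMatrix (modE E p h - 1) := by
        rw [map_sub, map_one]; rfl
      rw [h4, ← map_mul, hh, map_zero]
    have h5 := huni h h3 h2K
    ext i j
    apply hinj
    have h6 := congrFun (congrFun h5 i) j
    rw [hr', Matrix.map_apply] at h6
    rw [h6, Matrix.one_apply, Matrix.one_apply]
    split_ifs <;> simp
  -- inertia away from `p` is trivial
  have hin : ∀ l : ℕ, l.Prime → l ≠ p → ∀ A : ValuationSubring Qb, A.LiesOverPrime l →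
      ∀ s ∈ A.inertiaSubgroupIn ℚ, modE E p s = 1 := by
    intro l hl hlp A hA s hs
    by_cases hgood : W.IsGoodPrimeFor l
    · exact modE_inertia_good E p hWE hl hA hlp hgood hs
    · have hΔ : (l : ℤ) ∣ W.Δ := not_not.mp hgood
      exact huni' s (modE_inertia_mult E p hWE hl hA hlp hΔ (hss l hl hΔ) hs)
  -- the kernel is contained in `H`
  have hker : ∀ n, modE E p n = 1 → n ∈ H := by
    intro n hn
    by_contra hnH
    apply habs
    intro g
    by_cases hg : g ∈ H
    · exact hcon g hg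
    · have h3 : g * n⁻¹ ∈ H := by
        rw [Subgroup.mul_mem_iff_of_index_two hH, Subgroup.inv_mem_iff]
        tauto
      obtain ⟨t, ht⟩ := hcon _ h3
      refine ⟨t, ?_⟩
      have h4 : modE E p g = modE E p (g * n⁻¹) := by
        have h5 : g = (g * n⁻¹) * n := by group
        conv_lhs => rw [h5]
        rw [map_mul, hn, mul_one]
      rw [hr', h4]
      exact ht
  obtain ⟨L, hLfin, hL⟩ := modE_cont E p
  have hLker : ∀ K' : Subgroup GQ, (∀ n, modE E p n = 1 → n ∈ K') → L.fixingSubgroup ≤ K' := by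
    intro K' hK' σ hσ
    apply hK'
    apply hL
    rwa [IntermediateField.mem_fixingSubgroup_iff] at hσ
  rcases hcase with h3 | h5
  · -- `p = 3`
    subst h3
    obtain ⟨c, hc, hdet, hζ⟩ := exists_conj_modE E 3 hWE hp2 hns
    obtain ⟨d, δ, h4, h5, hδ, hiff⟩ := exists_pstar Nat.prime_three (by norm_num) hH L
      (hLker H hker) (fun l hl hl3 A hA s hs => hker s (hin l hl hl3 A hA s hs))
    have hd : d = -3 := by
      push_cast at h5
      omega
    have hcH : c ∉ H := by
      rw [hiff]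
      intro hfix
      rw [hd] at hδ
      set ζ : Qb := (-1 + δ) / 2 with hζdef
      have h6 : ζ ^ 2 + ζ + 1 = 0 := by
        rw [hζdef]
        push_cast at hδ
        linear_combination (1 / 4 : Qb) * hδ
      have h7 : ζ ^ 3 = 1 := by linear_combination (ζ - 1) * h6
      have h8 : ζ ≠ 0 := by
        intro h
        rw [h] at h7
        norm_num at h7
      have h9 : c ζ = ζ := by
        rw [hζdef, map_div₀, map_add, hfix, map_neg, map_one, map_ofNat]
      have h10 := hζ 3 (by norm_num) ζ h7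
      rw [h9] at h10
      have h11 : ζ * ζ = 1 := by
        calc ζ * ζ = ζ * ζ⁻¹ := by rw [← h10]
          _ = 1 := mul_inv_cancel₀ h8
      have h12 : ζ = -2 := by linear_combination h6 - h11
      rw [h12] at h11
      norm_num at h11
    have hall := three_case (modE E 3) hcH (by rw [← map_mul, hc, map_one]) hker huni'
      (fun K' hK' hK'ker => eq_of_pstar Nat.prime_three (by norm_num) hK' hH L (hLker K' hK'ker)
        (hLker H hker) (fun l hl hl3 A hA s hs => hK'ker s (hin l hl hl3 A hA s hs))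
        (fun l hl hl3 A hA s hs => hker s (hin l hl hl3 A hA s hs)))
    obtain ⟨e, he0, he⟩ := exists_eig_of_comm (two_ne_zero_zmod 3 hp2) (modE E 3)
      (c := c) (by rw [← map_mul, hc, map_one]) hdet (fun g => by
        rcases hall g with h | h
        · rw [h, one_mul, mul_one]
        · rw [h])
    obtain ⟨s, hs⟩ := modE_irr E 3 hirr he0
    obtain ⟨t, ht⟩ := he s
    exact hs t ht
  · -- `p = 5`
    subst h5
    obtain ⟨c, hc, hdet, hζ⟩ := exists_conj_modE E 5 hWE hp2 hns
    obtain ⟨d, δ, h4, h5, hδ, hiff⟩ := exists_pstar Nat.prime_five (by norm_num) hH L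
      (hLker H hker) (fun l hl hl3 A hA s hs => hker s (hin l hl hl3 A hA s hs))
    have hd : d = 5 := by
      push_cast at h5
      omega
    have hδ5 : δ ^ 2 = 5 := by rw [hδ, hd]; norm_num
    have hcH : c ∈ H := (hiff c).mpr (conj_sqrt_five hζ hδ5)
    obtain ⟨e, he, hev⟩ := eig_descend (two_ne_zero_zmod 5 hp2) (modE E 5) (H : Set GQ) hcH
      (by rw [← map_mul, hc, map_one]) hdet v hv (fun h hh => hcon h hh)
    have hcomm := five_case (modE E 5) hH he (fun h hh => hev h hh)
      (fun hall => by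
        obtain ⟨s, hs⟩ := modE_irr E 5 hirr he
        obtain ⟨t, ht⟩ := hall s
        exact hs t ht)
      (fun K' hK' hK'ker => eq_of_pstar Nat.prime_five (by norm_num) hK' hH L (hLker K' hK'ker)
        (hLker H hker) (fun l hl hl3 A hA s hs => hK'ker s (hin l hl hl3 A hA s hs))
        (fun l hl hl3 A hA s hs => hker s (hin l hl hl3 A hA s hs)))
    obtain ⟨e', he0, he'⟩ := exists_eig_of_comm (two_ne_zero_zmod 5 hp2) (modE E 5)
      (c := c) (by rw [← map_mul, hc, map_one]) hdet (fun g => hcomm g c)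
    obtain ⟨s, hs⟩ := modE_irr E 5 hirr he0
    obtain ⟨t, ht⟩ := he' s
    exact hs t ht

end Main

section RD

variable (E : WeierstrassCurve ℚ) [E.IsElliptic] (p : ℕ) [hp : Fact p.Prime]
  {W : WeierstrassCurve ℤ} (hWE : W.IsIntegralModelOf E)

include hWE in
/-- **The residual representation** of a semistable curve satisfies the hypotheses of the
Taylor–Wiles method at `3` and `5`. -/
theorem rd_of' (hss : W.IsSemistableModel) (hcase : p = 3 ∨ p = 5)
    (hirr : Affine.Point.GaloisRepIsIrreducible (K := Qb) ℚ E p)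
    {k : Type} [Field k] (hchar : (p : k) = 0) (i : GaloisField p 2 →+* k) (f : ℤ_[p] →+* k) :
    TWP.RD p (mapRep f (matE E p)) := by
  have hp2 : p ≠ 2 := by rcases hcase with rfl | rfl <;> norm_num
  have hns := nonScalar_of_irreducible E p hirr
  have hcharP : CharP k p := (CharP.charP_iff_prime_eq_zero hp.out).mpr hchar
  refine ⟨hchar, ?_, ?_, ?_, ?_⟩
  · obtain ⟨L, hL, h⟩ := modE_cont E p
    refine ⟨L, hL, fun σ hσ => ?_⟩
    rw [mapRep_matE, h σ hσ, map_one]
  · intro σ a ha
    rw [mapRep_matE, ← RingHom.map_det, det_modE E p hWE hns σ a ha, map_natCast]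
  · intro σ
    have h1 : (mapRep f (matE E p) σ).charpoly =
        (modE E p σ).charpoly.map (ZMod.castHom (dvd_refl p) k) := by
      rw [mapRep_matE, RingHom.mapMatrix_apply, Matrix.charpoly_map]
    rw [h1]
    exact exists_split p i _ _ (Matrix.charpoly_monic _)
      (by rw [Matrix.charpoly_natDegree_eq_dim, Fintype.card_fin])
  · intro H hH v hv
    by_contra hcon
    push Not at hcon
    let _ : Algebra (ZMod p) (AlgebraicClosure k) :=
      ((algebraMap k (AlgebraicClosure k)).comp (ZMod.castHom (dvd_refl p) k)).toAlgebra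
    have h1 : ∀ s, (modE E p s).map (algebraMap (ZMod p) (AlgebraicClosure k)) =
        (mapRep f (matE E p) s).map (algebraMap k (AlgebraicClosure k)) := by
      intro s
      rw [mapRep_matE]
      rfl
    have h3 : ∀ s ∈ H, ∃ t : AlgebraicClosure k,
        (modE E p s).map (algebraMap (ZMod p) (AlgebraicClosure k)) *ᵥ v = t • v := by
      intro s hs
      obtain ⟨c, hc⟩ := hcon s hs
      exact ⟨c, by rw [h1, hc]⟩
    rcases hH with hH | hH
    · exact modE_irr_two' E p hWE hss hcase hirr hH hv h3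
    · exact modE_absirr E p hWE hp2 hirr hv (fun s => h3 s (by rw [hH]; trivial))

end RD

section Coeff

open IsLocalRing

variable (E : WeierstrassCurve ℚ) [E.IsElliptic] (p : ℕ) [hp : Fact p.Prime]
  {W : WeierstrassCurve ℤ}

theorem rd_rbE' (hWE : W.IsIntegralModelOf E) {O : Type} [CommRing O] [IsLocalRing O]
    (hpO : (p : O) ∈ maximalIdeal O) (f : ℤ_[p] →+* O)
    (hss : W.IsSemistableModel) (hcase : p = 3 ∨ p = 5)
    (hirr : Affine.Point.GaloisRepIsIrreducible (K := Qb) ℚ E p)
    (i : GaloisField p 2 →+* ResidueField O) : TWP.RD p (rbE E p f) :=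
  rd_of' E p hWE hss hcase hirr (by
    rw [← map_natCast (residue O), residue_eq_zero_iff]
    exact hpO) i ((residue O).comp f)

theorem rd_EW' {W : WeierstrassCurve ℤ} {p : ℕ} [hp : Fact p.Prime] [(EW W).IsElliptic]
    (hss : W.IsSemistableModel) (hcase : p = 3 ∨ p = 5) (hirr : W.ModRepIsIrreducible p)
    {O : Type} [CommRing O] [IsLocalRing O] (hpO : (p : O) ∈ maximalIdeal O) (f : ℤ_[p] →+* O)
    (i : GaloisField p 2 →+* ResidueField O) : TWP.RD p (rbE (EW W) p f) :=
  rd_rbE' (EW W) p (isIntegralModelOf_EW W) hpO f hss hcase hirr i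

end Coeff

end Fermat.Agent.RTX
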