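import Fermat.Agent.RTX.GalX
import Fermat.Agent.RTX.AuxW
import Fermat.Agent.RTX.Irr

/-!
The Galois side of the patching argument for all semistable curves, `p = 3` or `p = 5`, and the
auxiliary primes for `p = 3`.
-/

set_option autoImplicit false

noncomputable section

namespace Fermat.Agent.RTX

open WeierstrassCurve IsLocalRing Fermat.Agent.DefRing Fermat.Agent.RTan
open Fermat.Agent.RTM (Gal GalP Wp p_mem resEquiv)
open Fermat.Agent.RTE (EW rbE chiO)

/-- **Existence of the Galois data** for all semistable curves. -/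
theorem exists_gal' {O : Type} [CommRing O] [IsDomain O] [IsDiscreteValuationRing O]
    [IsAdicComplete (maximalIdeal O) O] [Finite (ResidueField O)] [CharZero O]
    {p : ℕ} [hp : Fact p.Prime] {W : WeierstrassCurve ℤ} (hcase : p = 3 ∨ p = 5)
    (hpO : (p : O) ∈ maximalIdeal O)
    (hss : W.IsSemistableModel) (hirr : W.ModRepIsIrreducible p)
    [(EW W).IsElliptic] (f : ℤ_[p] →+* O) (hf : Function.Injective f)
    (i : GaloisField p 2 →+* ResidueField O) (m : ℕ) (hm : m ≠ 0) (hpm : p ∣ m)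
    (hΔm : ∀ q : ℕ, q.Prime → (q : ℤ) ∣ W.Δ → q ∣ m) :
    ∃ (sd : SliceData (rbE (EW W) p f)) (G : Gal sd p W (chiO p f) m),
      (¬ (p : ℤ) ∣ W.Δ → FlatM p O G.pt.r) ∧ ((p : ℤ) ∣ W.Δ → Nonempty (GalP G)) :=
  exists_gal_rd (by rcases hcase with h | h <;> omega) hpO hss hirr f hf
    (rd_EW' hss hcase hirr hpO f i) m hm hpm hΔm

/-- **Auxiliary primes** for `p = 3`: primes `r ≡ 2 mod 3` of good reduction with `3 ∤ a_r`. -/
theorem exists_aux' {W : WeierstrassCurve ℤ} (hΔ : W.Δ ≠ 0) (hss : W.IsSemistableModel)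
    (hirr : W.ModRepIsIrreducible 3) (S : Finset ℕ) : ∃ r : ℕ, r.Prime ∧ r ∉ S ∧ r % 3 = 2 ∧
      W.IsGoodPrimeFor r ∧ ¬ (3 : ℤ) ∣ W.apOfModel r := by
  have h3 : Fact (Nat.Prime 3) := ⟨Nat.prime_three⟩
  have hE : (EW W).IsElliptic := RTE.isElliptic_EW hΔ
  exact exists_aux_ap hΔ hirr (algebraMap ℤ_[3] (Wp 3))
    (rd_EW' hss (Or.inl rfl) hirr (p_mem 3) _ ((resEquiv 3).symm : _ →+* _)) S

end Fermat.Agent.RTX
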