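import Fermat.Agent.RTM.Main
import Fermat.Agent.RT8X.LocX
import Fermat.Agent.RTE.Model
import Fermat.Agent.LocEll.Final

/-!
# Removing an auxiliary prime from the level, in characteristic zero
-/

set_option autoImplicit false

noncomputable section

namespace Fermat.Agent.RTX

open WeierstrassCurve CuspForm CongruenceSubgroup HeckeHom ModularCurve.Period IsLocalRing
open Fermat.Agent.LocEll (VE)
open Fermat.Agent.TW (SS)
open Fermat.Agent.RTE (EW matE)
open Fermat.Agent.HGModule (eigenChar eigenChar_T)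

theorem smul_inj {K V : Type*} [Field K] [AddCommGroup V] [Module K V] {v : V} (hv : v ≠ 0)
    {x y : K} (h : x • v = y • v) : x = y := by
  rw [← sub_eq_zero, ← sub_smul] at h
  exact sub_eq_zero.mp ((smul_eq_zero.mp h).resolve_right hv)

/-- A common eigenvector of a commutative ring of endomorphisms defines a character. -/
theorem exists_char_of_end {A : Type*} [CommRing A] {K V : Type*} [Field K] [AddCommGroup V]
    [Module K V] (Q : A →+* Module.End K V) {v : V} (hv : v ≠ 0)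
    (h : ∀ t : A, ∃ y : K, Q t v = y • v) : ∃ ψ : A →+* K, ∀ t, Q t v = ψ t • v := by
  choose f hf using h
  have huniq : ∀ y y' : K, y • v = y' • v → y = y' := by
    intro y y' h
    rw [← sub_eq_zero, ← sub_smul] at h
    exact sub_eq_zero.mp ((smul_eq_zero.mp h).resolve_right hv)
  refine ⟨{ toFun := f
            map_one' := huniq _ _ ?_
            map_mul' := fun s t => huniq _ _ ?_
            map_zero' := huniq _ _ ?_
            map_add' := fun s t => huniq _ _ ?_ }, hf⟩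
  · rw [← hf, map_one, Module.End.one_apply, one_smul]
  · rw [← hf, map_mul, Module.End.mul_apply, hf, map_smul, hf, smul_smul, mul_comm]
  · rw [← hf, map_zero, LinearMap.zero_apply, zero_smul]
  · rw [← hf, map_add, LinearMap.add_apply, hf, hf, add_smul]

/-- Eigenvectors in parabolic cohomology define characters of the Hecke algebra. -/
theorem char_of_VE {E : Type} [Field E] [CharZero E] {n m : ℕ} [NeZero n]
    (hnm : ∀ q : ℕ, q.Prime → q ∣ n → q ∣ m) (a : ℕ → E)
    {φ : parabolicHoms E (Gamma0 n) E} (hφ0 : φ ≠ 0) (hφ : φ ∈ VE E n m a) :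
    ∃ θ : heckeAlgebra n 2 (SS m) →+* E, ∀ (l : ℕ) (hl : l.Prime) (hln : ¬ l ∣ n)
      (hlm : l ∉ SS m), θ (heckeAlgebra.T hl hln hlm) = a l := by
  have hES : ES n := S21.result n
  have hS : ∀ q : ℕ, q.Prime → q ∣ n → q ∈ SS m := hnm
  have hex : ∀ t : heckeAlgebra n 2 (SS m), ∃ y : E, theta hES hS E t φ = y • φ := by
    intro t
    obtain ⟨x, rfl⟩ := HeckeHom.toHecke_surjective hS t
    induction x using FreeAlgebra.induction with
    | grade0 n =>
      refine ⟨(n : E), ?_⟩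
      rw [AlgHom.commutes, eq_intCast, map_intCast]
      rw [← Int.smul_one_eq_cast, LinearMap.smul_apply, Module.End.one_apply]
      exact (Int.cast_smul_eq_zsmul E n φ).symm
    | grade1 j =>
      rw [HeckeHom.toHecke_ι hS j.2.1 j.2.2.1 j.2.2.2, theta_T]
      exact ⟨_, hφ _ j.2.1 j.2.2.1 j.2.2.2⟩
    | mul x y hx hy =>
      obtain ⟨a, ha⟩ := hx
      obtain ⟨b, hb⟩ := hy
      exact ⟨b * a, by
        rw [map_mul, map_mul, Module.End.mul_apply, hb, map_smul, ha, smul_smul]⟩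
    | add x y hx hy =>
      obtain ⟨a, ha⟩ := hx
      obtain ⟨b, hb⟩ := hy
      exact ⟨a + b, by rw [map_add, map_add, LinearMap.add_apply, ha, hb, add_smul]⟩
  obtain ⟨θ, hθ⟩ := exists_char_of_end (theta hES hS E) hφ0 hex
  refine ⟨θ, fun l hl hln hlm => ?_⟩
  have h1 := hθ (heckeAlgebra.T hl hln hlm)
  rw [theta_T] at h1
  exact smul_inj hφ0 (h1.symm.trans (hφ l hl hln hlm))

/-- **Removal of an auxiliary prime**: if `W` has good reduction at `s` and
`a_s ^ 2 ≠ (s + 1) ^ 2` (always true), the prime `s` can be removed from the level. -/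
theorem removal {W : WeierstrassCurve ℤ} (hΔ : W.Δ ≠ 0) {p : ℕ} [hp : Fact p.Prime]
    (hirr : W.ModRepIsIrreducible p) {N s : ℕ} (hN : N ≠ 0) (hs : s.Prime) (hsN : ¬ s ∣ N)
    (hsp : s ≠ p) (hgood : W.IsGoodPrimeFor s)
    (hne : W.apOfModel s ^ 2 ≠ ((s : ℤ) + 1) ^ 2) (h : W.IsModularModelOfLevel (N * s)) :
    W.IsModularModelOfLevel N := by
  have hN' : NeZero N := ⟨hN⟩
  have hNs : NeZero (N * s) := ⟨mul_ne_zero hN hs.ne_zero⟩
  have hell := RTE.isElliptic_EW hΔ
  have hWE := RTE.isIntegralModelOf_EW W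
  have hns := RTE.nonScalar_EW p hirr
  have hΔ' : W.Δ.natAbs ≠ 0 := Int.natAbs_ne_zero.mpr hΔ
  set m : ℕ := N * s * p * W.Δ.natAbs with hm_def
  have hm : m ≠ 0 := mul_ne_zero (mul_ne_zero (mul_ne_zero hN hs.ne_zero) hp.out.ne_zero) hΔ'
  have hNsm : ∀ q : ℕ, q.Prime → q ∣ N * s → q ∣ m := fun q _ h =>
    (h.mul_right p).mul_right _
  have hNsm' : ∀ q : ℕ, q.Prime → q ∣ N * s → q ∈ SS m := hNsm
  have hNm : ∀ q : ℕ, q.Prime → q ∣ N → q ∣ m := fun q hq h => hNsm q hq (h.mul_right s)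
  have hpm : ∀ l : ℕ, ¬ l ∣ m → l ≠ p := by
    rintro l hl rfl
    exact hl ((Dvd.intro_left (N * s) rfl).mul_right _)
  have hgm : ∀ l : ℕ, ¬ l ∣ m → W.IsGoodPrimeFor l := fun l hl h =>
    hl ((Int.natCast_dvd.mp h).mul_left _)
  have hSf : (SS m).Finite := by
    refine (Finset.finite_toSet m.divisors).subset fun q hq => ?_
    exact Finset.mem_coe.mpr (Nat.mem_divisors.mpr ⟨hq, hm⟩)
  -- the character at level `N s`
  obtain ⟨f, hf, hfa⟩ := h
  obtain ⟨ψ, hψ⟩ := RTM.exists_int_char (S := SS m) hNsm' (Int.castRingHom ℂ) (by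
    intro x y hxy
    exact Int.cast_injective hxy) (eigenChar hf hNsm') (fun l => W.apOfModel l) (by
    intro l hl hln hlm
    rw [eigenChar_T hf hNsm' hl hln hlm, hfa l hl (hgm l hlm) hln]
    rfl)
  let E := AlgebraicClosure ℚ_[p]
  let a : ℕ → E := fun l => ((W.apOfModel l : ℤ) : E)
  obtain ⟨φ, hφ0, hφ⟩ := RT8X.exists_VE hNsm a ((Int.castRingHom E).comp ψ) (by
    intro l hl hln hlm
    rw [RingHom.comp_apply, hψ]
    rfl)
  have hfin : Module.Finite E (parabolicHoms E (Gamma0 (N * s)) E) := inferInstance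
  have hpos : 0 < Module.finrank E (VE E (N * s) m a) := by
    have : Nontrivial (VE E (N * s) m a) :=
      ⟨⟨φ, hφ⟩, 0, fun h0 => hφ0 (congrArg Subtype.val h0)⟩
    exact Module.finrank_pos (R := E) (M := VE E (N * s) m a)
  -- the eigenspace at level `N`
  obtain ⟨φ', hφ', hφ'0⟩ : ∃ φ' ∈ VE E N m a, φ' ≠ 0 := by
    by_contra hcon
    push Not at hcon
    have hbot : VE E N m a = ⊥ := (Submodule.eq_bot_iff _).mpr hcon
    obtain ⟨A, hA⟩ : ∃ A : ValuationSubring (AlgebraicClosure ℚ), A.LiesOverPrime s :=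
      Frob.exists_liesOverPrime _ hs
    obtain ⟨σ, hσ⟩ := Frob.exists_isFrobeniusAt hs hA
    have hfr : ∀ {l : ℕ}, l.Prime → l ≠ p → W.IsGoodPrimeFor l →
        ∀ {B : ValuationSubring (AlgebraicClosure ℚ)}, B.LiesOverPrime l →
        ∀ {τ : DefRing.GQ}, B.IsFrobeniusAt τ l →
          (matE (EW W) p τ).trace = ((W.apOfModel l : ℤ) : ℤ_[p]) := by
      intro l hl hlp hlg B hB τ hτ
      rw [RTE.trace_matE, ERep.trE_frob (EW W) p hWE hns hl hB hlp hlg hτ]
    have h1 := LocEll.loc_new (O := ℤ_[p]) (E := E) (ERep.p_mem p) (algebraMap ℤ_[p] E)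
      (by
        rw [IsScalarTower.algebraMap_eq ℤ_[p] ℚ_[p] E]
        exact (algebraMap ℚ_[p] E).injective.comp (IsFractionRing.injective ℤ_[p] ℚ_[p]))
      hs hsp hsN hm (Dvd.intro _ rfl) a (by
        rw [hbot, finrank_bot, mul_zero]
        exact hpos)
      (matE (EW W) p) (RTE.matE_cont (EW W) p) (fun l hl hlm B hB τ hτ => by
        rw [hfr hl (hpm l hlm) (hgm l hlm) hB hτ, map_intCast]) hA hσ
    rw [hfr hs hsp hgood hA hσ] at h1
    apply hne
    exact_mod_cast h1
  obtain ⟨θ, hθ⟩ := char_of_VE hNm a hφ'0 hφ'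
  exact RTM.isModularModelOfLevel_of_char W hΔ hNm hSf θ hθ

end Fermat.Agent.RTX
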