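import Fermat.Agent.RTX.SupplyX
import Fermat.Agent.RTX.GalY
import Fermat.Agent.RTX.Rem

/-!
# Existence and removal of the auxiliary number
-/

set_option autoImplicit false

noncomputable section

namespace Fermat.Agent.RTX

open WeierstrassCurve

/-- existence of the auxiliary number -/
theorem exists_auxS {W : WeierstrassCurve ℤ} {p : ℕ} (hcase : p = 3 ∨ p = 5) (hΔ : W.Δ ≠ 0)
    (hss : W.IsSemistableModel) (hirr : W.ModRepIsIrreducible p) {m : ℕ} (hm : m ≠ 0) :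
    ∃ s : ℕ, AuxS W p s ∧ (s = 1 ∨ (s.Prime ∧ ¬ s ∣ m)) := by
  rcases hcase with rfl | rfl
  · obtain ⟨r, hr, hrS, hr3, hg, ha⟩ := exists_aux' hΔ hss hirr m.primeFactors
    refine ⟨r, Or.inr ⟨hr, hr3, by omega, hg, fun h => ha ?_⟩, Or.inr ⟨hr, fun h => hrS ?_⟩⟩
    · have h1 : (3 : ℤ) ∣ ((r : ℤ) + 1) ^ 2 := by
        have h2 : (3 : ℤ) ∣ (r : ℤ) + 1 := by omega
        exact h2.trans (dvd_pow_self _ two_ne_zero)
      have h2 : (3 : ℤ) ∣ W.apOfModel r ^ 2 := by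
        have h3 := dvd_add h h1
        rwa [sub_add_cancel] at h3
      exact Int.prime_three.dvd_of_dvd_pow h2
    · exact Nat.mem_primeFactors.mpr ⟨hr, h, hm⟩
  · exact ⟨1, auxS_one W le_rfl, Or.inl rfl⟩

/-- removal of the auxiliary number -/
theorem AuxS.removal {W : WeierstrassCurve ℤ} {p s : ℕ} (h : AuxS W p s) [Fact p.Prime]
    (hΔ : W.Δ ≠ 0) (hirr : W.ModRepIsIrreducible p) {N : ℕ} (hN : N ≠ 0)
    (hsN : s.Prime → ¬ s ∣ N) (hmod : W.IsModularModelOfLevel (s * N)) :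
    W.IsModularModelOfLevel N := by
  rcases h with h | ⟨hs, -, hsp, hg, ha⟩
  · rwa [h.1, one_mul] at hmod
  · rw [mul_comm] at hmod
    refine RTX.removal hΔ hirr hN hs (hsN hs) hsp hg (fun h => ha ?_) hmod
    rw [h, sub_self]
    exact dvd_zero _

/-- removal of the auxiliary number, for levels whose prime factors are bad -/
theorem AuxS.removal' {W : WeierstrassCurve ℤ} {p s : ℕ} (h : AuxS W p s) [Fact p.Prime]
    (hΔ : W.Δ ≠ 0) (hirr : W.ModRepIsIrreducible p) {N : ℕ} (hN : N ≠ 0)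
    (hbad : ∀ q : ℕ, q.Prime → q ∣ N → (q : ℤ) ∣ W.Δ) (hmod : W.IsModularModelOfLevel (s * N)) :
    W.IsModularModelOfLevel N :=
  h.removal hΔ hirr hN (fun hs h' => by
    rcases h with h | h
    · exact hs.ne_one h.1
    · exact h.2.2.2.1 (hbad s hs h')) hmod

end Fermat.Agent.RTX
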