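import Fermat.Agent.BadRed.ZnPush

/-!
# Push-forward of classes with divisible reductions: any auxiliary prime
-/

set_option autoImplicit false
set_option linter.unusedSectionVars false

noncomputable section

open AlgebraicCurve Module IntermediateField ModularCurve HahnSeries

namespace Fermat.Agent.RTX

open Fermat.Agent.FunField Fermat.Agent.FunField.PlaceLemmas Fermat.Agent.Igusa
  Fermat.Agent.Deuring Fermat.Agent.AtkinLehner Fermat.Agent.HeckeRed Fermat.Agent.Degen
  Fermat.Agent.BadRed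

section Num

open NodeCount

variable {N r c : ℕ}

/-- no contribution of elliptic points at level `N c` -/
theorem noEll_mul_aux (hcN : ¬ c ∣ N) (hc : c.Prime) (h4 : c % 4 = 3)
    (h3 : nuThree N = 0 ∨ nuThree c = 0) : NoEll (N * c) r := by
  have hco : N.Coprime c := ((Nat.Prime.coprime_iff_not_dvd hc).mpr hcN).symm
  have h5 : nuTwo (N * c) = 0 := by
    rw [nuTwo_mul hco, nuTwo_prime_three hc h4, mul_zero]
  have h6 : nuThree (N * c) = 0 := by
    rw [nuThree_mul hco]
    rcases h3 with h | h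
    · rw [h, zero_mul]
    · rw [h, mul_zero]
  have h0 : N * c ≠ 0 := by
    refine mul_ne_zero (fun h => hcN ?_) hc.ne_zero
    rw [h]
    exact dvd_zero c
  refine ⟨?_, ?_⟩
  · rw [h5, nuTwo_eq_zero_of_dvd (Dvd.intro r rfl) h5 h0]
  · rw [h6, nuThree_eq_zero_of_dvd (Dvd.intro r rfl) h6 h0]

/-- the number of the elements of order three modulo a prime `2 mod 3` -/
theorem nuThree_prime_two (hc : c.Prime) (h : c % 3 = 2) : nuThree c = 0 := by
  have := Fact.mk hc
  rw [nuThree, Nat.card_eq_zero]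
  left
  rw [isEmpty_subtype]
  intro x hx
  have hx3 : x ^ 3 = 1 := by linear_combination (x - 1) * hx
  have hx0 : x ≠ 0 := by
    rintro rfl
    simp at hx
  have hc1 : x ^ (c - 1) = 1 := ZMod.pow_card_sub_one_eq_one hx0
  have hg : Nat.gcd 3 (c - 1) = 1 := by
    refine (Nat.Prime.coprime_iff_not_dvd Nat.prime_three).mpr fun h3 => ?_
    have := hc.two_le
    omega
  have hx1 : x = 1 := by
    have h1 : orderOf x ∣ 3 := orderOf_dvd_of_pow_eq_one hx3
    have h2 : orderOf x ∣ c - 1 := orderOf_dvd_of_pow_eq_one hc1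
    have h3 : orderOf x ∣ 1 := hg ▸ Nat.dvd_gcd h1 h2
    exact orderOf_eq_one_iff.mp (Nat.dvd_one.mp h3)
  rw [hx1] at hx
  have h3 : ((3 : ℕ) : ZMod c) = 0 := by
    push_cast
    linear_combination hx
  rw [ZMod.natCast_eq_zero_iff] at h3
  have := (Nat.prime_dvd_prime_iff_eq hc Nat.prime_three).mp h3
  omega

end Num

section OverQb

local notation "Qb" => AlgebraicClosure ℚ

variable {A : ValuationSubring Qb}
  {κ : Type*} [Field κ] [IsAlgClosed κ] (π : A →+* κ) [IsLocalHom π]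
  (hπ : Function.Surjective π) (harch : ArchA π)
  (N r : ℕ) [hr : Fact r.Prime] [hN : NeZero N] [CharP κ r] (hrN : ¬ r ∣ N)
  (hA : A.LiesOverPrime r)
  {l : ℕ} [hl : Fact l.Prime] (hlr : l ≠ r) (hlN : ¬ l ∣ N)
  (α β : modularFunctionFieldFullC Qb (N * r) →ₐ[Qb] modularFunctionFieldFullC Qb (N * r * l))
  (hα : ∀ x, (α x : LaurentSeries Qb) = x)
  (hβ : ∀ x, (β x : LaurentSeries Qb) = qExpand Qb l (x : LaurentSeries Qb))

theorem nsmul_mem_of_coprime {V : Type*} [AddCommGroup V] {Z : AddSubgroup V} {n k : ℕ}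
    (hn : Nat.Coprime n k) {z : V} (hz : n • z = 0) (h2 : k • z ∈ Z) : z ∈ Z := by
  obtain ⟨a, b, hab⟩ := Nat.isCoprime_iff_coprime.mpr hn
  have h3 : z = b • (k • z) := by
    have h4 : (a * (n : ℤ) + b * (k : ℤ)) • z = z := by rw [hab, one_smul]
    rw [add_smul, mul_smul, mul_smul, natCast_zsmul, natCast_zsmul, hz, smul_zero, zero_add] at h4
    exact h4.symm
  rw [h3]
  exact zsmul_mem h2 b

include hA hlr hlN hα hβ in
/-- **`(T_l - (l+1)) y` has divisible reductions** for `y` fixed by inertia: any level, `n`-torsion,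
from an auxiliary prime `c`. -/
theorem hecke_sub_mem_ZnX (ι : Qb →+* ℂ) {c : ℕ} (hc : c.Prime) (hcN : ¬ c ∣ N) (hcr : c ≠ r)
    (hcl : c ≠ l) (hE : NodeCount.NoEll (N * c) r)
    (hg : genusFF κ (modularFunctionFieldFullC κ (N * c)) =
      genusFF Qb (modularFunctionFieldFullC Qb (N * c)))
    (d : CP.DecAut A π) (hd : CP.IsFrob d r) {n : ℕ} (hn : Nat.Coprime n (c + 1))
    {y : Pic0 Qb (modularFunctionFieldFullC Qb (N * r))} (hy : n • y = 0)
    (hI : ∀ g ∈ IΓ A (N * r), g • y = y) :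
    haveI : NeZero (N * r) := ⟨mul_ne_zero (NeZero.ne N) hr.out.ne_zero⟩
    haveI : NeZero (N * r * l) := ⟨mul_ne_zero (mul_ne_zero hN.out hr.out.ne_zero) hl.out.ne_zero⟩
    pushPic α (pullPic β y) - (l + 1) • y ∈ (twoVal A π hπ harch N r hrN).Zn n := by
  have i0 : NeZero (N * c) := ⟨mul_ne_zero hN.out hc.ne_zero⟩
  have i1 : NeZero (N * r) := ⟨mul_ne_zero (NeZero.ne N) hr.out.ne_zero⟩
  have i2 : NeZero (N * r * l) :=
    ⟨mul_ne_zero (mul_ne_zero hN.out hr.out.ne_zero) hl.out.ne_zero⟩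
  have i3 : NeZero (N * c * r) := ⟨mul_ne_zero (NeZero.ne (N * c)) hr.out.ne_zero⟩
  have i4 : NeZero (N * c * r * l) := ⟨mul_ne_zero (NeZero.ne (N * c * r)) hl.out.ne_zero⟩
  have i5 : Fact c.Prime := ⟨hc⟩
  have hrN' : ¬ r ∣ N * c := by
    rw [hr.out.dvd_mul]
    rintro (h | h)
    · exact hrN h
    · exact hcr ((Nat.prime_dvd_prime_iff_eq hr.out hc).mp h).symm
  have hlN' : ¬ l ∣ N * c := by
    rw [hl.out.dvd_mul]
    rintro (h | h)
    · exact hlN h
    · exact hcl ((Nat.prime_dvd_prime_iff_eq hl.out hc).mp h).symm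
  have hcNr : ¬ c ∣ N * r := by
    rw [hc.dvd_mul]
    rintro (h | h)
    · exact hcN h
    · exact hcr ((Nat.prime_dvd_prime_iff_eq hc hr.out).mp h)
  have hn0 : n ≠ 0 := by
    rintro rfl
    have := hc.pos
    rw [Nat.coprime_zero_left] at hn
    omega
  let δ : modularFunctionFieldFullC Qb (N * r) →ₐ[Qb] modularFunctionFieldFullC Qb (N * c * r) :=
    IntermediateField.inclusion (full_degeneracyC_le Qb (by
      rw [mul_right_comm]; exact Dvd.intro c rfl))
  let δ₁ : modularFunctionFieldFullC κ N →ₐ[κ] modularFunctionFieldFullC κ (N * c) :=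
    IntermediateField.inclusion (full_degeneracyC_le κ (Dvd.intro c rfl))
  have hδ : ∀ x, (δ x : LaurentSeries Qb) = x := fun x => rfl
  have hδ₁ : ∀ x, (δ₁ x : LaurentSeries κ) = x := fun x => rfl
  -- the class at level `N c r`
  have hy' : n • pullPic δ y = 0 := by rw [← map_nsmul, hy, map_zero]
  have hI' : ∀ g ∈ IΓ A (N * c * r), g • pullPic δ y = pullPic δ y := by
    rintro g ⟨σ, hσ, hg⟩
    obtain ⟨g₀, hg₀⟩ := exists_coefAut Qb (N * r) σ
    have h1 : SemilinearAut.IntertwinesAlong δ.toRingHom g₀ g := by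
      intro x
      apply Subtype.ext
      exact (hg _).trans (hg₀ x).symm
    rw [← pullPic_smul δ h1, hI g₀ ⟨σ, hσ, hg₀⟩]
  have key := hecke_sub_mem_Zn π hπ harch (N * c) r hrN' hA hg d hd hlr hlN'
    (alpha1 Qb (N * c * r) l) (beta1 Qb (N * c * r) l) (coe_alpha1 Qb (N * c * r) l)
    (coe_beta1 Qb (N * c * r) l) ι hE hn0 hy' hI'
  have hlNr : ¬ l ∣ N * c * r := by
    rw [hl.out.dvd_mul]
    rintro (h | h)
    · exact hlN' h
    · exact hlr ((Nat.prime_dvd_prime_iff_eq hl.out hr.out).mp h)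
  have hT := pullPic_hecke (K := Qb) (N := N * r) (M := N * c * r) (ℓ := l) (d := 1)
    (Nat.cast_ne_zero.mpr (NeZero.ne _)) (Nat.cast_ne_zero.mpr hl.out.ne_zero) hlNr
    (by rw [mul_one, mul_right_comm]; exact Dvd.intro c rfl) rfl rfl rfl rfl δ
    (fun x => by rw [hδ, qExpand_one_apply]) α β hα hβ (alpha1 Qb (N * c * r) l)
    (beta1 Qb (N * c * r) l) (coe_alpha1 Qb (N * c * r) l) (coe_beta1 Qb (N * c * r) l) y
  rw [← hT, ← map_nsmul, ← map_sub] at key
  have h2 := pushPic_mem_Zn' A π hπ harch N r hrN (c := c) hcr hrN' δ δ₁ hδ hδ₁ key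
  rw [pushPic_pullPic] at h2
  have hdeg : finrankAlong Qb δ = c + 1 := by
    have h3 := finrankAlong_alpha (K := Qb) (N := N * r) (p := c) rfl
      (by congr 1; ring : modularFunctionFieldFullC Qb (N * c * r) =
        modularFunctionFieldFullC Qb (N * r * c)) δ hδ
      (Nat.cast_ne_zero.mpr (mul_ne_zero (NeZero.ne (N * r)) hc.ne_zero))
    rw [ModDeg.psi_mul_prime_of_not_dvd hc hcNr] at h3
    exact Nat.eq_of_mul_eq_mul_right (dedekindPsi_pos (N * r)) h3
  rw [hdeg] at h2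
  refine nsmul_mem_of_coprime hn ?_ h2
  rw [nsmul_sub, ← map_nsmul, ← map_nsmul, hy, map_zero, map_zero, smul_comm, hy, smul_zero,
    sub_zero]

end OverQb

end Fermat.Agent.RTX
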