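import Fermat.Agent.Ribet.LocJ
import Fermat.Agent.RTX.ZnX
import Fermat.Agent.RTX.ExLevX

/-!
# The local data of `J₀(N r)` at `r`, any level
-/

set_option autoImplicit false
set_option linter.unusedSectionVars false
set_option linter.style.haveILetI false

noncomputable section

open AlgebraicCurve Module ModularCurve HahnSeries

namespace Fermat.Agent.RTX

open Fermat.Agent.FunField Fermat.Agent.WeilPairing Fermat.Agent.MzGal Fermat.Agent.TW
  Fermat.Agent.BadRed Fermat.Agent.Degen Fermat.Agent.HeckeRed Fermat.Agent.PIC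
  Fermat.Agent.AtkinLehner Fermat.Agent.Igusa Fermat.Agent.NewPoint Fermat.Agent.Tate
  Fermat.Agent.Ribet

local notation "Qb" => AlgebraicClosure ℚ
local notation "Γ" => (AlgebraicClosure ℚ ≃ₐ[ℚ] AlgebraicClosure ℚ)

section Choice

theorem eleven_coprime {p : ℕ} (hp : p.Prime) (h11 : p ≠ 11) :
    Nat.Coprime 11 (12 * p) :=
  Nat.Coprime.mul_right (by decide)
    ((Nat.coprime_primes (by norm_num) hp).mpr (Ne.symm h11))

/-- **choice of the auxiliary prime** -/
theorem exists_aux_prime {p N : ℕ} (hp : p.Prime) (hp2 : p ≠ 2) (h3 : Aux p N) (B : ℕ) :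
    ∃ c : ℕ, c.Prime ∧ B < c ∧ c % 4 = 3 ∧ (nuThree N = 0 ∨ nuThree c = 0) ∧
      Nat.Coprime p (c + 1) := by
  by_cases h5 : 5 ≤ p
  · by_cases h11 : p = 11
    · subst h11
      obtain ⟨c, hB, hc, hmod⟩ := Nat.forall_exists_prime_gt_and_modEq B (q := 132) (a := 23)
        (by norm_num) (by decide)
      have h1 : c % 132 = 23 := hmod
      refine ⟨c, hc, hB, by omega, Or.inr (nuThree_prime_two hc (by omega)), ?_⟩
      rw [Nat.Prime.coprime_iff_not_dvd (by norm_num)]
      omega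
    · obtain ⟨c, hB, hc, hmod⟩ := Nat.forall_exists_prime_gt_and_modEq B (q := 12 * p) (a := 11)
        (by omega) (eleven_coprime hp h11)
      have h12 : c % 12 = 11 := hmod.of_mul_right p
      have hcp : (c + 1) ≡ 12 [MOD p] := (hmod.of_mul_left 12).add_right 1
      refine ⟨c, hc, hB, by omega, Or.inr (nuThree_prime_two hc (by omega)), ?_⟩
      rw [Nat.Prime.coprime_iff_not_dvd hp, hcp.dvd_iff dvd_rfl]
      intro h
      have h1 : p ∣ 2 ^ 2 * 3 := h
      rcases hp.dvd_mul.mp h1 with h | h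
      · have := Nat.le_of_dvd (by norm_num) (hp.dvd_of_dvd_pow h)
        omega
      · have := Nat.le_of_dvd (by norm_num) h
        omega
  · have h3' : p = 3 := by
      have h1 := hp.two_le
      have h2 : p ≠ 4 := by
        rintro rfl
        exact absurd hp (by norm_num)
      omega
    subst h3'
    obtain ⟨t, ht, htN, ht3⟩ := h3.resolve_left h5
    obtain ⟨c, hB, hc, hmod⟩ := Nat.forall_exists_prime_gt_and_modEq B (q := 12) (a := 7)
      (by norm_num) (by decide)
    have h1 : c % 12 = 7 := hmod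
    refine ⟨c, hc, hB, by omega, Or.inl (NodeCount.nuThree_eq_zero_of_dvd htN
      (nuThree_prime_two ht ht3) ht.ne_zero), ?_⟩
    rw [Nat.Prime.coprime_iff_not_dvd Nat.prime_three]
    omega

end Choice

section Inputs

variable {A : ValuationSubring Qb} {N r p : ℕ} [NeZero N] [NeZero (N * r)] [Fact r.Prime]
  (hA : A.LiesOverPrime r) (hrN : ¬ r ∣ N)
  [IsAlgClosed (IsLocalRing.ResidueField A)] [CharP (IsLocalRing.ResidueField A) r]
  [IsLocalHom (IsLocalRing.residue A)]

/-- inertia invariants specialise up to Eisenstein operators -/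
theorem eisInvX (hp : p.Prime) (hp2 : p ≠ 2) (h3 : Aux p N) :
    EisInv (TT A N r hA hrN) p (inertS A _) := by
  intro l hl hlM _ _ α' β' hα' hβ' y hy hI
  have i0 : Fact l.Prime := ⟨hl⟩
  have hr : r.Prime := Fact.out
  have hlr : l ≠ r := fun h => hlM (h ▸ dvd_mul_left _ _)
  have hlN : ¬ l ∣ N := fun h => hlM (h.mul_right r)
  obtain ⟨c, hc, hB, hc4, hc3, hcp⟩ := exists_aux_prime hp hp2 h3 (N + r + l)
  have hcN : ¬ c ∣ N := fun h => by
    have := Nat.le_of_dvd (Nat.pos_of_ne_zero (NeZero.ne N)) h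
    omega
  have hcr : c ≠ r := by omega
  have hcl : c ≠ l := by omega
  have i1 : NeZero (N * c) := ⟨mul_ne_zero (NeZero.ne N) hc.ne_zero⟩
  have hNc : ((N * c : ℕ) : IsLocalRing.ResidueField A) ≠ 0 := fun h => by
    rcases (hr.dvd_mul).mp ((CharP.cast_eq_zero_iff _ r _).mp h) with h | h
    · exact hrN h
    · exact hcr ((Nat.prime_dvd_prime_iff_eq hr hc).mp h).symm
  obtain ⟨σ₀, hσ₀⟩ := Fermat.Agent.Frob.exists_isFrobeniusAt hr hA
  let d : CP.DecAut A (IsLocalRing.residue A) :=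
    { σ := (σ₀ : Qb ≃+* Qb)
      τ := MulSemiringAction.toRingAut (A.decompositionSubgroup ℚ) (IsLocalRing.ResidueField A)
        ⟨σ₀, hσ₀.mem_decompositionSubgroup⟩
      mem_iff := fun a => (mem_iff_decomp hσ₀.mem_decompositionSubgroup a).symm
      res := residue_decomp hσ₀.mem_decompositionSubgroup }
  have hd : CP.IsFrob d r := fun a => hσ₀.smul_residue_eq a
  have := hecke_sub_mem_ZnX (IsLocalRing.residue A) IsLocalRing.residue_surjective
    (archA hr hA) N r hrN hA hlr hlN α' β' hα' hβ'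
    (IsAlgClosed.lift (R := ℚ) (S := AlgebraicClosure ℚ) (M := ℂ)).toRingHom
    hc hcN hcr hcl (noEll_mul_aux hcN hc hc4 hc3)
    (Cusps.genusFF_residue A (N * c) hNc) d hd hcp hy (fun g hg => by
      obtain ⟨σ, ⟨s, hs, rfl⟩, hg⟩ := hg
      exact hI g ⟨s, hs, hg⟩)
  exact this

end Inputs

/-- **The local data of `J₀(N r)`.** -/
theorem exists_locDatX {N r p m : ℕ} [NeZero N] [NeZero (N * r)] (hr : r.Prime) (hrN : ¬ r ∣ N)
    (hp : p.Prime) (hpr : p ≠ r) (hp2 : p ≠ 2) (h3 : Aux p N)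
    (hm : ∀ q : ℕ, q.Prime → q ∣ N * r → q ∣ m)
    {A : ValuationSubring Qb} (hA : A.LiesOverPrime r)
    [i1 : IsAlgClosed (IsLocalRing.ResidueField A)] [i2 : CharP (IsLocalRing.ResidueField A) r] :
    ∃ (NN Z : AddSubgroup (JZero (N * r))) (sp : Z →+
      Pic0 (IsLocalRing.ResidueField A) (modularFunctionFieldFullC (IsLocalRing.ResidueField A) N) ×
      Pic0 (IsLocalRing.ResidueField A) (modularFunctionFieldFullC (IsLocalRing.ResidueField A) N)),
      LocDat p m A NN Z sp (fun l => haveI : NeZero l.1 := ⟨l.2.1.ne_zero⟩; Tk A N l.1) := by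
  have i0 : Fact r.Prime := ⟨hr⟩
  have i3 : IsLocalHom (IsLocalRing.residue A) := inferInstance
  have i4 : Fact p.Prime := ⟨hp⟩
  have i5 : NeZero r := ⟨hr.ne_zero⟩
  obtain ⟨σ₀, hσ₀⟩ := Fermat.Agent.Frob.exists_isFrobeniusAt hr hA
  obtain ⟨w, h1, h2⟩ := exists_w_aux hr hrN (Igusa.modularFunctionFieldBar_eq (N * r))
    (Igusa.modularFunctionFieldBar_eq N) (heckeAlphaBar Qb N r) (heckeBetaBar Qb N r)
    (coe_heckeAlphaBar N r) (coe_heckeBetaBar N r)
  obtain ⟨D, hD, hW⟩ := exists_bound_frob N r hr hrN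
  obtain ⟨NN, Z, sp, H1, H2, H3, H4⟩ := exists_loc_aux hA hrN hpr hp.ne_zero
    (spEquiv hA hrN hp.ne_zero) (eisInvX hA hrN hp hp2 h3)
    (E := modularFunctionFieldBar (N * r)) (E₀ := modularFunctionFieldBar N)
    (modularFunctionFieldBar_eq _) (modularFunctionFieldBar_eq _)
    (heckeAlphaBar Qb N r) (heckeBetaBar Qb N r)
    (coe_heckeAlphaBar N r) (coe_heckeBetaBar N r) w h1 h2 hσ₀
    (arithmeticGalois (modularFunctionFieldFull (N * r)) σ₀) (isCoeff_galois (N * r) σ₀)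
    (arithmeticGalois (modularFunctionFieldFull N) σ₀) (isCoeff_galois N σ₀) hD
    (fun b y hy hσy => hW p hpr (frobJ_of_packages (hasPackages_of_genusEq (Cusps.genusEq N)))
      A hA σ₀ hσ₀ b y hy hσy)
  refine ⟨NN, Z, sp, H2, H3, fun l z => ?_, fun l y hy hσ => ?_⟩
  · have i6 : NeZero l.1 := ⟨l.2.1.ne_zero⟩
    have hl : ¬ l.1 ∣ N * r := fun h => l.2.2 (hm _ l.2.1 h)
    obtain ⟨h, h'⟩ := (H4 l.1 l.2.1 hl (modularFunctionFieldBar (N * r * l.1))
      (modularFunctionFieldBar_eq _) (heckeAlphaBar Qb (N * r) l.1) (heckeBetaBar Qb (N * r) l.1)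
      (coe_heckeAlphaBar _ _) (coe_heckeBetaBar _ _)).1 z
    have h5 : Tj l (z : JZero (N * r)) = pushPic (heckeAlphaBar Qb (N * r) l.1)
        (pullPic (heckeBetaBar Qb (N * r) l.1) (z : JZero (N * r))) :=
      heckeOperatorAlong_apply (N * r) l.1 _
    rw [h5]
    exact ⟨h, h'⟩
  · have i6 : NeZero l.1 := ⟨l.2.1.ne_zero⟩
    have hl : ¬ l.1 ∣ N * r := fun h => l.2.2 (hm _ l.2.1 h)
    have h := (H4 l.1 l.2.1 hl (modularFunctionFieldBar (N * r * l.1))
      (modularFunctionFieldBar_eq _) (heckeAlphaBar Qb (N * r) l.1) (heckeBetaBar Qb (N * r) l.1)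
      (coe_heckeAlphaBar _ _) (coe_heckeBetaBar _ _)).2 y hy (by
        rintro g ⟨σ, hσ', hg⟩
        rw [ZMZ.isCoeff_unique hg (isCoeff_galois _ σ)]
        exact hσ σ hσ')
    have h5 : Tj l y = pushPic (heckeAlphaBar Qb (N * r) l.1)
        (pullPic (heckeBetaBar Qb (N * r) l.1) y) :=
      heckeOperatorAlong_apply (N * r) l.1 _
    rw [h5]
    exact h

end Fermat.Agent.RTX
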