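import Fermat.Agent.Ribet.ExBMod
import Fermat.Agent.RTX.LocJX

/-!
# Exactness of `τ - 1` on the base modules of the patching systems, general levels
-/

set_option autoImplicit false
set_option linter.unusedSectionVars false
set_option linter.style.haveILetI false

noncomputable section

open AlgebraicCurve Module ModularCurve IsLocalRing

namespace Fermat.Agent.RTX

open Fermat.Agent.HeckeRed Fermat.Agent.MzGal Fermat.Agent.TW Fermat.Agent.RTM
  Fermat.Agent.Ribet Fermat.Agent.DefRing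

local notation "Qb" => AlgebraicClosure ℚ
local notation "Γ" => (AlgebraicClosure ℚ ≃ₐ[ℚ] AlgebraicClosure ℚ)

/-- **Exactness of `τ - 1` on the localised torsion.** -/
theorem exact_WX (W : WeierstrassCurve ℤ) (hΔ : W.Δ ≠ 0) {n N r p m : ℕ} [NeZero n]
    (hnr : n = N * r)
    (hr : r.Prime) (hrN : ¬ r ∣ N) [hp : Fact p.Prime] (hpr : p ≠ r) (hp2 : p ≠ 2)
    (h3 : Aux p N) (hm : m ≠ 0) (hn : n ∣ m) {O : Type} [CommRing O] [IsLocalRing O]
    [Finite (ResidueField O)] (hpO : (p : O) ∈ maximalIdeal O) (hE : NonEis n (PP W m O))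
    (hno : ¬ W.IsResiduallyModularOfLevel p N) {c : Qb} (hc : c ^ p = (r : Qb)) {τ : Γ}
    (hτ : τ ∈ (TWP.Pl ⟨r, hr⟩).inertiaSubgroupIn ℚ) (hτc : τ c ≠ c)
    (y : Loc (PP W m O) (KV m n p O hn)) (hy : Loc.map (PP W m O) (KV.galP τ) y = y) :
    ∃ z, Loc.map (PP W m O) (KV.galP τ) z - z = y := by
  have hm' : ∀ q : ℕ, q.Prime → q ∣ n → q ∣ m := fun q _ h => h.trans hn
  have h𝔪 := isMaximal_comap W (O := O) m hp.out hpO
  obtain ⟨e, k, he1, he2, he3⟩ := exists_idem_JT (n := n) p hm' hp.out.pos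
    ((PP W m O).comap (TWD.Shap.pz m O))
  have h0 : (p : ResidueField O) = 0 := by
    rw [← map_natCast (residue O), residue_eq_zero_iff]
    exact hpO
  have hchar : CharP (ResidueField O) p := (CharP.charP_iff_prime_eq_zero hp.out).mpr h0
  refine KV.exact_loc (n := n) (p := p) (hn := hn) hm' (e := e) τ (fun x hx hex hτx => ?_)
    (PP W m O) he3 he1 y hy
  subst hnr
  have hN0 : NeZero N := ⟨fun h => NeZero.ne (N * r) (by rw [h, zero_mul])⟩
  have hA : (TWP.Pl ⟨r, hr⟩).LiesOverPrime r := TWP.Pl_lies ⟨r, hr⟩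
  have i1 : IsAlgClosed (ResidueField (TWP.Pl ⟨r, hr⟩)) := isAlgClosed_residueField _
  have i2 : CharP (ResidueField (TWP.Pl ⟨r, hr⟩)) r := charP_residueField hr hA
  obtain ⟨NN, Z, sp, D⟩ := exists_locDatX (m := m) hr hrN hp.out hpr hp2 h3 hm' hA
  obtain ⟨l₀, -, hl₀⟩ := hE
  refine exact_J hm' D ((PP W m O).comap (TWD.Shap.pz m O)) (fun l => W.apOfModel l) (fun l => ?_)
    ⟨l₀, fun h => hl₀ ?_⟩ (fun c hc h => no_class W hΔ hr hrN hp.out hm hn hA hno c hc h) hr hA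
    hp.out.pos ((Nat.coprime_primes hp.out hr).mpr hpr) he1 he2 hτ
    (fun x hx hτx σ hσ => ?_) hx hex hτx
  · rw [Ideal.mem_comap, map_sub, MvPolynomial.map_X, MvPolynomial.map_C]
    exact X_sub_C_mem_PP W m O l
  · rw [Ideal.mem_comap, map_sub, MvPolynomial.map_X, MvPolynomial.map_C] at h
    have h1 : (Int.castRingHom O) (((l₀ : ℕ) : ℤ) + 1) = ((l₀ : ℕ) : O) + 1 := by
      rw [map_add, map_one, map_natCast]
    rw [h1] at h
    exact h
  · refine tame_JT (q := ⟨r, hr⟩) hpr.symm (Dvd.intro_left N rfl) (fun h => hrN ?_) hc hτ hτc x hx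
      hτx σ hσ
    obtain ⟨d, hd⟩ := h
    refine ⟨d, ?_⟩
    have h1 : r * N = r * (r * d) := by
      rw [mul_comm r N, hd]
      ring
    exact Nat.eq_of_mul_eq_mul_left hr.pos h1

variable {O : Type} [CommRing O] [IsDomain O] [IsDiscreteValuationRing O]
  [IsAdicComplete (maximalIdeal O) O] [Finite (ResidueField O)]
  {rbar : GQ →* M2 (ResidueField O)} {sd : SliceData rbar}

/-- **Exactness for the modules of level `Γ₀(N l)`**, in terms of the comparison. -/
theorem exactM_of_cmpX (W : WeierstrassCurve ℤ) (hΔ : W.Δ ≠ 0) {n N p m : ℕ} [NeZero n]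
    {l : Nat.Primes} (hnl : n = N * l) (hlN : ¬ (l : ℕ) ∣ N) [hp : Fact p.Prime] (hpm : p ∣ m)
    (hp2 : p ≠ 2) (hpO : (p : O) ∈ maximalIdeal O) (h3 : Aux p N) (hm : m ≠ 0)
    (hn : n ∣ m) (hE : NonEis n (PP W m O)) (hno : ¬ W.IsResiduallyModularOfLevel p N)
    (hspan : Submodule.span (ResidueField O) (Set.range rbar) = ⊤) {φ τ : GQ}
    (hτ : RTan.TameAt p rbar l φ τ) (R : HRep (m := m) p n sd (Loc (PP W m O) (HG m n hn O)))
    (g : ℕ) (hcmp : CmpHG m n hn p O (PP W m O)) :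
    RT8.ExactM (bmod hn R g) ((bmod hn R g).C.r τ - 1) := by
  letI := R.modT
  obtain ⟨c, hc, hτc⟩ := hτ.root
  have h1 : ExM O (M := Loc (PP W m O) (HG m n hn O)) (R.C.r τ - 1) :=
    exM_of hp.out hp2 hpO hspan R hcmp
      (fun σ y t u ht hu => es_loc hm hn hpm R hcmp σ y t u ht hu)
      (fun y hy => exact_WX W hΔ hnl l.2 hlN hτ.ne.symm hp2 h3 hm hn hpO hE hno
        (c := c) hc hτ.mem hτc y hy)
      (fun P x => R.φ_smul P x)
  exact h1.pi (Fin (2 ^ g))

end Fermat.Agent.RTX
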