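import Fermat.Agent.RTM.LGWire

/-!
Local–global compatibility at the Taylor–Wiles primes for all the levels `N ∣ m`.
-/

set_option autoImplicit false
set_option linter.unusedSectionVars false

noncomputable section

namespace Fermat.Agent.RTX

open IsLocalRing Fermat.Agent.DefRing Fermat.Agent.RTan Fermat.Agent.LocRing
open Fermat.Agent.TWP (Pl Pl_lies Qb)
open Fermat.Agent.TW Fermat.Agent.TWDeg Fermat.Agent.RTM

variable {O : Type} [CommRing O] [IsDomain O] [IsDiscreteValuationRing O]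
  [IsAdicComplete (maximalIdeal O) O] [Finite (ResidueField O)] [CharZero O]
  {rbar : GQ →* M2 (ResidueField O)} {sd : SliceData rbar} {p : ℕ} [hp : Fact p.Prime]
  {W : WeierstrassCurve ℤ} {χ : GQ → O} {m : ℕ} {G : Gal sd p W χ m} (A : Amb G)

include A in
/-- **Local–global compatibility**, all levels `N ∣ m`, `m` even. -/
theorem lgX (h2m : 2 ∣ m) {N : ℕ} (hN : N ∣ m) (n : ℕ) (hM : (A.tw₀ hN n).M ∣ m * G.Q n) :
    LGHyp (A.tw₀ hN n) hM rbar (AlgebraicClosure (FractionRing O)) := by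
  by_cases h2 : 2 ∣ N
  · exact A.lg₀ hN h2 n hM
  · have hco : Nat.Coprime N 2 := ((Nat.Prime.coprime_iff_not_dvd Nat.prime_two).mpr h2).symm
    have hN2 : N * 2 ∣ m := hco.mul_dvd_of_dvd_of_dvd hN h2m
    have hM' : (A.tw₀ hN2 n).M ∣ m * G.Q n := by
      rw [A.tw₀_M]
      exact mul_dvd_mul_right hN2 _
    have hQ : 2 ∉ (A.tw₀ hN n).Q := fun h1 => by
      obtain ⟨i, hi⟩ := A.mem_Q₀ hN n h1
      exact G.avoid n i (by rw [hi]; exact h2m)
    have : CharZero (AlgebraicClosure (FractionRing O)) :=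
      inferInstanceAs (CharZero (EE O))
    exact lgHyp_of_raise Nat.prime_two hQ (W := A.tw₀ hN n) (hM := hM) hM' h2
      (A.lg₀ hN2 (dvd_mul_left 2 N) n hM')

end Fermat.Agent.RTX
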