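import Fermat.Agent.RTX.AmbX
import Fermat.Agent.RTX.LGX

/-!
The local–global compatibility hypothesis of the construction of the modules.
-/

set_option autoImplicit false
set_option linter.unusedSectionVars false

noncomputable section

namespace Fermat.Agent.RTX

open IsLocalRing Fermat.Agent.DefRing Fermat.Agent.RTan Fermat.Agent.LocRing
open Fermat.Agent.TWP (Pl Pl_lies Qb)
open Fermat.Agent.TW Fermat.Agent.TWDeg Fermat.Agent.RTM

variable {O : Type} [CommRing O] [IsDomain O] [IsDiscreteValuationRing O]
  [IsAdicComplete (maximalIdeal O) O] [Finite (ResidueField O)] [CharZero O]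
  {rbar : GQ →* M2 (ResidueField O)} {sd : SliceData rbar} {p : ℕ} [hp : Fact p.Prime]
  {W : WeierstrassCurve ℤ} {χ : GQ → O} {m s : ℕ} {G : Gal sd p W χ m}

/-- **Local–global compatibility** for the ambient data, `m` even. -/
theorem AmbX.ex (A : AmbX G s) (h2m : 2 ∣ m) : A.Ex :=
  ⟨fun h n => lgX A.toAmb h2m h.dvd n (A.hM h n)⟩

end Fermat.Agent.RTX
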