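import Fermat.Agent.RTX.FldsX
import Fermat.Agent.RTX.ExWX

/-!
The field `exact` of the supply, general levels.
-/

set_option autoImplicit false
set_option linter.unusedSectionVars false

noncomputable section

namespace Fermat.Agent.RTX

open IsLocalRing Fermat.Agent.DefRing Fermat.Agent.RTan Fermat.Agent.LocRing
open Fermat.Agent.TWP (Pl Pl_lies Qb)
open Fermat.Agent.TW Fermat.Agent.TWDeg
open Fermat.Agent.RTM

variable {O : Type} [CommRing O] [IsDomain O] [IsDiscreteValuationRing O]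
  [IsAdicComplete (maximalIdeal O) O] [Finite (ResidueField O)] [CharZero O]
  {rbar : GQ →* M2 (ResidueField O)} {sd : SliceData rbar} {p : ℕ} [hp : Fact p.Prime]
  {W : WeierstrassCurve ℤ} {χ : GQ → O} {m s : ℕ} {G : Gal sd p W χ m} (A : AmbX G s)

include A in
/-- **[exact]** -/
theorem AmbX.exactX (l : Nat.Primes) (hlp : (l : ℕ) ≠ p) (N : ℕ)
    (h' : OkX W p s m (N * l)) (h2 : s ∣ N) (hres : ¬ W.IsResiduallyModularOfLevel p N) :
    RT8.ExactM (A.B (N * l) h') ((A.B (N * l) h').C.r (G.τ l) - 1) := by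
  have := h'.neZero
  exact exactM_of_cmpX W A.hΔ rfl (h'.not_dvd l.2) A.hpm A.hp2 A.hpO (A.hs.aux h2) A.hm h'.dvd
    (A.hE m A.hm _ h'.sqf.ne_zero) hres A.hspan (G.tame l hlp) (A.R h') G.g
    (Ribet.cmpHG h'.dvd A.hpO (A.hE m A.hm _ h'.sqf.ne_zero))

end Fermat.Agent.RTX
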